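/-
Project S36 (Carayol), cell [TRI-INST], THE CHART MAP AND ITS `W₂`-MIRROR (helper20).
Prefix `s36tn_`.

Inputs `hcomm hint hA hB hC` of helper10's `s36tr_ChartHyp ι j 𝔫 u v ϖ q PF PV PA PB PC`
(S36/Tri/Chart.lean), abstractly and for the Legendre tower:

* `s36tn_comap_P`      : `(ssm_tp_P B₂ V₂).comap ι = ssm_tp_P B₁ V₁` as soon as `V₂ ∩ F₁ = V₁` on
  the maximal ideals (`ι : B₁ →+* B₂` a chart map over `j : F₁ →+* F₂`);
* `s36tn_mirror`       : the mirror map `ι' = W|_{B₂} ∘ ι`, `j' = W ∘ j` for a field automorphism `W`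
  of `F₂` preserving the chart `B₂`: `hcomm'`, `hint'`;
* `s36tn_mirror_comap` : `(ssm_tp_P B₂ (V.comap W)).comap ι' = (ssm_tp_P B₂ V).comap ι` for an
  involution `W` (so the hypotheses `hA hB hC` of the mirror structure follow from those of the
  direct one, `W VA = VB`, `W VC = VC`);
* `s36tn_leg_iota`     : the Legendre chart map `B_λ(N' q) →+* B_λ(N' q q)` with `hcomm`, `hint`,
  `ι ϖ = ϖ`.
-/
import Mathlib
import Fermat.Agent.S35.TauInst.Abstract
import Fermat.Agent.SS.Model.ComponentsInst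
import Fermat.Agent.SS.Model.TwoPrimes
import Fermat.Agent.SS.Model.TwoPrimesInst
import Fermat.Agent.S36.AL2.Cover

set_option autoImplicit false
set_option linter.unusedSectionVars false
set_option linter.unusedVariables false
set_option linter.style.haveILetI false

noncomputable section

namespace Fermat.Agent.S36

open Fermat.Agent.SS Fermat.Agent.JT3 Fermat.Agent.S35 IsLocalRing

section Abstract

variable {A0 : Type*} [CommRing A0] {F1 F2 : Type*} [Field F1] [Field F2] [Algebra A0 F1]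
  [Algebra A0 F2] {B1 : Subalgebra A0 F1} {B2 : Subalgebra A0 F2}

/-- **comap of a vertical prime along a chart map.** -/
theorem s36tn_comap_P (ι : B1 →+* B2) (j : F1 →+* F2)
    (hcomm : ∀ b : B1, ((ι b : B2) : F2) = j (b : F1))
    {V1 : ValuationSubring F1} {V2 : ValuationSubring F2}
    (hle1 : ∀ b ∈ B1, b ∈ V1) (hle2 : ∀ b ∈ B2, b ∈ V2)
    (hV : ∀ y : F1, j y ∈ V2.nonunits ↔ y ∈ V1.nonunits) :
    (ssm_tp_P B2 V2).comap ι = ssm_tp_P B1 V1 := by
  ext x
  rw [Ideal.mem_comap, ssm_tp_mem_P hle2, ssm_tp_mem_P hle1, hcomm, hV]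

/-- membership in the maximal ideal of a pulled-back valuation ring. -/
theorem s36tn_mem_comap_nonunits {F : Type*} [Field F] (W : F ≃+* F) (V : ValuationSubring F)
    (z : F) : z ∈ (V.comap (W : F →+* F)).nonunits ↔ W z ∈ V.nonunits := by
  rw [ValuationSubring.mem_nonunits_iff_or, ValuationSubring.mem_nonunits_iff_or,
    ValuationSubring.mem_comap]
  show z = 0 ∨ (W : F →+* F) z⁻¹ ∉ V ↔ W z = 0 ∨ (W z)⁻¹ ∉ V
  rw [map_inv₀, RingEquiv.coe_toRingHom, map_eq_zero]

variable (W : F2 ≃+* F2) (hWB : ∀ z, W z ∈ B2 ↔ z ∈ B2)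

/-- the mirror of a chart map `ι` under an automorphism `W` preserving the chart `B₂`. -/
def s36tn_mirror (ι : B1 →+* B2) : B1 →+* B2 :=
  ((s35ti_restrict W B2 hWB : B2 ≃+* B2) : B2 →+* B2).comp ι

theorem s36tn_mirror_coe (ι : B1 →+* B2) (b : B1) :
    ((s36tn_mirror W hWB ι b : B2) : F2) = W ((ι b : B2) : F2) := rfl

theorem s36tn_mirror_comm (ι : B1 →+* B2) (j : F1 →+* F2)
    (hcomm : ∀ b : B1, ((ι b : B2) : F2) = j (b : F1)) (b : B1) :
    ((s36tn_mirror W hWB ι b : B2) : F2) = ((W : F2 →+* F2).comp j) (b : F1) := by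
  rw [s36tn_mirror_coe, hcomm]
  rfl

theorem s36tn_mirror_isIntegral (ι : B1 →+* B2) (hint : ι.IsIntegral) :
    (s36tn_mirror W hWB ι).IsIntegral :=
  RingHom.IsIntegral.trans _ _ hint
    (RingHom.isIntegral_of_surjective _ (s35ti_restrict W B2 hWB).surjective)

/-- **comap of a vertical prime along the mirror map**, `W` an involution. -/
theorem s36tn_mirror_comap (hWW : ∀ z, W (W z) = z) (ι : B1 →+* B2)
    (V : ValuationSubring F2) (hle : ∀ b ∈ B2, b ∈ V) :
    (ssm_tp_P B2 (V.comap (W : F2 →+* F2))).comap (s36tn_mirror W hWB ι) =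
      (ssm_tp_P B2 V).comap ι := by
  have hle' : ∀ b ∈ B2, b ∈ V.comap (W : F2 →+* F2) := by
    intro b hb
    rw [ValuationSubring.mem_comap]
    exact hle _ ((hWB b).2 hb)
  ext x
  rw [Ideal.mem_comap, Ideal.mem_comap, ssm_tp_mem_P hle', ssm_tp_mem_P hle, s36tn_mirror_coe,
    s36tn_mem_comap_nonunits, hWW]

end Abstract

section Leg

variable {L : Type*} [Field L] [CharZero L] [Algebra L (AlgebraicClosure ℚ)]
  (O : ValuationSubring L) [IsDiscreteValuationRing O] (N' q : ℕ) [NeZero N'] [NeZero q]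

/-- **the Legendre chart map** `B_λ(N' q) →+* B_λ(N' q q)` induced by `E₁ ⊆ E₂`. -/
def s36tn_leg_iota :
    fc_chart ↥O ({lg_lamE (N' * q)} : Set ↥(lg_E L (N' * q))) →+*
      fc_chart ↥O ({lg_lamE (N' * q * q)} : Set ↥(lg_E L (N' * q * q))) :=
  letI := ssm_gi_algebra (s36w_E_le1 L N' q)
  haveI := ssm_gt_isScalarTower O (s36w_E_le1 L N' q)
  ssm_cpi_phi ↥O ↥(lg_E L (N' * q * q)) (lg_lamE (N' * q))

/-- `hcomm` of `s36tr_ChartHyp` (with `j := inclusion E₁ ⊆ E₂`). -/
theorem s36tn_leg_iota_coe (b : fc_chart ↥O ({lg_lamE (N' * q)} : Set ↥(lg_E L (N' * q)))) :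
    ((s36tn_leg_iota O N' q b : fc_chart ↥O ({lg_lamE (N' * q * q)} :
      Set ↥(lg_E L (N' * q * q)))) : ↥(lg_E L (N' * q * q))) =
      IntermediateField.inclusion (s36w_E_le1 L N' q) (b : ↥(lg_E L (N' * q))) := rfl

/-- `hint` of `s36tr_ChartHyp`. -/
theorem s36tn_leg_iota_isIntegral : (s36tn_leg_iota O N' q).IsIntegral := by
  letI := ssm_gi_algebra (s36w_E_le1 L N' q)
  haveI := ssm_gt_isScalarTower O (s36w_E_le1 L N' q)
  exact ssm_cpi_phi_isIntegral (A0 := ↥O) (E := ↥(lg_E L (N' * q * q))) (lg_lamE (N' * q))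

/-- `ι` is compatible with the base. -/
theorem s36tn_leg_iota_algebraMap (a : ↥O) :
    s36tn_leg_iota O N' q
        (algebraMap ↥O (fc_chart ↥O ({lg_lamE (N' * q)} : Set ↥(lg_E L (N' * q)))) a) =
      algebraMap ↥O (fc_chart ↥O ({lg_lamE (N' * q * q)} : Set ↥(lg_E L (N' * q * q)))) a := by
  letI := ssm_gi_algebra (s36w_E_le1 L N' q)
  haveI := ssm_gt_isScalarTower O (s36w_E_le1 L N' q)
  exact ssm_cpi_phi_algebraMap (A0 := ↥O) (E := ↥(lg_E L (N' * q * q))) (lg_lamE (N' * q)) a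

/-- `ι λ = λ`. -/
theorem s36tn_leg_iota_lam :
    s36tn_leg_iota O N' q ⟨lg_lamE (N' * q), fc_x_mem_chart _⟩ =
      ⟨lg_lamE (N' * q * q), fc_x_mem_chart _⟩ := by
  apply Subtype.ext
  apply Subtype.ext
  rfl

theorem s36tn_leg_iota_injective : Function.Injective (s36tn_leg_iota O N' q) := by
  intro a b hab
  have h1 := s36tn_leg_iota_coe O N' q a
  have h2 := s36tn_leg_iota_coe O N' q b
  rw [hab] at h1
  exact Subtype.ext ((IntermediateField.inclusion (s36w_E_le1 L N' q)).injective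
    (h1.symm.trans h2))

end Leg

end Fermat.Agent.S36
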