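/-
Project S36 (Carayol), cell [L3d]-Hes = Hesse twin of [TRI-INST], THE CHART MAP (helper22).
Prefix `s36tnh_`.

Hesse twin of the Legendre section of helper20's `S36/Tri/MapInst.lean` (the abstract part of that
file — `s36tn_comap_P`, `s36tn_mirror`, `s36tn_mirror_comap` — is tower independent and is used as
it is): inputs `hcomm hint` of helper10's `s36tr_ChartHyp ι j 𝔫 u v ϖ q PF PV PA PB PC`
(S36/Tri/Chart.lean) for the Hesse tower, coordinate `x = μ - 1`:

* `s36tnh_hes_iota`     : the Hesse chart map `B_{μ-1}(N' q) →+* B_{μ-1}(N' q q)` induced by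
  `E₁ = hs_E L h3 (N' q) ⊆ E₂ = hs_E L h3 (N' q q)`;
* `s36tnh_hes_iota_coe` (`hcomm`, with `j := inclusion E₁ ⊆ E₂`), `s36tnh_hes_iota_isIntegral`
  (`hint`), `s36tnh_hes_iota_algebraMap` (`ι ϖ = ϖ`), `s36tnh_hes_iota_x` (`ι x = x`),
  `s36tnh_hes_iota_injective`.
-/
import Mathlib
import Fermat.Agent.S36.Tri.MapInst
import Fermat.Agent.S36.AL2.CoverHesse
import Fermat.Agent.SS.Model.FactsHesse

set_option autoImplicit false
set_option linter.unusedSectionVars false
set_option linter.unusedVariables false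
set_option linter.style.haveILetI false

noncomputable section

namespace Fermat.Agent.S36

open Fermat.Agent.SS Fermat.Agent.JT3 Fermat.Agent.S35 IsLocalRing

section Gen

universe u v

variable (A0 : Type*) [CommRing A0] {K : Type u} (E : Type v) [Field K] [Field E] [Algebra K E]
  [Algebra A0 K] [Algebra A0 E] [IsScalarTower A0 K E]

/-- the chart map `fc_chart A0 {y} →+* fc_chart A0 {y'}` induced by `K → E` when `y ↦ y'`
(`ssm_cpi_phi` with the target chart spelled by a propositionally equal coordinate). -/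
def s36tnh_iota_gen (y : K) (y' : E) (h : algebraMap K E y = y') :
    fc_chart A0 ({y} : Set K) →+* fc_chart A0 ({y'} : Set E) where
  toFun b' := ⟨algebraMap K E (b' : K), h ▸ ssm_cpi_isIntegral_map (A0 := A0) (E := E) y b'.2⟩
  map_one' := Subtype.ext (by simp)
  map_mul' a b := Subtype.ext (by simp)
  map_zero' := Subtype.ext (by simp)
  map_add' a b := Subtype.ext (by simp)

variable {A0 E}

theorem s36tnh_iota_gen_coe (y : K) (y' : E) (h : algebraMap K E y = y')
    (b' : fc_chart A0 ({y} : Set K)) :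
    ((s36tnh_iota_gen A0 E y y' h b' : fc_chart A0 ({y'} : Set E)) : E) =
      algebraMap K E (b' : K) := rfl

theorem s36tnh_iota_gen_algebraMap (y : K) (y' : E) (h : algebraMap K E y = y') (a : A0) :
    s36tnh_iota_gen A0 E y y' h (algebraMap A0 (fc_chart A0 ({y} : Set K)) a) =
      algebraMap A0 (fc_chart A0 ({y'} : Set E)) a := by
  apply Subtype.ext
  rw [s36tnh_iota_gen_coe]
  change algebraMap K E (algebraMap A0 K a) = algebraMap A0 E a
  rw [← IsScalarTower.algebraMap_apply]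

theorem s36tnh_iota_gen_isIntegral (y : K) (y' : E) (h : algebraMap K E y = y') :
    (s36tnh_iota_gen A0 E y y' h).IsIntegral := by
  subst h
  exact ssm_cpi_phi_isIntegral (A0 := A0) (E := E) y

end Gen

section Hes

variable {L : Type*} [Field L] [CharZero L] [Algebra L (AlgebraicClosure ℚ)] (h3 : (3 : L) ≠ 0)
  (O : ValuationSubring L) [IsDiscreteValuationRing O] (N' q : ℕ) [NeZero N'] [NeZero q]

/-- the coordinate `x = μ - 1` of level `N' q` maps to the coordinate of level `N' q q`. -/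
theorem s36tnh_incl_x :
    IntermediateField.inclusion (s36w_h_E_le1 L h3 (ssm_fh_hF9 h3) N' q)
        (hs_muE h3 (N' * q) - 1) = hs_muE h3 (N' * q * q) - 1 := by
  rw [map_sub, map_one]
  congr 1

/-- **the Hesse chart map** `B_{μ-1}(N' q) →+* B_{μ-1}(N' q q)` induced by `E₁ ⊆ E₂`. -/
def s36tnh_hes_iota :
    fc_chart ↥O ({hs_muE h3 (N' * q) - 1} : Set ↥(hs_E L h3 (N' * q))) →+*
      fc_chart ↥O ({hs_muE h3 (N' * q * q) - 1} : Set ↥(hs_E L h3 (N' * q * q))) :=
  letI := ssm_gi_algebra (s36w_h_E_le1 L h3 (ssm_fh_hF9 h3) N' q)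
  haveI := ssm_gt_isScalarTower O (s36w_h_E_le1 L h3 (ssm_fh_hF9 h3) N' q)
  s36tnh_iota_gen ↥O ↥(hs_E L h3 (N' * q * q)) (hs_muE h3 (N' * q) - 1)
    (hs_muE h3 (N' * q * q) - 1) (s36tnh_incl_x h3 N' q)

/-- `hcomm` of `s36tr_ChartHyp` (with `j := inclusion E₁ ⊆ E₂`). -/
theorem s36tnh_hes_iota_coe
    (b : fc_chart ↥O ({hs_muE h3 (N' * q) - 1} : Set ↥(hs_E L h3 (N' * q)))) :
    ((s36tnh_hes_iota h3 O N' q b : fc_chart ↥O ({hs_muE h3 (N' * q * q) - 1} :
      Set ↥(hs_E L h3 (N' * q * q)))) : ↥(hs_E L h3 (N' * q * q))) =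
      IntermediateField.inclusion (s36w_h_E_le1 L h3 (ssm_fh_hF9 h3) N' q)
        (b : ↥(hs_E L h3 (N' * q))) := rfl

/-- `hint` of `s36tr_ChartHyp`. -/
theorem s36tnh_hes_iota_isIntegral : (s36tnh_hes_iota h3 O N' q).IsIntegral := by
  letI := ssm_gi_algebra (s36w_h_E_le1 L h3 (ssm_fh_hF9 h3) N' q)
  haveI := ssm_gt_isScalarTower O (s36w_h_E_le1 L h3 (ssm_fh_hF9 h3) N' q)
  exact s36tnh_iota_gen_isIntegral (A0 := ↥O) (E := ↥(hs_E L h3 (N' * q * q)))
    (hs_muE h3 (N' * q) - 1) (hs_muE h3 (N' * q * q) - 1) (s36tnh_incl_x h3 N' q)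

/-- `ι` is compatible with the base. -/
theorem s36tnh_hes_iota_algebraMap (a : ↥O) :
    s36tnh_hes_iota h3 O N' q
        (algebraMap ↥O (fc_chart ↥O ({hs_muE h3 (N' * q) - 1} : Set ↥(hs_E L h3 (N' * q)))) a) =
      algebraMap ↥O
        (fc_chart ↥O ({hs_muE h3 (N' * q * q) - 1} : Set ↥(hs_E L h3 (N' * q * q)))) a := by
  letI := ssm_gi_algebra (s36w_h_E_le1 L h3 (ssm_fh_hF9 h3) N' q)
  haveI := ssm_gt_isScalarTower O (s36w_h_E_le1 L h3 (ssm_fh_hF9 h3) N' q)
  exact s36tnh_iota_gen_algebraMap (A0 := ↥O) (E := ↥(hs_E L h3 (N' * q * q)))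
    (hs_muE h3 (N' * q) - 1) (hs_muE h3 (N' * q * q) - 1) (s36tnh_incl_x h3 N' q) a

/-- `ι x = x`. -/
theorem s36tnh_hes_iota_x :
    s36tnh_hes_iota h3 O N' q ⟨hs_muE h3 (N' * q) - 1, fc_x_mem_chart _⟩ =
      ⟨hs_muE h3 (N' * q * q) - 1, fc_x_mem_chart _⟩ := by
  apply Subtype.ext
  rw [s36tnh_hes_iota_coe]
  exact s36tnh_incl_x h3 N' q

theorem s36tnh_hes_iota_injective : Function.Injective (s36tnh_hes_iota h3 O N' q) := by
  intro a b hab
  have h1 := s36tnh_hes_iota_coe h3 O N' q a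
  have h2 := s36tnh_hes_iota_coe h3 O N' q b
  rw [hab] at h1
  exact Subtype.ext ((IntermediateField.inclusion
    (s36w_h_E_le1 L h3 (ssm_fh_hF9 h3) N' q)).injective (h1.symm.trans h2))

end Hes

end Fermat.Agent.S36
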