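/-
Project S36 (Carayol), cell [TRI] (helper10): the TRIPLE POINT, abstract core.
Prefix `s36tr_`.  Imports: Mathlib + SS/Krull (`sskr_dvd`) + JT3/FCore/LocalUFD (`fc_ufd`).

Setting (`s36tr_Hyp`): `R` a noetherian local domain with `𝔪_R = (u, v)`, `u`, `v` prime, non
associated (the local ring of the level-`q` model at a supersingular node `Q`, `u v = q · unit`);
`S ⊇ R` a noetherian integrally closed domain, integral over `R` (the level-`q²` chart localised at
the complement of `𝔫_Q`; a priori only semilocal); three primes `PA PB PC` of `S`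
(the three vertical components) with `PA ∩ R = (u) = PC ∩ R`, `PB ∩ R = (v)`;
* `hvert`: every prime of `S` containing `u v` contains one of them;
* `heA`, `heB`: `u v` generates `PA S_PA` resp. `PB S_PB` (ramification index one; POINTWISE
  form `∀ x ∈ P, ∃ s ∉ P, u v ∣ s x`, i.e. `x / (u v) ∈ S_P`);
* `heC`: `PC S_PC = (z)` and `u v ~ z ^ (q - 1)` there (ramification index `q - 1`);
* `hsmB`: `S / PB` is integrally closed, OR there is `t` with `𝔐 = PB + (t)` for every maximal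
  `𝔐` (the component `B` is smooth at the point; the second form is `ss_SmoothAt`-like);
* `hinsB`: `x ^ q ∈ R + PB` for all `x : S` (`κ(B)/κ(V)` is purely inseparable of exponent one).

Conclusions: `S` is LOCAL (`s36tr_isLocalRing`), `PB = (v)` (`s36tr_span_v`), `v` is prime in `S`,
`𝔪_S = (v, t)` (`s36tr_exists_t`), `S` is a UFD (`s36tr_ufd`), `PA = (a)`, `PC = (c)`,
`u = unit · a · c ^ (q - 1)` and `𝔪_S = (a, v) = (c, v)` (`s36tr_main`).
-/
import Mathlib
import Fermat.Agent.SS.Krull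
import Fermat.Agent.JT3.FCore.LocalUFD

set_option autoImplicit false
set_option linter.unusedSectionVars false

namespace Fermat.Agent.S36

open Ideal IsLocalRing

variable {R S : Type*} [CommRing R] [IsDomain R] [IsLocalRing R] [IsNoetherianRing R]
  [CommRing S] [IsDomain S] [IsNoetherianRing S] [IsIntegrallyClosed S]
  [Algebra R S] [FaithfulSMul R S] [Algebra.IsIntegral R S]

/-- The hypotheses at a triple point, without the smoothness of `B` (see the header). -/
structure s36tr_Hyp0 (u v : R) (q : ℕ) (PA PB PC : Ideal S) : Prop where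
  hmax : maximalIdeal R = Ideal.span {u, v}
  hu : Prime u
  hv : Prime v
  huv : ¬ v ∣ u
  hq : 2 ≤ q
  hPA : PA.IsPrime
  hPB : PB.IsPrime
  hPC : PC.IsPrime
  hA : PA.comap (algebraMap R S) = Ideal.span {u}
  hB : PB.comap (algebraMap R S) = Ideal.span {v}
  hC : PC.comap (algebraMap R S) = Ideal.span {u}
  hAC : PA ≠ PC
  hvert : ∀ 𝔮 : Ideal S, 𝔮.IsPrime → algebraMap R S (u * v) ∈ 𝔮 → PA ≤ 𝔮 ∨ PB ≤ 𝔮 ∨ PC ≤ 𝔮
  heA : ∀ x ∈ PA, ∃ s : S, s ∉ PA ∧ algebraMap R S (u * v) ∣ s * x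
  heB : ∀ x ∈ PB, ∃ s : S, s ∉ PB ∧ algebraMap R S (u * v) ∣ s * x
  heC : ∃ z ∈ PC, (∀ x ∈ PC, ∃ s : S, s ∉ PC ∧ z ∣ s * x) ∧
    (∃ s : S, s ∉ PC ∧ algebraMap R S (u * v) ∣ s * z ^ (q - 1)) ∧
    (∃ s : S, s ∉ PC ∧ z ^ (q - 1) ∣ s * algebraMap R S (u * v))
  hinsB : ∀ x : S, ∃ y : R, x ^ q - algebraMap R S y ∈ PB

/-- The hypotheses at a triple point (see the header): `s36tr_Hyp0` + smoothness of `B`. -/
structure s36tr_Hyp (u v : R) (q : ℕ) (PA PB PC : Ideal S) : Prop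
    extends s36tr_Hyp0 u v q PA PB PC where
  hsmB : IsIntegrallyClosed (S ⧸ PB) ∨
    ∃ t : S, ∀ 𝔐 : Ideal S, 𝔐.IsMaximal → t ∈ 𝔐 ∧ 𝔐 ≤ PB ⊔ Ideal.span {t}

namespace s36tr_Hyp0

variable {u v : R} {q : ℕ} {PA PB PC : Ideal S} (H : s36tr_Hyp0 u v q PA PB PC)
include H

theorem inj : Function.Injective (algebraMap R S) := FaithfulSMul.algebraMap_injective R S

theorem u_mem_A : algebraMap R S u ∈ PA := by
  have : u ∈ PA.comap (algebraMap R S) := by rw [H.hA]; exact Ideal.mem_span_singleton_self u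
  exact this

theorem u_mem_C : algebraMap R S u ∈ PC := by
  have : u ∈ PC.comap (algebraMap R S) := by rw [H.hC]; exact Ideal.mem_span_singleton_self u
  exact this

theorem v_mem_B : algebraMap R S v ∈ PB := by
  have : v ∈ PB.comap (algebraMap R S) := by rw [H.hB]; exact Ideal.mem_span_singleton_self v
  exact this

theorem not_u_dvd_v : ¬ u ∣ v := by
  rintro ⟨k, hk⟩
  have hirr := H.hv.irreducible
  rcases hirr.isUnit_or_isUnit hk with h | h
  · exact H.hu.not_isUnit h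
  · obtain ⟨w, rfl⟩ := h
    apply H.huv
    refine ⟨↑w⁻¹, ?_⟩
    rw [hk, mul_assoc, Units.mul_inv, mul_one]

theorem v_notMem_A : algebraMap R S v ∉ PA := by
  intro h
  have : v ∈ PA.comap (algebraMap R S) := h
  rw [H.hA, Ideal.mem_span_singleton] at this
  exact H.not_u_dvd_v this

theorem v_notMem_C : algebraMap R S v ∉ PC := by
  intro h
  have : v ∈ PC.comap (algebraMap R S) := h
  rw [H.hC, Ideal.mem_span_singleton] at this
  exact H.not_u_dvd_v this

theorem u_notMem_B : algebraMap R S u ∉ PB := by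
  intro h
  have : u ∈ PB.comap (algebraMap R S) := h
  rw [H.hB, Ideal.mem_span_singleton] at this
  exact H.huv this

theorem u_ne : algebraMap R S u ≠ 0 := by
  rw [Ne, map_eq_zero_iff _ H.inj]; exact H.hu.ne_zero

theorem v_ne : algebraMap R S v ≠ 0 := by
  rw [Ne, map_eq_zero_iff _ H.inj]; exact H.hv.ne_zero

theorem A_ne_bot : PA ≠ ⊥ := fun h => H.u_ne (by have := H.u_mem_A; rwa [h] at this)
theorem B_ne_bot : PB ≠ ⊥ := fun h => H.v_ne (by have := H.v_mem_B; rwa [h] at this)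
theorem C_ne_bot : PC ≠ ⊥ := fun h => H.u_ne (by have := H.u_mem_C; rwa [h] at this)

/-- a prime of height `≤ 1` containing a nonzero prime equals it. -/
theorem eq_of_height_le {P 𝔮 : Ideal S} [P.IsPrime] (hP : P ≠ ⊥) (hle : P ≤ 𝔮)
    (hht : 𝔮.height ≤ 1) : P = 𝔮 := by
  refine Ideal.eq_of_le_of_height_le P hle (hht.trans ?_)
  rw [Order.one_le_iff_pos, pos_iff_ne_zero, Ne, Ideal.height_eq_zero_iff_eq_bot]
  exact hP

/-- a prime of height `≤ 1` containing `v` is `PB`. -/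
theorem eq_B_of_height_le {𝔮 : Ideal S} [𝔮.IsPrime] (hv𝔮 : algebraMap R S v ∈ 𝔮)
    (hht : 𝔮.height ≤ 1) : 𝔮 = PB := by
  have hA := H.hPA
  have hB := H.hPB
  have hC := H.hPC
  have huv : algebraMap R S (u * v) ∈ 𝔮 := by
    rw [map_mul]; exact 𝔮.mul_mem_left _ hv𝔮
  rcases H.hvert 𝔮 inferInstance huv with h | h | h
  · exfalso
    have := H.eq_of_height_le H.A_ne_bot h hht
    exact H.v_notMem_A (this ▸ hv𝔮)
  · exact (H.eq_of_height_le H.B_ne_bot h hht).symm
  · exfalso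
    have := H.eq_of_height_le H.C_ne_bot h hht
    exact H.v_notMem_C (this ▸ hv𝔮)

/-- `PB` is the only minimal prime over `v S`. -/
theorem minimal_v {𝔮 : Ideal S} (h𝔮 : 𝔮 ∈ (Ideal.span {algebraMap R S v}).minimalPrimes) :
    𝔮 = PB := by
  have hp : 𝔮.IsPrime := h𝔮.1.1
  have hht : 𝔮.height ≤ 1 := Ideal.height_le_one_of_isPrincipal_of_mem_minimalPrimes _ 𝔮 h𝔮
  exact H.eq_B_of_height_le (h𝔮.1.2 (Ideal.mem_span_singleton_self _)) hht

/-- **`v S = PB`** (unmixedness of principal ideals in the normal domain `S`). -/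
theorem span_v : Ideal.span {algebraMap R S v} = PB := by
  have hB := H.hPB
  refine le_antisymm ((Ideal.span_singleton_le_iff_mem _).2 H.v_mem_B) ?_
  intro x hx
  rw [Ideal.mem_span_singleton]
  refine Fermat.Agent.SS.sskr_dvd H.v_ne ?_
  intro 𝔭 h𝔭 hht
  by_cases hv𝔭 : algebraMap R S v ∈ 𝔭
  · have : 𝔭 = PB := H.eq_B_of_height_le hv𝔭 hht.le
    obtain ⟨s, hs, hsx⟩ := H.heB x hx
    refine ⟨s, this ▸ hs, ?_⟩
    refine dvd_trans ?_ hsx
    rw [map_mul]
    exact dvd_mul_left _ _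
  · exact ⟨algebraMap R S v, hv𝔭, dvd_mul_right _ _⟩

/-- `v` is a prime element of `S`. -/
theorem prime_v : Prime (algebraMap R S v) := by
  have hB := H.hPB
  rw [← Ideal.span_singleton_prime H.v_ne, H.span_v]
  exact hB

/-- every maximal ideal of `S` contains `PB`. -/
theorem B_le_maximal (𝔐 : Ideal S) [h𝔐 : 𝔐.IsMaximal] : PB ≤ 𝔐 := by
  have h1 : (𝔐.comap (algebraMap R S)).IsMaximal :=
    Ideal.isMaximal_comap_of_isIntegral_of_isMaximal 𝔐
  have h2 : 𝔐.comap (algebraMap R S) = maximalIdeal R := eq_maximalIdeal h1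
  have hv𝔐 : algebraMap R S v ∈ 𝔐 := by
    have : v ∈ 𝔐.comap (algebraMap R S) := by
      rw [h2, H.hmax]; exact Ideal.subset_span (by simp)
    exact this
  rw [← H.span_v]
  exact (Ideal.span_singleton_le_iff_mem _).2 hv𝔐

/-- **`S` is local**: there is only one point over the node. -/
theorem isLocalRing : IsLocalRing S := by
  obtain ⟨𝔐, h𝔐⟩ := Ideal.exists_maximal S
  refine IsLocalRing.of_unique_max_ideal ⟨𝔐, h𝔐, ?_⟩
  have key : ∀ (M M' : Ideal S), M.IsMaximal → M'.IsMaximal → M ≤ M' := by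
    intro M M' hM hM' x hx
    obtain ⟨y, hy⟩ := H.hinsB x
    have h1 : (M.comap (algebraMap R S)).IsMaximal :=
      Ideal.isMaximal_comap_of_isIntegral_of_isMaximal M
    have h1' : (M'.comap (algebraMap R S)).IsMaximal :=
      Ideal.isMaximal_comap_of_isIntegral_of_isMaximal M'
    have h2 : M.comap (algebraMap R S) = M'.comap (algebraMap R S) :=
      (eq_maximalIdeal h1).trans (eq_maximalIdeal h1').symm
    have hyM : algebraMap R S y ∈ M := by
      have h3 : x ^ q - algebraMap R S y ∈ M := H.B_le_maximal M hy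
      have h4 : x ^ q ∈ M := M.pow_mem_of_mem hx q (by have := H.hq; omega)
      have := M.sub_mem h4 h3
      rwa [sub_sub_cancel] at this
    have hyM' : algebraMap R S y ∈ M' := by
      have : y ∈ M.comap (algebraMap R S) := hyM
      rw [h2] at this
      exact this
    have h5 : x ^ q ∈ M' := by
      have h3 : x ^ q - algebraMap R S y ∈ M' := H.B_le_maximal M' hy
      have := M'.add_mem h3 hyM'
      rwa [sub_add_cancel] at this
    exact hM'.isPrime.mem_of_pow_mem q h5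
  intro M' hM'
  exact le_antisymm (key M' 𝔐 hM' h𝔐) (key 𝔐 M' h𝔐 hM')

/-- in `R`, a prime strictly containing `(v)` is the maximal ideal (`R / v` is a DVR). -/
theorem lt_v_eq_max {𝔭 : Ideal R} [h𝔭 : 𝔭.IsPrime] (hlt : Ideal.span {v} < 𝔭) :
    𝔭 = maximalIdeal R := by
  have hv𝔭 : v ∈ 𝔭 := hlt.le (Ideal.mem_span_singleton_self v)
  have hu𝔭 : u ∈ 𝔭 := by
    by_contra hu
    apply hlt.not_ge
    have hjac : Ideal.span {u} ≤ Ideal.jacobson (⊥ : Ideal R) := by
      rw [Ideal.span_le, Set.singleton_subset_iff]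
      refine IsLocalRing.maximalIdeal_le_jacobson _ ?_
      rw [H.hmax]; exact Ideal.subset_span (by simp)
    refine Submodule.le_of_le_smul_of_le_jacobson_bot (IsNoetherian.noetherian 𝔭) hjac ?_
    intro r hr
    have hrm : r ∈ Ideal.span {u, v} := by
      rw [← H.hmax]; exact IsLocalRing.le_maximalIdeal h𝔭.ne_top hr
    obtain ⟨α, β, hαβ⟩ := Ideal.mem_span_pair.1 hrm
    have hαu : α * u ∈ 𝔭 := by
      have : α * u = r - β * v := by rw [← hαβ]; ring
      rw [this]; exact 𝔭.sub_mem hr (𝔭.mul_mem_left β hv𝔭)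
    have hα : α ∈ 𝔭 := (h𝔭.mem_or_mem hαu).resolve_right hu
    rw [← hαβ, add_comm]
    refine Submodule.add_mem_sup (Ideal.mul_mem_left _ β (Ideal.mem_span_singleton_self v)) ?_
    rw [mul_comm]
    exact Submodule.smul_mem_smul (Ideal.mem_span_singleton_self u) hα
  refine le_antisymm (IsLocalRing.le_maximalIdeal h𝔭.ne_top) ?_
  rw [H.hmax, Ideal.span_le]
  intro x hx
  rcases hx with rfl | rfl
  · exact hu𝔭
  · exact hv𝔭

/-- a prime of `S` strictly containing `PB` is maximal. -/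
theorem lt_B_isMaximal {𝔮 : Ideal S} [h𝔮 : 𝔮.IsPrime] (hlt : PB < 𝔮) : 𝔮.IsMaximal := by
  have hB := H.hPB
  have h1 : PB.comap (algebraMap R S) < 𝔮.comap (algebraMap R S) :=
    Ideal.IsIntegral.comap_lt_comap hlt
  rw [H.hB] at h1
  have h2 : 𝔮.comap (algebraMap R S) = maximalIdeal R := H.lt_v_eq_max h1
  refine Ideal.isMaximal_of_isIntegral_of_isMaximal_comap (R := R) 𝔮 ?_
  rw [h2]
  exact maximalIdeal.isMaximal R

end s36tr_Hyp0

namespace s36tr_Hyp

variable {u v : R} {q : ℕ} {PA PB PC : Ideal S} (H : s36tr_Hyp u v q PA PB PC)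
include H

/-- `𝔪_S = (v, t)` when `S / PB` is integrally closed. -/
theorem exists_t_of_ic (hic : IsIntegrallyClosed (S ⧸ PB)) :
    ∃ (𝔐 : Ideal S) (t : S), 𝔐.IsMaximal ∧ (∀ 𝔐' : Ideal S, 𝔐'.IsMaximal → 𝔐' = 𝔐) ∧
    𝔐 = Ideal.span {algebraMap R S v, t} := by
  have hB := H.hPB
  have := H.isLocalRing
  refine ⟨maximalIdeal S, ?_⟩
  set mk := Ideal.Quotient.mk PB with hmk
  have hsurj : Function.Surjective mk := Ideal.Quotient.mk_surjective
  have : IsLocalRing (S ⧸ PB) := IsLocalRing.of_surjective' mk hsurj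
  have hker : RingHom.ker mk = PB := Ideal.mk_ker
  have hprimes : ∀ P : Ideal (S ⧸ PB), P ≠ ⊥ → P.IsPrime → P = maximalIdeal (S ⧸ PB) := by
    intro P hP0 hPp
    have hcp : (P.comap mk).IsPrime := Ideal.comap_isPrime mk P
    have hle : PB ≤ P.comap mk := by
      intro x hx
      change mk x ∈ P
      rw [hmk, (Ideal.Quotient.eq_zero_iff_mem).2 hx]
      exact P.zero_mem
    have hne : PB ≠ P.comap mk := by
      intro h
      apply hP0
      rw [← Ideal.map_comap_of_surjective mk hsurj P, ← h]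
      exact Ideal.map_quotient_self PB
    have hmax : (P.comap mk).IsMaximal := H.lt_B_isMaximal (lt_of_le_of_ne hle hne)
    have h2 : (Ideal.map mk (P.comap mk)).IsMaximal :=
      Ideal.IsMaximal.map_of_surjective_of_ker_le hsurj (le_trans (le_of_eq hker) hle)
    rw [Ideal.map_comap_of_surjective mk hsurj P] at h2
    exact eq_maximalIdeal h2
  have hprinc : (maximalIdeal (S ⧸ PB)).IsPrincipal := by
    have h34 := (tfae_of_isNoetherianRing_of_isLocalRing_of_isDomain (S ⧸ PB)).out 3 4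
    exact h34.1 ⟨hic, hprimes⟩
  obtain ⟨tbar, htbar⟩ := hprinc.principal
  obtain ⟨t, rfl⟩ := hsurj tbar
  refine ⟨t, maximalIdeal.isMaximal S, fun 𝔐' h => eq_maximalIdeal h, ?_⟩
  have hBle : PB ≤ maximalIdeal S := H.B_le_maximal _
  have hmem_iff : ∀ x : S, x ∈ maximalIdeal S ↔ mk x ∈ maximalIdeal (S ⧸ PB) := by
    intro x
    rw [mem_maximalIdeal, mem_maximalIdeal, mem_nonunits_iff, mem_nonunits_iff, not_iff_not]
    constructor
    · intro h; exact h.map mk
    · intro h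
      obtain ⟨ybar, hy⟩ := h.exists_right_inv
      obtain ⟨y, rfl⟩ := hsurj ybar
      have h1 : x * y - 1 ∈ PB := by
        rw [← Ideal.Quotient.eq_zero_iff_mem, map_sub, map_mul, map_one]
        change mk x * mk y - 1 = 0
        rw [hy, sub_self]
      by_contra hx
      have hxm : x ∈ maximalIdeal S := hx
      have h2 : x * y ∈ maximalIdeal S := Ideal.mul_mem_right _ _ hxm
      have h3 : (1 : S) ∈ maximalIdeal S := by
        have := (maximalIdeal S).sub_mem h2 (hBle h1)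
        rwa [sub_sub_cancel] at this
      exact (maximalIdeal.isMaximal S).ne_top ((Ideal.eq_top_iff_one _).2 h3)
  apply le_antisymm
  · intro x hx
    have h1 : mk x ∈ maximalIdeal (S ⧸ PB) := (hmem_iff x).1 hx
    rw [htbar] at h1
    obtain ⟨kbar, hk⟩ := Submodule.mem_span_singleton.1 h1
    obtain ⟨k, rfl⟩ := hsurj kbar
    have h2 : x - k * t ∈ PB := by
      rw [← Ideal.Quotient.eq_zero_iff_mem, map_sub, map_mul]
      change mk x - mk k * mk t = 0
      rw [← hk, smul_eq_mul, sub_self]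
    rw [← H.span_v, Ideal.mem_span_singleton] at h2
    obtain ⟨j, hj⟩ := h2
    rw [Ideal.mem_span_pair]
    refine ⟨j, k, ?_⟩
    have : x = algebraMap R S v * j + k * t := by rw [← hj]; ring
    rw [this]; ring
  · rw [Ideal.span_le]
    intro x hx
    rcases hx with rfl | rfl
    · exact hBle H.v_mem_B
    · rw [SetLike.mem_coe, hmem_iff, htbar]
      exact Submodule.mem_span_singleton_self _

/-- **`𝔪_S = (v, t)`**: `S` is a regular local ring of dimension two. -/
theorem exists_t : ∃ (𝔐 : Ideal S) (t : S), 𝔐.IsMaximal ∧ (∀ 𝔐' : Ideal S, 𝔐'.IsMaximal → 𝔐' = 𝔐) ∧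
    𝔐 = Ideal.span {algebraMap R S v, t} := by
  rcases H.hsmB with hic | ⟨t, ht⟩
  · exact H.exists_t_of_ic hic
  · have := H.isLocalRing
    refine ⟨maximalIdeal S, t, maximalIdeal.isMaximal S, fun 𝔐' h => eq_maximalIdeal h, ?_⟩
    obtain ⟨ht1, ht2⟩ := ht _ (maximalIdeal.isMaximal S)
    apply le_antisymm
    · rw [Ideal.span_insert, H.span_v]
      exact ht2
    · rw [Ideal.span_le]
      intro x hx
      rcases hx with rfl | rfl
      · exact H.B_le_maximal _ H.v_mem_B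
      · exact ht1

/-- **`S` is a UFD.** -/
theorem ufd : UniqueFactorizationMonoid S := by
  have := H.isLocalRing
  obtain ⟨𝔐, t, h𝔐, -, ht⟩ := H.exists_t
  have : maximalIdeal S = Ideal.span {algebraMap R S v, t} := by
    rw [← ht]; exact (eq_maximalIdeal h𝔐).symm
  exact Fermat.Agent.JT3.fc_ufd H.prime_v this

/-- `PA = (a)` with `a` prime, `u = a u₁`, `u₁ ∣ s`, `s ∉ PA` (so `a` divides `u` exactly once). -/
theorem exists_a [UniqueFactorizationMonoid S] : ∃ a u1 s : S, Prime a ∧ PA = Ideal.span {a} ∧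
    algebraMap R S u = a * u1 ∧ s ∉ PA ∧ u1 ∣ s := by
  have hA := H.hPA
  obtain ⟨f, hf, hfu⟩ := UniqueFactorizationMonoid.exists_prime_factors (algebraMap R S u) H.u_ne
  have hfA : f.prod ∈ PA := by
    obtain ⟨w, hw⟩ := hfu.symm
    rw [← hw]
    exact Ideal.mul_mem_right _ _ H.u_mem_A
  obtain ⟨a, haf, haA⟩ := (hA.multiset_prod_mem_iff_exists_mem f).1 hfA
  have hap : Prime a := hf a haf
  have hau : a ∣ algebraMap R S u := (Multiset.dvd_prod haf).trans hfu.dvd
  obtain ⟨u1, hu1⟩ := hau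
  have hnas : ∀ s : S, s ∉ PA → ¬ a ∣ s := by
    rintro s hs ⟨k, rfl⟩
    exact hs (Ideal.mul_mem_right _ _ haA)
  obtain ⟨s, hs, hsa⟩ := H.heA a haA
  refine ⟨a, u1, s, hap, ?_, hu1, hs, ?_⟩
  · refine le_antisymm ?_ ((Ideal.span_singleton_le_iff_mem _).2 haA)
    intro x hx
    rw [Ideal.mem_span_singleton]
    obtain ⟨s', hs', hsx⟩ := H.heA x hx
    have h1 : a ∣ s' * x := by
      refine dvd_trans ?_ hsx
      rw [map_mul, hu1, mul_assoc]
      exact dvd_mul_right _ _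
    exact (hap.dvd_or_dvd h1).resolve_left (hnas s' hs')
  · obtain ⟨k, hk⟩ := hsa
    rw [map_mul, hu1] at hk
    have h2 : a * s = a * (u1 * algebraMap R S v * k) := by
      rw [mul_comm a s, hk]; ring
    have h3 := mul_left_cancel₀ hap.ne_zero h2
    rw [h3, mul_assoc]
    exact dvd_mul_right _ _

/-- `PC = (c)` with `c` prime, `c ^ (q - 1) ∣ u`, `¬ c ^ q ∣ u`. -/
theorem exists_c [UniqueFactorizationMonoid S] : ∃ c : S, Prime c ∧ PC = Ideal.span {c} ∧
    c ^ (q - 1) ∣ algebraMap R S u ∧ ¬ c ^ q ∣ algebraMap R S u := by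
  have hC := H.hPC
  obtain ⟨z, hzC, h1, ⟨s2, hs2, h2⟩, ⟨s3, hs3, h3⟩⟩ := H.heC
  have hz0 : z ≠ 0 := by
    rintro rfl
    obtain ⟨s1, hs1, this⟩ := h1 _ H.u_mem_C
    rw [zero_dvd_iff, mul_eq_zero] at this
    rcases this with h | h
    · exact hs1 (h ▸ PC.zero_mem)
    · exact H.u_ne h
  obtain ⟨f, hf, hfz⟩ := UniqueFactorizationMonoid.exists_prime_factors z hz0
  have hfC : f.prod ∈ PC := by
    obtain ⟨w, hw⟩ := hfz.symm
    rw [← hw]
    exact Ideal.mul_mem_right _ _ hzC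
  obtain ⟨c, hcf, hcC⟩ := (hC.multiset_prod_mem_iff_exists_mem f).1 hfC
  have hcp : Prime c := hf c hcf
  have hcz : c ∣ z := (Multiset.dvd_prod hcf).trans hfz.dvd
  have hnc : ∀ s : S, s ∉ PC → ¬ c ∣ s := by
    rintro s hs ⟨k, rfl⟩
    exact hs (Ideal.mul_mem_right _ _ hcC)
  have hncv : ¬ c ∣ algebraMap R S v := by
    rintro ⟨k, hk⟩
    exact H.v_notMem_C (hk ▸ Ideal.mul_mem_right _ _ hcC)
  obtain ⟨z', hz'⟩ := hcz
  have hz'C : ¬ c ∣ z' := by
    obtain ⟨s1, hs1, k, hk⟩ := h1 c hcC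
    rw [hz'] at hk
    have h4 : c * s1 = c * (z' * k) := by rw [mul_comm c s1, hk]; ring
    have h5 := mul_left_cancel₀ hcp.ne_zero h4
    intro h
    exact hnc s1 hs1 (h.trans ⟨k, h5⟩)
  refine ⟨c, hcp, ?_, ?_, ?_⟩
  · refine le_antisymm ?_ ((Ideal.span_singleton_le_iff_mem _).2 hcC)
    intro x hx
    rw [Ideal.mem_span_singleton]
    obtain ⟨s1, hs1, h1x⟩ := h1 x hx
    have h4 : c ∣ s1 * x := (Dvd.intro _ hz'.symm).trans h1x
    exact (hcp.dvd_or_dvd h4).resolve_left (hnc s1 hs1)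
  · have h4 : c ^ (q - 1) ∣ s3 * algebraMap R S (u * v) := by
      refine dvd_trans ?_ h3
      exact pow_dvd_pow_of_dvd (Dvd.intro _ hz'.symm) _
    have h5 := hcp.pow_dvd_of_dvd_mul_left (q - 1) (hnc s3 hs3) h4
    rw [map_mul] at h5
    exact hcp.pow_dvd_of_dvd_mul_right (q - 1) hncv h5
  · intro h
    have hq1 : q = (q - 1) + 1 := by have := H.hq; omega
    have h4 : c ^ q ∣ s2 * z ^ (q - 1) := by
      refine dvd_trans ?_ h2
      rw [map_mul]
      exact h.trans (dvd_mul_right _ _)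
    rw [hz', mul_pow] at h4
    obtain ⟨k, hk⟩ := h4
    have h6 : c ^ (q - 1) * (s2 * z' ^ (q - 1)) = c ^ (q - 1) * (c * k) := by
      have : c ^ q = c ^ (q - 1) * c := by rw [← pow_succ, ← hq1]
      rw [this] at hk
      rw [← mul_assoc (c ^ (q - 1)) c k, ← hk]; ring
    have h7 := mul_left_cancel₀ (pow_ne_zero _ hcp.ne_zero) h6
    have h8 : c ∣ s2 * z' ^ (q - 1) := ⟨k, h7⟩
    rcases hcp.dvd_or_dvd h8 with h9 | h9
    · exact hnc s2 hs2 h9
    · exact hz'C (hcp.dvd_of_dvd_pow h9)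

/-- **factorisation of `u`** in the UFD `S`: `u = w · a · c ^ (q - 1)`. -/
theorem factor_u [UniqueFactorizationMonoid S] : ∃ (a c : S) (w : Sˣ), Prime a ∧ Prime c ∧
    PA = Ideal.span {a} ∧ PC = Ideal.span {c} ∧ algebraMap R S u = w * a * c ^ (q - 1) := by
  obtain ⟨a, u1, s, hap, hPAa, hu1, hs, hu1s⟩ := H.exists_a
  obtain ⟨c, hcp, hPCc, hcu, hcq⟩ := H.exists_c
  have haA : a ∈ PA := by rw [hPAa]; exact Ideal.mem_span_singleton_self a
  have hcC : c ∈ PC := by rw [hPCc]; exact Ideal.mem_span_singleton_self c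
  have hnca : ¬ c ∣ a := by
    intro h
    have hass : Associated c a := (hcp.dvd_prime_iff_associated hap).1 h
    apply H.hAC
    rw [hPAa, hPCc]
    exact (Ideal.span_singleton_eq_span_singleton.2 hass).symm
  have hcu1 : c ^ (q - 1) ∣ u1 := by
    rw [hu1] at hcu
    exact hcp.pow_dvd_of_dvd_mul_left (q - 1) hnca hcu
  obtain ⟨w, hw⟩ := hcu1
  have hw0 : w ≠ 0 := by
    rintro rfl
    apply H.u_ne
    rw [hu1, hw, mul_zero, mul_zero]
  have hwu : IsUnit w := by
    by_contra hnu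
    obtain ⟨p, hpirr, hpw⟩ := WfDvdMonoid.exists_irreducible_factor hnu hw0
    have hpp : Prime p := UniqueFactorizationMonoid.irreducible_iff_prime.1 hpirr
    have hpu1 : p ∣ u1 := hpw.trans (Dvd.intro_left _ hw.symm)
    have hpu : p ∣ algebraMap R S u := hpu1.trans (Dvd.intro_left _ hu1.symm)
    have hprime : (Ideal.span {p}).IsPrime := (Ideal.span_singleton_prime hpp.ne_zero).2 hpp
    have hmem : algebraMap R S (u * v) ∈ Ideal.span {p} := by
      rw [Ideal.mem_span_singleton, map_mul]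
      exact hpu.trans (dvd_mul_right _ _)
    rcases H.hvert _ hprime hmem with h | h | h
    · have h1 : p ∣ a := Ideal.mem_span_singleton.1 (h haA)
      have hass : Associated p a := (hpp.dvd_prime_iff_associated hap).1 h1
      have h2 : a ∣ s := hass.symm.dvd.trans (hpu1.trans hu1s)
      obtain ⟨k, rfl⟩ := h2
      exact hs (Ideal.mul_mem_right _ _ haA)
    · have h1 : p ∣ algebraMap R S v := Ideal.mem_span_singleton.1 (h H.v_mem_B)
      have hass : Associated p (algebraMap R S v) := (hpp.dvd_prime_iff_associated H.prime_v).1 h1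
      have h2 : algebraMap R S v ∣ algebraMap R S u := hass.symm.dvd.trans hpu
      apply H.u_notMem_B
      rw [← H.span_v, Ideal.mem_span_singleton]
      exact h2
    · have h1 : p ∣ c := Ideal.mem_span_singleton.1 (h hcC)
      have hass : Associated p c := (hpp.dvd_prime_iff_associated hcp).1 h1
      have h2 : c ∣ w := hass.symm.dvd.trans hpw
      apply hcq
      obtain ⟨k, rfl⟩ := h2
      have hq1 : q = (q - 1) + 1 := by have := H.hq; omega
      rw [hu1, hw]
      refine ⟨a * k, ?_⟩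
      have : c ^ q = c ^ (q - 1) * c := by rw [← pow_succ, ← hq1]
      rw [this]; ring
  obtain ⟨w', rfl⟩ := hwu
  refine ⟨a, c, w', hap, hcp, hPAa, hPCc, ?_⟩
  rw [hu1, hw]; ring

/-- **The triple point** (one-sided form): `S` is a regular local UFD, the three components are
principal, `u = w · a · c ^ (q - 1)`, and `B` meets `A` and `C` transversally:
`𝔪_S = (v, t) = (a, v) = (c, v)`; moreover `u ≡ unit · t ^ q` modulo `v`. -/
theorem main : ∃ (𝔐 : Ideal S) (a c t : S) (w w' : Sˣ) (k : S), 𝔐.IsMaximal ∧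
    (∀ 𝔐' : Ideal S, 𝔐'.IsMaximal → 𝔐' = 𝔐) ∧
    Prime (algebraMap R S v) ∧ Prime a ∧ Prime c ∧
    PA = Ideal.span {a} ∧ PB = Ideal.span {algebraMap R S v} ∧ PC = Ideal.span {c} ∧
    algebraMap R S u = w * a * c ^ (q - 1) ∧
    𝔐 = Ideal.span {algebraMap R S v, t} ∧ 𝔐 = Ideal.span {a, algebraMap R S v} ∧
    𝔐 = Ideal.span {c, algebraMap R S v} ∧
    algebraMap R S u = w' * t ^ q + algebraMap R S v * k := by
  have hA := H.hPA
  have hB := H.hPB
  have hC := H.hPC
  have hloc := H.isLocalRing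
  have hufd := H.ufd
  obtain ⟨𝔐, t, h𝔐, huniq, h𝔐t⟩ := H.exists_t
  obtain ⟨a, c, w, hap, hcp, hPAa, hPCc, hfac⟩ := H.factor_u
  have h𝔐eq : 𝔐 = maximalIdeal S := eq_maximalIdeal h𝔐
  have hBle : PB ≤ 𝔐 := H.B_le_maximal 𝔐
  have hv𝔐 : algebraMap R S v ∈ 𝔐 := hBle H.v_mem_B
  have ht𝔐 : t ∈ 𝔐 := by rw [h𝔐t]; exact Ideal.subset_span (by simp)
  have ha𝔐 : a ∈ 𝔐 := by
    rw [h𝔐eq]
    refine IsLocalRing.le_maximalIdeal hA.ne_top ?_
    rw [hPAa]; exact Ideal.mem_span_singleton_self a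
  have hc𝔐 : c ∈ 𝔐 := by
    rw [h𝔐eq]
    refine IsLocalRing.le_maximalIdeal hC.ne_top ?_
    rw [hPCc]; exact Ideal.mem_span_singleton_self c
  have hu𝔐 : algebraMap R S u ∈ 𝔐 := by
    rw [h𝔐eq]
    exact IsLocalRing.le_maximalIdeal hA.ne_top H.u_mem_A
  -- `t ∉ PB`
  have htB : t ∉ PB := by
    intro h
    apply H.u_notMem_B
    have : 𝔐 ≤ PB := by
      rw [h𝔐t, Ideal.span_le]
      intro x hx
      rcases hx with rfl | rfl
      · exact H.v_mem_B
      · exact h
    exact this hu𝔐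
  -- the purely inseparable relation for `t`
  obtain ⟨y, hy⟩ := H.hinsB t
  have hq0 : q ≠ 0 := by have := H.hq; omega
  have hy𝔐 : algebraMap R S y ∈ 𝔐 := by
    have h1 : t ^ q ∈ 𝔐 := 𝔐.pow_mem_of_mem ht𝔐 q (Nat.pos_of_ne_zero hq0)
    have := 𝔐.sub_mem h1 (hBle hy)
    rwa [sub_sub_cancel] at this
  have hyR : y ∈ Ideal.span {u, v} := by
    rw [← H.hmax, mem_maximalIdeal, mem_nonunits_iff]
    intro hyu
    exact h𝔐.ne_top (Ideal.eq_top_of_isUnit_mem _ hy𝔐 (hyu.map (algebraMap R S)))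
  obtain ⟨α, β, hαβ⟩ := Ideal.mem_span_pair.1 hyR
  -- expansions of `a`, `c` in `(v, t)`
  obtain ⟨a2, a1, ha12⟩ := Ideal.mem_span_pair.1 (h𝔐t ▸ ha𝔐)
  obtain ⟨c2, c1, hc12⟩ := Ideal.mem_span_pair.1 (h𝔐t ▸ hc𝔐)
  -- pass to the quotient by `PB`
  set mk := Ideal.Quotient.mk PB with hmk
  have hmkv : mk (algebraMap R S v) = 0 := Ideal.Quotient.eq_zero_iff_mem.2 H.v_mem_B
  have hmkt : mk t ≠ 0 := fun h => htB (Ideal.Quotient.eq_zero_iff_mem.1 h)
  have hmka : mk a = mk a1 * mk t := by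
    rw [← ha12, map_add, map_mul, map_mul, hmkv, mul_zero, zero_add]
  have hmkc : mk c = mk c1 * mk t := by
    rw [← hc12, map_add, map_mul, map_mul, hmkv, mul_zero, zero_add]
  have hmky : mk (algebraMap R S y) = mk (algebraMap R S α) * mk (algebraMap R S u) := by
    rw [← hαβ, map_add, map_add, map_mul, map_mul, map_mul, map_mul, hmkv, mul_zero, add_zero]
  have hmktq : mk t ^ q = mk (algebraMap R S y) := by
    have := Ideal.Quotient.eq_zero_iff_mem.2 hy
    rw [map_sub, map_pow, sub_eq_zero] at this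
    exact this
  have hq1 : q = (q - 1) + 1 := by have := H.hq; omega
  have hkey : mk t ^ q * (mk (algebraMap R S α) * mk (w : S) * mk a1 * mk c1 ^ (q - 1)) = mk t ^ q := by
    have h1 : mk t ^ q = mk t * mk t ^ (q - 1) := by rw [← pow_succ', ← hq1]
    calc mk t ^ q * (mk (algebraMap R S α) * mk (w : S) * mk a1 * mk c1 ^ (q - 1))
        = mk (algebraMap R S α) * (mk (w : S) * (mk a1 * mk t) * (mk c1 * mk t) ^ (q - 1)) := by
          rw [mul_pow, h1]; ring
      _ = mk (algebraMap R S α) * mk (algebraMap R S u) := by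
          rw [← hmka, ← hmkc, hfac, map_mul, map_mul, map_pow]
      _ = mk t ^ q := by rw [← hmky, hmktq]
  have hone : mk (algebraMap R S α) * mk (w : S) * mk a1 * mk c1 ^ (q - 1) = 1 := by
    have h0 : mk t ^ q ≠ 0 := pow_ne_zero _ hmkt
    have : mk t ^ q * (mk (algebraMap R S α) * mk (w : S) * mk a1 * mk c1 ^ (q - 1)) =
        mk t ^ q * 1 := by rw [hkey, mul_one]
    exact mul_left_cancel₀ h0 this
  -- lift to a unit of `S`
  have hprodu : IsUnit (algebraMap R S α * (w : S) * a1 * c1 ^ (q - 1)) := by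
    by_contra hnu
    have hmem : algebraMap R S α * (w : S) * a1 * c1 ^ (q - 1) ∈ 𝔐 := by
      rw [h𝔐eq, mem_maximalIdeal, mem_nonunits_iff]; exact hnu
    have h1 : 1 - algebraMap R S α * (w : S) * a1 * c1 ^ (q - 1) ∈ PB := by
      rw [← Ideal.Quotient.eq_zero_iff_mem, map_sub, map_one, map_mul, map_mul, map_mul, map_pow]
      change 1 - mk (algebraMap R S α) * mk (w : S) * mk a1 * mk c1 ^ (q - 1) = 0
      rw [hone, sub_self]
    have h2 := 𝔐.add_mem (hBle h1) hmem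
    rw [sub_add_cancel] at h2
    exact h𝔐.ne_top ((Ideal.eq_top_iff_one _).2 h2)
  have hc1u : IsUnit c1 := by
    have := (IsUnit.mul_iff.1 hprodu).2
    exact (isUnit_pow_iff (by have := H.hq; omega)).1 this
  have ha1u : IsUnit a1 := (IsUnit.mul_iff.1 (IsUnit.mul_iff.1 hprodu).1).2
  have hαu : IsUnit (algebraMap R S α) :=
    (IsUnit.mul_iff.1 (IsUnit.mul_iff.1 (IsUnit.mul_iff.1 hprodu).1).1).1
  obtain ⟨a1', rfl⟩ := ha1u
  obtain ⟨c1', rfl⟩ := hc1u
  obtain ⟨α', hα'⟩ := hαu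
  -- `y - t ^ q ∈ (v)`
  have hyv : t ^ q - algebraMap R S y ∈ Ideal.span {algebraMap R S v} := by rw [H.span_v]; exact hy
  obtain ⟨j, hj⟩ := Ideal.mem_span_singleton.1 hyv
  refine ⟨𝔐, a, c, t, w, α'⁻¹, (↑α'⁻¹ : S) * (- j - algebraMap R S β), h𝔐, huniq, H.prime_v, hap, hcp, hPAa,
    H.span_v.symm, hPCc, hfac, h𝔐t, ?_, ?_, ?_⟩
  · -- `𝔐 = (a, v)`
    apply le_antisymm
    · rw [h𝔐t, Ideal.span_le]
      intro x hx
      rcases hx with hx | hx
      · rw [hx]; exact Ideal.subset_span (by simp)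
      · rw [Set.mem_singleton_iff] at hx
        have : t = (↑a1'⁻¹ : S) * a + (- (↑a1'⁻¹ : S) * a2) * algebraMap R S v := by
          rw [← ha12]
          have h1 : (↑a1'⁻¹ : S) * (a1' : S) = 1 := Units.inv_mul a1'
          linear_combination (-t) * h1
        rw [SetLike.mem_coe, hx, this]
        exact Ideal.mem_span_pair.2 ⟨_, _, rfl⟩
    · rw [Ideal.span_le]
      intro x hx
      rcases hx with rfl | rfl
      · exact ha𝔐
      · exact hv𝔐
  · -- `𝔐 = (c, v)`
    apply le_antisymm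
    · rw [h𝔐t, Ideal.span_le]
      intro x hx
      rcases hx with hx | hx
      · rw [hx]; exact Ideal.subset_span (by simp)
      · rw [Set.mem_singleton_iff] at hx
        have : t = (↑c1'⁻¹ : S) * c + (- (↑c1'⁻¹ : S) * c2) * algebraMap R S v := by
          rw [← hc12]
          have h1 : (↑c1'⁻¹ : S) * (c1' : S) = 1 := Units.inv_mul c1'
          linear_combination (-t) * h1
        rw [SetLike.mem_coe, hx, this]
        exact Ideal.mem_span_pair.2 ⟨_, _, rfl⟩
    · rw [Ideal.span_le]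
      intro x hx
      rcases hx with rfl | rfl
      · exact hc𝔐
      · exact hv𝔐
  · -- `u = α⁻¹ t ^ q + v k`
    have h1 : (↑α'⁻¹ : S) * (α' : S) = 1 := Units.inv_mul α'
    have h2 : algebraMap R S y = algebraMap R S α * algebraMap R S u +
        algebraMap R S β * algebraMap R S v := by
      rw [← hαβ, map_add, map_mul, map_mul]
    rw [← hα'] at h2
    linear_combination (-(algebraMap R S u)) * h1 - (↑α'⁻¹ : S) * h2 - (↑α'⁻¹ : S) * hj

end s36tr_Hyp

/-- **The triple point, two-sided form**: if the hypotheses hold for `R` (components `A`, `B`, `C`)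
and for a second subring `R'` (the `W₂`-mirror: the roles of `A` and `B` exchanged), then `S` is a
regular local UFD, `PA = (a)`, `PB = (b)`, `PC = (c)`, `u v = w · a · b · c ^ (q - 1)` and the three
components are pairwise transversal: `𝔪_S = (a, b) = (a, c) = (b, c)`. -/
theorem s36tr_both {R' : Type*} [CommRing R'] [IsDomain R'] [IsLocalRing R'] [IsNoetherianRing R']
    [Algebra R' S] [FaithfulSMul R' S] [Algebra.IsIntegral R' S]
    {u v : R} {u' v' : R'} {q : ℕ} {PA PB PC : Ideal S}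
    (H : s36tr_Hyp u v q PA PB PC) (H' : s36tr_Hyp u' v' q PB PA PC) :
    ∃ (𝔐 : Ideal S) (a b c : S) (w : Sˣ), 𝔐.IsMaximal ∧
      (∀ 𝔐' : Ideal S, 𝔐'.IsMaximal → 𝔐' = 𝔐) ∧ UniqueFactorizationMonoid S ∧
      Prime a ∧ Prime b ∧ Prime c ∧
      PA = Ideal.span {a} ∧ PB = Ideal.span {b} ∧ PC = Ideal.span {c} ∧
      algebraMap R S (u * v) = w * a * b * c ^ (q - 1) ∧
      𝔐 = Ideal.span {a, b} ∧ 𝔐 = Ideal.span {a, c} ∧ 𝔐 = Ideal.span {b, c} := by
  obtain ⟨𝔐, a, c, t, w, w', k, h𝔐, huniq, hvp, hap, hcp, hPA, hPB, hPC, hfac, h𝔐t, h𝔐av, h𝔐cv, -⟩ :=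
    H.main
  obtain ⟨𝔐2, a2, c2, t2, w2, w2', k2, h𝔐2, huniq2, hvp2, hap2, hcp2, hPA2, hPB2, hPC2, hfac2, h𝔐t2,
    h𝔐av2, h𝔐cv2, -⟩ := H'.main
  have h𝔐𝔐 : 𝔐2 = 𝔐 := huniq 𝔐2 h𝔐2
  refine ⟨𝔐, a, algebraMap R S v, c, w, h𝔐, huniq, H.ufd, hap, hvp, hcp, hPA, hPB, hPC, ?_, h𝔐av, ?_, ?_⟩
  · rw [map_mul, hfac]; ring
  · -- `𝔐 = (c₂, v') = (c) ⊔ (a)`
    rw [← h𝔐𝔐, h𝔐cv2, Ideal.span_insert, Ideal.span_insert, ← hPC2, ← hPB2, hPC, hPA, sup_comm]
  · rw [h𝔐cv, Ideal.span_insert, Ideal.span_insert, sup_comm]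

end Fermat.Agent.S36
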