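/-
Project S36 (Carayol), cell [TRI] (helper10): SEMILOCALISATION KIT (prefix `s36tr_`).

`B1 → B2` domains with fraction fields `F1 → F2` (`ι : B1 →+* B2`, `j : F1 →+* F2`, compatible),
`𝔫` a prime of `B1`.  `s36tr_semi F2 ι 𝔫 ⊆ F2` is `B2` localised at `ι (B1 ∖ 𝔫)`; it contains the
image of the local ring `ssl_locSub F1 𝔫` under `j` (`s36tr_rho`), is integral over it if `ι` is
integral, noetherian / integrally closed if `B2` is, and its primes are the primes of `B2` whose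
contraction to `B1` lies in `𝔫`.
-/
import Mathlib
import Fermat.Agent.SS.Local.Height1

set_option autoImplicit false
set_option linter.unusedSectionVars false

namespace Fermat.Agent.S36

open Ideal IsLocalRing Fermat.Agent.SS

section Semi

variable {B1 : Type*} [CommRing B1] [IsDomain B1] {F1 : Type*} [Field F1] [Algebra B1 F1]
  [IsFractionRing B1 F1]
  {B2 : Type*} [CommRing B2] [IsDomain B2] (F2 : Type*) [Field F2] [Algebra B2 F2]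
  [IsFractionRing B2 F2]
  (ι : B1 →+* B2) (𝔫 : Ideal B1) [h𝔫 : 𝔫.IsPrime]

/-- the multiplicative set `ι (B1 ∖ 𝔫)` of `B2`. -/
def s36tr_M : Submonoid B2 := Submonoid.map ι 𝔫.primeCompl

variable {ι 𝔫}

theorem s36tr_mem_M {m : B2} : m ∈ s36tr_M ι 𝔫 ↔ ∃ s : B1, s ∉ 𝔫 ∧ ι s = m := by
  constructor
  · rintro ⟨s, hs, rfl⟩; exact ⟨s, hs, rfl⟩
  · rintro ⟨s, hs, rfl⟩; exact ⟨s, hs, rfl⟩

theorem s36tr_M_le (hι : Function.Injective ι) : s36tr_M ι 𝔫 ≤ nonZeroDivisors B2 := by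
  rintro m ⟨s, hs, rfl⟩
  refine mem_nonZeroDivisors_of_ne_zero ?_
  rw [Ne, map_eq_zero_iff ι hι]
  rintro rfl
  exact hs 𝔫.zero_mem

variable (ι 𝔫)

/-- **the semilocalisation** `B2[ι (B1 ∖ 𝔫)⁻¹] ⊆ F2`. -/
noncomputable def s36tr_semi (hι : Function.Injective ι) : Subalgebra B2 F2 :=
  Localization.subalgebra.ofField F2 (s36tr_M ι 𝔫) (s36tr_M_le hι)

instance s36tr_semi_isLocalization (hι : Function.Injective ι) :
    IsLocalization (s36tr_M ι 𝔫) (s36tr_semi F2 ι 𝔫 hι) :=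
  Localization.subalgebra.isLocalization_ofField F2 (s36tr_M ι 𝔫) (s36tr_M_le hι)

instance s36tr_semi_isFractionRing (hι : Function.Injective ι) :
    IsFractionRing (s36tr_semi F2 ι 𝔫 hι) F2 :=
  Localization.subalgebra.isFractionRing_ofField F2 (s36tr_M ι 𝔫) (s36tr_M_le hι)

variable {F2 ι 𝔫}

theorem s36tr_mem_semi (hι : Function.Injective ι) {z : F2} :
    z ∈ s36tr_semi F2 ι 𝔫 hι ↔
      ∃ (s : B1) (b : B2), s ∉ 𝔫 ∧ algebraMap B2 F2 (ι s) * z = algebraMap B2 F2 b := by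
  constructor
  · rintro ⟨a, m, hm, rfl⟩
    obtain ⟨s, hs, rfl⟩ := s36tr_mem_M.1 hm
    refine ⟨s, a, hs, ?_⟩
    have h0 : algebraMap B2 F2 (ι s) ≠ 0 := by
      rw [Ne, IsFractionRing.to_map_eq_zero_iff, map_eq_zero_iff ι hι]
      rintro rfl
      exact hs 𝔫.zero_mem
    field_simp
  · rintro ⟨s, b, hs, h⟩
    refine ⟨b, ι s, s36tr_mem_M.2 ⟨s, hs, rfl⟩, ?_⟩
    have h0 : algebraMap B2 F2 (ι s) ≠ 0 := by
      rw [Ne, IsFractionRing.to_map_eq_zero_iff, map_eq_zero_iff ι hι]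
      rintro rfl
      exact hs 𝔫.zero_mem
    rw [← h]
    field_simp

theorem s36tr_semi_isNoetherianRing (hι : Function.Injective ι) [IsNoetherianRing B2] :
    IsNoetherianRing (s36tr_semi F2 ι 𝔫 hι) :=
  IsLocalization.isNoetherianRing (s36tr_M ι 𝔫) _ inferInstance

theorem s36tr_semi_isIntegrallyClosed (hι : Function.Injective ι) [IsIntegrallyClosed B2] :
    IsIntegrallyClosed (s36tr_semi F2 ι 𝔫 hι) :=
  isIntegrallyClosed_of_isLocalization _ (s36tr_M ι 𝔫) (s36tr_M_le hι)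

section Rho

variable (j : F1 →+* F2)

/-- `ι` is injective as soon as it is compatible with a map of fraction fields. -/
theorem s36tr_inj (hcomm : ∀ b : B1, algebraMap B2 F2 (ι b) = j (algebraMap B1 F1 b)) :
    Function.Injective ι := by
  rw [injective_iff_map_eq_zero]
  intro b hb
  have h1 : j (algebraMap B1 F1 b) = 0 := by rw [← hcomm, hb, map_zero]
  rw [map_eq_zero, IsFractionRing.to_map_eq_zero_iff] at h1
  exact h1

variable {j}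

theorem s36tr_j_mem (hcomm : ∀ b : B1, algebraMap B2 F2 (ι b) = j (algebraMap B1 F1 b))
    {z : F1} (hz : z ∈ ssl_locSub F1 𝔫) : j z ∈ s36tr_semi F2 ι 𝔫 (s36tr_inj j hcomm) := by
  obtain ⟨a, s, hs, h⟩ := (ssl_mem_locSub 𝔫 z).1 hz
  rw [s36tr_mem_semi]
  refine ⟨s, ι a, hs, ?_⟩
  rw [hcomm, hcomm, ← h, map_mul, mul_comm]

variable (𝔫) in
/-- the map of local rings `(B1)_𝔫 → B2[ι (B1 ∖ 𝔫)⁻¹]` induced by `j`. -/
noncomputable def s36tr_rho (hcomm : ∀ b : B1, algebraMap B2 F2 (ι b) = j (algebraMap B1 F1 b)) :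
    ssl_locSub F1 𝔫 →+* s36tr_semi F2 ι 𝔫 (s36tr_inj j hcomm) :=
  (j.comp (ssl_locSub F1 𝔫).val.toRingHom).codRestrict (s36tr_semi F2 ι 𝔫 (s36tr_inj j hcomm))
    (fun x => s36tr_j_mem hcomm x.2)

theorem s36tr_rho_coe (hcomm : ∀ b : B1, algebraMap B2 F2 (ι b) = j (algebraMap B1 F1 b))
    (x : ssl_locSub F1 𝔫) : ((s36tr_rho 𝔫 hcomm x : s36tr_semi F2 ι 𝔫 (s36tr_inj j hcomm)) : F2) =
      j (x : F1) := rfl

theorem s36tr_rho_injective (hcomm : ∀ b : B1, algebraMap B2 F2 (ι b) = j (algebraMap B1 F1 b)) :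
    Function.Injective (s36tr_rho 𝔫 hcomm) := by
  intro x y hxy
  have h1 : j (x : F1) = j (y : F1) := by
    rw [← s36tr_rho_coe hcomm x, ← s36tr_rho_coe hcomm y, hxy]
  exact Subtype.ext (j.injective h1)

theorem s36tr_rho_algebraMap (hcomm : ∀ b : B1, algebraMap B2 F2 (ι b) = j (algebraMap B1 F1 b))
    (b : B1) : s36tr_rho 𝔫 hcomm (algebraMap B1 (ssl_locSub F1 𝔫) b) =
      algebraMap B2 (s36tr_semi F2 ι 𝔫 (s36tr_inj j hcomm)) (ι b) := by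
  apply Subtype.ext
  rw [s36tr_rho_coe]
  exact (hcomm b).symm

/-- `ι (B1 ∖ 𝔫)` consists of units of the semilocalisation. -/
theorem s36tr_isUnit_of_notMem (hι : Function.Injective ι) {s : B1} (hs : s ∉ 𝔫) :
    IsUnit (algebraMap B2 (s36tr_semi F2 ι 𝔫 hι) (ι s)) :=
  IsLocalization.map_units (s36tr_semi F2 ι 𝔫 hι)
    (⟨ι s, s36tr_mem_M.2 ⟨s, hs, rfl⟩⟩ : s36tr_M ι 𝔫)

/-- every element of the semilocalisation is `b / ι s`. -/
theorem s36tr_semi_surj (hι : Function.Injective ι) (x : s36tr_semi F2 ι 𝔫 hι) :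
    ∃ (s : B1) (b : B2), s ∉ 𝔫 ∧
      algebraMap B2 (s36tr_semi F2 ι 𝔫 hι) (ι s) * x = algebraMap B2 _ b := by
  obtain ⟨s, b, hs, h⟩ := (s36tr_mem_semi hι).1 x.2
  exact ⟨s, b, hs, Subtype.ext h⟩

/-- **integrality** of the semilocalisation over the local ring. -/
theorem s36tr_rho_isIntegral (hcomm : ∀ b : B1, algebraMap B2 F2 (ι b) = j (algebraMap B1 F1 b))
    (hint : ι.IsIntegral) : (s36tr_rho 𝔫 hcomm).IsIntegral := by
  intro x
  obtain ⟨s, b, hs, h⟩ := s36tr_semi_surj (s36tr_inj j hcomm) x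
  -- `b` is integral
  have hb : (s36tr_rho 𝔫 hcomm).IsIntegralElem
      (algebraMap B2 (s36tr_semi F2 ι 𝔫 (s36tr_inj j hcomm)) b) := by
    obtain ⟨p, hp, hpb⟩ := hint b
    refine ⟨p.map (algebraMap B1 (ssl_locSub F1 𝔫)), hp.map _, ?_⟩
    rw [Polynomial.eval₂_map]
    have hcomp : (s36tr_rho 𝔫 hcomm).comp (algebraMap B1 (ssl_locSub F1 𝔫)) =
        (algebraMap B2 (s36tr_semi F2 ι 𝔫 (s36tr_inj j hcomm))).comp ι := by
      ext b'
      exact congrArg Subtype.val (s36tr_rho_algebraMap hcomm b')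
    rw [hcomp, ← Polynomial.hom_eval₂, hpb, map_zero]
  -- `1 / ι s` is in the image
  have hsu : IsUnit (algebraMap B1 (ssl_locSub F1 𝔫) s) :=
    (IsLocalization.AtPrime.isUnit_to_map_iff (ssl_locSub F1 𝔫) 𝔫 s).2 hs
  obtain ⟨w, hw⟩ := hsu
  have hx : x = algebraMap B2 (s36tr_semi F2 ι 𝔫 (s36tr_inj j hcomm)) b *
      s36tr_rho 𝔫 hcomm (↑w⁻¹ : ssl_locSub F1 𝔫) := by
    have h1 : s36tr_rho 𝔫 hcomm (↑w⁻¹ : ssl_locSub F1 𝔫) *
        algebraMap B2 (s36tr_semi F2 ι 𝔫 (s36tr_inj j hcomm)) (ι s) = 1 := by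
      rw [← s36tr_rho_algebraMap hcomm, ← hw, ← map_mul, Units.inv_mul, map_one]
    rw [← h]
    calc x = (s36tr_rho 𝔫 hcomm (↑w⁻¹ : ssl_locSub F1 𝔫) *
          algebraMap B2 (s36tr_semi F2 ι 𝔫 (s36tr_inj j hcomm)) (ι s)) * x := by
            rw [h1, one_mul]
      _ = _ := by ring
  rw [hx]
  exact RingHom.IsIntegralElem.mul _ hb (RingHom.isIntegralElem_map _)

end Rho

section Primes

variable (hι : Function.Injective ι) (P : Ideal B2) [hP : P.IsPrime]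

theorem s36tr_disjoint (hP𝔫 : P.comap ι ≤ 𝔫) :
    Disjoint (s36tr_M ι 𝔫 : Set B2) (P : Set B2) := by
  rw [Set.disjoint_left]
  rintro m hm hmP
  obtain ⟨s, hs, rfl⟩ := s36tr_mem_M.1 hm
  exact hs (hP𝔫 hmP)

/-- the extension of a prime of `B2` through `𝔫` is prime. -/
theorem s36tr_map_isPrime (hP𝔫 : P.comap ι ≤ 𝔫) :
    (P.map (algebraMap B2 (s36tr_semi F2 ι 𝔫 hι))).IsPrime :=
  IsLocalization.isPrime_of_isPrime_disjoint (s36tr_M ι 𝔫) _ P hP (s36tr_disjoint P hP𝔫)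

theorem s36tr_comap_map (hP𝔫 : P.comap ι ≤ 𝔫) :
    (P.map (algebraMap B2 (s36tr_semi F2 ι 𝔫 hι))).comap (algebraMap B2 _) = P :=
  IsLocalization.under_map_of_isPrime_disjoint (s36tr_M ι 𝔫) _ hP (s36tr_disjoint P hP𝔫)

omit hP in
theorem s36tr_mem_map {x : s36tr_semi F2 ι 𝔫 hι} :
    x ∈ P.map (algebraMap B2 (s36tr_semi F2 ι 𝔫 hι)) ↔
      ∃ (s : B1) (p : B2), s ∉ 𝔫 ∧ p ∈ P ∧
        algebraMap B2 (s36tr_semi F2 ι 𝔫 hι) (ι s) * x = algebraMap B2 _ p := by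
  rw [IsLocalization.mem_map_algebraMap_iff (s36tr_M ι 𝔫)]
  constructor
  · rintro ⟨⟨⟨p, hp⟩, ⟨m, hm⟩⟩, h⟩
    obtain ⟨s, hs, rfl⟩ := s36tr_mem_M.1 hm
    refine ⟨s, p, hs, hp, ?_⟩
    rw [mul_comm]; exact h
  · rintro ⟨s, p, hs, hp, h⟩
    refine ⟨⟨⟨p, hp⟩, ⟨ι s, s36tr_mem_M.2 ⟨s, hs, rfl⟩⟩⟩, ?_⟩
    rw [mul_comm]; exact h

end Primes

section Comap

variable {j : F1 →+* F2} (P : Ideal B2) [hP : P.IsPrime]

/-- contraction to the local ring: `(P S) ∩ R = (P ∩ B1) R`. -/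
theorem s36tr_comap_rho (hcomm : ∀ b : B1, algebraMap B2 F2 (ι b) = j (algebraMap B1 F1 b))
    (hP𝔫 : P.comap ι ≤ 𝔫) :
    (P.map (algebraMap B2 (s36tr_semi F2 ι 𝔫 (s36tr_inj j hcomm)))).comap (s36tr_rho 𝔫 hcomm) =
      (P.comap ι).map (algebraMap B1 (ssl_locSub F1 𝔫)) := by
  set J := (P.map (algebraMap B2 (s36tr_semi F2 ι 𝔫 (s36tr_inj j hcomm)))).comap (s36tr_rho 𝔫 hcomm)
    with hJ
  have h1 : J.comap (algebraMap B1 (ssl_locSub F1 𝔫)) = P.comap ι := by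
    ext b
    rw [Ideal.mem_comap, hJ, Ideal.mem_comap, s36tr_rho_algebraMap hcomm, Ideal.mem_comap,
      ← Ideal.mem_comap (f := algebraMap B2 (s36tr_semi F2 ι 𝔫 (s36tr_inj j hcomm))),
      s36tr_comap_map (s36tr_inj j hcomm) P hP𝔫]
  rw [← h1]
  exact (IsLocalization.map_under 𝔫.primeCompl (ssl_locSub F1 𝔫) J).symm

end Comap

section Local

variable {j : F1 →+* F2}

/-- the contraction to `B1` of a prime of the semilocalisation lying over `𝔪_R` is `𝔫`. -/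
theorem s36tr_comap_of_comap_rho (hcomm : ∀ b : B1, algebraMap B2 F2 (ι b) = j (algebraMap B1 F1 b))
    (𝔐 : Ideal (s36tr_semi F2 ι 𝔫 (s36tr_inj j hcomm)))
    (h𝔐 : 𝔐.comap (s36tr_rho 𝔫 hcomm) =
      𝔫.map (algebraMap B1 (ssl_locSub F1 𝔫))) :
    (𝔐.comap (algebraMap B2 (s36tr_semi F2 ι 𝔫 (s36tr_inj j hcomm)))).comap ι = 𝔫 := by
  have h1 : (𝔐.comap (algebraMap B2 (s36tr_semi F2 ι 𝔫 (s36tr_inj j hcomm)))).comap ι =
      (𝔐.comap (s36tr_rho 𝔫 hcomm)).comap (algebraMap B1 (ssl_locSub F1 𝔫)) := by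
    ext b
    rw [Ideal.mem_comap, Ideal.mem_comap, Ideal.mem_comap, Ideal.mem_comap,
      s36tr_rho_algebraMap hcomm]
  rw [h1, h𝔐]
  exact IsLocalization.under_map_of_isPrime_disjoint 𝔫.primeCompl (ssl_locSub F1 𝔫) h𝔫
    (by rw [Set.disjoint_left]; exact fun x hx hx' => hx hx')

/-- if the semilocalisation is local with maximal ideal `𝔐`, it is the local ring of `B2` at
`𝔫P = 𝔐 ∩ B2`. -/
theorem s36tr_semi_eq_locSub (hι : Function.Injective ι)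
    (𝔐 : Ideal (s36tr_semi F2 ι 𝔫 hι)) (h𝔐 : 𝔐.IsMaximal)
    (huniq : ∀ 𝔐' : Ideal (s36tr_semi F2 ι 𝔫 hι), 𝔐'.IsMaximal → 𝔐' = 𝔐)
    (𝔫P : Ideal B2) [h𝔫P : 𝔫P.IsPrime]
    (h𝔫P𝔐 : 𝔐.comap (algebraMap B2 (s36tr_semi F2 ι 𝔫 hι)) = 𝔫P) :
    s36tr_semi F2 ι 𝔫 hι = ssl_locSub F2 𝔫P := by
  have hunit : ∀ x : s36tr_semi F2 ι 𝔫 hι, x ∉ 𝔐 → IsUnit x := by
    intro x hx
    by_contra hnu
    obtain ⟨𝔐', h𝔐', hx'⟩ := Ideal.exists_le_maximal (Ideal.span {x})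
      (by rw [Ne, Ideal.span_singleton_eq_top]; exact hnu)
    rw [huniq 𝔐' h𝔐'] at hx'
    exact hx (hx' (Ideal.mem_span_singleton_self x))
  apply SetLike.ext
  intro z
  rw [ssl_mem_locSub, s36tr_mem_semi]
  constructor
  · rintro ⟨s, b, hs, h⟩
    refine ⟨b, ι s, ?_, ?_⟩
    · intro hmem
      rw [← h𝔫P𝔐, Ideal.mem_comap] at hmem
      exact h𝔐.ne_top (Ideal.eq_top_of_isUnit_mem _ hmem (s36tr_isUnit_of_notMem hι hs))
    · rw [mul_comm]; exact h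
  · rintro ⟨a, s', hs', h⟩
    have hs'𝔐 : algebraMap B2 (s36tr_semi F2 ι 𝔫 hι) s' ∉ 𝔐 := by
      intro hmem
      apply hs'
      rw [← h𝔫P𝔐, Ideal.mem_comap]
      exact hmem
    obtain ⟨w, hw⟩ := hunit _ hs'𝔐
    set y : s36tr_semi F2 ι 𝔫 hι := algebraMap B2 _ a * (↑w⁻¹ : s36tr_semi F2 ι 𝔫 hι) with hy
    have hyz : (y : F2) = z := by
      have h1 : y * algebraMap B2 (s36tr_semi F2 ι 𝔫 hι) s' = algebraMap B2 _ a := by
        rw [hy, ← hw, mul_assoc, Units.inv_mul, mul_one]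
      have h2 : (y : F2) * algebraMap B2 F2 s' = algebraMap B2 F2 a := congrArg Subtype.val h1
      have h0 : algebraMap B2 F2 s' ≠ 0 := by
        rw [Ne, IsFractionRing.to_map_eq_zero_iff]
        rintro rfl
        exact hs' 𝔫P.zero_mem
      exact mul_right_cancel₀ h0 (h2.trans h.symm)
    rw [← hyz]
    exact (s36tr_mem_semi hι).1 y.2

/-- incomparability: a prime of `B2` over `𝔫` contained in another prime over `𝔫` equals it. -/
theorem s36tr_eq_of_le_of_comap (hint : ι.IsIntegral) {𝔫1 𝔫2 : Ideal B2} [h1 : 𝔫1.IsPrime]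
    (hle : 𝔫1 ≤ 𝔫2) (hc : 𝔫1.comap ι = 𝔫2.comap ι) : 𝔫1 = 𝔫2 := by
  let _ : Algebra B1 B2 := ι.toAlgebra
  have : Algebra.IsIntegral B1 B2 := ⟨hint⟩
  by_contra hne
  have hlt : 𝔫1 < 𝔫2 := lt_of_le_of_ne hle hne
  have := Ideal.IsIntegral.comap_lt_comap (R := B1) hlt
  exact this.ne hc

end Local

section Repr

variable {j : F1 →+* F2}

/-- every element of the semilocalisation is `ρ(unit) · b`, `b ∈ B2`. -/
theorem s36tr_semi_repr (hcomm : ∀ b : B1, algebraMap B2 F2 (ι b) = j (algebraMap B1 F1 b))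
    (x : s36tr_semi F2 ι 𝔫 (s36tr_inj j hcomm)) :
    ∃ (r : (ssl_locSub F1 𝔫)ˣ) (b : B2),
      x = s36tr_rho 𝔫 hcomm r * algebraMap B2 (s36tr_semi F2 ι 𝔫 (s36tr_inj j hcomm)) b := by
  obtain ⟨s, b, hs, h⟩ := s36tr_semi_surj (s36tr_inj j hcomm) x
  have hsu : IsUnit (algebraMap B1 (ssl_locSub F1 𝔫) s) :=
    (IsLocalization.AtPrime.isUnit_to_map_iff (ssl_locSub F1 𝔫) 𝔫 s).2 hs
  obtain ⟨w, hw⟩ := hsu
  refine ⟨w⁻¹, b, ?_⟩
  have h1 : s36tr_rho 𝔫 hcomm (↑w⁻¹ : ssl_locSub F1 𝔫) *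
      algebraMap B2 (s36tr_semi F2 ι 𝔫 (s36tr_inj j hcomm)) (ι s) = 1 := by
    rw [← s36tr_rho_algebraMap hcomm, ← hw, ← map_mul, Units.inv_mul, map_one]
  rw [← h]
  calc x = (s36tr_rho 𝔫 hcomm (↑w⁻¹ : ssl_locSub F1 𝔫) *
        algebraMap B2 (s36tr_semi F2 ι 𝔫 (s36tr_inj j hcomm)) (ι s)) * x := by
          rw [h1, one_mul]
    _ = _ := by ring

/-- every element of an extended ideal is `ρ(unit) · p`, `p ∈ P`. -/
theorem s36tr_map_repr (hcomm : ∀ b : B1, algebraMap B2 F2 (ι b) = j (algebraMap B1 F1 b))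
    (P : Ideal B2) {x : s36tr_semi F2 ι 𝔫 (s36tr_inj j hcomm)}
    (hx : x ∈ P.map (algebraMap B2 (s36tr_semi F2 ι 𝔫 (s36tr_inj j hcomm)))) :
    ∃ (r : (ssl_locSub F1 𝔫)ˣ) (p : B2), p ∈ P ∧
      x = s36tr_rho 𝔫 hcomm r * algebraMap B2 (s36tr_semi F2 ι 𝔫 (s36tr_inj j hcomm)) p := by
  obtain ⟨s, p, hs, hp, h⟩ := (s36tr_mem_map (s36tr_inj j hcomm) P).1 hx
  have hsu : IsUnit (algebraMap B1 (ssl_locSub F1 𝔫) s) :=
    (IsLocalization.AtPrime.isUnit_to_map_iff (ssl_locSub F1 𝔫) 𝔫 s).2 hs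
  obtain ⟨w, hw⟩ := hsu
  refine ⟨w⁻¹, p, hp, ?_⟩
  have h1 : s36tr_rho 𝔫 hcomm (↑w⁻¹ : ssl_locSub F1 𝔫) *
      algebraMap B2 (s36tr_semi F2 ι 𝔫 (s36tr_inj j hcomm)) (ι s) = 1 := by
    rw [← s36tr_rho_algebraMap hcomm, ← hw, ← map_mul, Units.inv_mul, map_one]
  rw [← h]
  calc x = (s36tr_rho 𝔫 hcomm (↑w⁻¹ : ssl_locSub F1 𝔫) *
        algebraMap B2 (s36tr_semi F2 ι 𝔫 (s36tr_inj j hcomm)) (ι s)) * x := by
          rw [h1, one_mul]
    _ = _ := by ring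

end Repr

end Semi

end Fermat.Agent.S36
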