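/-
Project S36 (Carayol), cell [TRI] (helper10): the TRIPLE POINT, chart level (prefix `s36tr_`).

`ι : B1 →+* B2` an integral extension of noetherian domains (`B2` integrally closed) with fraction
fields `j : F1 →+* F2`; `𝔫` a prime of `B1` (a supersingular node of the level-`q` chart) whose local
ring `R = ssl_locSub F1 𝔫` has `𝔫 R = (u, v)`, `u v = ϖ · unit`, `(u) = PF R`, `(v) = PV R`
(the output of `s35l_node_ring`); `PA PB PC` primes of `B2` (the three vertical components of the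
level-`q²` chart) with `PA ∩ B1 = PF = PC ∩ B1`, `PB ∩ B1 = PV`, and the element-form hypotheses
of `s36tr_ChartHyp`.

`s36tr_chart`: there is exactly ONE prime `𝔫P` of `B2` over `𝔫`; `ssl_locSub F2 𝔫P` is
`B2[ι (B1 ∖ 𝔫)⁻¹]`, a factorial regular local ring, and `s36tr_Concl` holds there.
-/
import Mathlib
import Fermat.Agent.S36.Tri.Core
import Fermat.Agent.S36.Tri.Semi
import Fermat.Agent.SS.Model.Components

set_option autoImplicit false
set_option linter.unusedSectionVars false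

namespace Fermat.Agent.S36

open Ideal IsLocalRing Fermat.Agent.SS

/-- a noetherian local domain `R` with `𝔪 = (x, y)`, `x` prime: `R / (x)` is integrally closed
(its maximal ideal is principal). -/
theorem s36tr_quot_ic {R : Type*} [CommRing R] [IsDomain R] [IsNoetherianRing R] [IsLocalRing R]
    {x y : R} (hx : Prime x) (hmax : maximalIdeal R = Ideal.span {x, y}) :
    IsIntegrallyClosed (R ⧸ Ideal.span {x}) := by
  have hprime : (Ideal.span {x}).IsPrime := (Ideal.span_singleton_prime hx.ne_zero).2 hx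
  set mk := Ideal.Quotient.mk (Ideal.span {x}) with hmk
  have hsurj : Function.Surjective mk := Ideal.Quotient.mk_surjective
  have : IsLocalRing (R ⧸ Ideal.span {x}) := IsLocalRing.of_surjective' mk hsurj
  have hprinc : (maximalIdeal (R ⧸ Ideal.span {x})).IsPrincipal := by
    refine ⟨mk y, ?_⟩
    have h1 : maximalIdeal (R ⧸ Ideal.span {x}) = (maximalIdeal R).map mk := by
      have hmaxmap : ((maximalIdeal R).map mk).IsMaximal := by
        refine Ideal.IsMaximal.map_of_surjective_of_ker_le hsurj ?_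
        rw [Ideal.mk_ker, Ideal.span_singleton_le_iff_mem, hmax]
        exact Ideal.subset_span (by simp)
      exact (eq_maximalIdeal hmaxmap).symm
    rw [h1, hmax, Ideal.map_span, Set.image_pair]
    have hx0 : mk x = 0 := Ideal.Quotient.eq_zero_iff_mem.2 (Ideal.mem_span_singleton_self x)
    rw [hx0]
    change Ideal.span {0, mk y} = Ideal.span {mk y}
    rw [Ideal.span_insert_zero]
  have h43 := (tfae_of_isNoetherianRing_of_isLocalRing_of_isDomain (R ⧸ Ideal.span {x})).out 4 3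
  exact (h43.1 hprinc).1

section Chart

variable {B1 : Type*} [CommRing B1] [IsDomain B1] {F1 : Type*} [Field F1] [Algebra B1 F1]
  [IsFractionRing B1 F1]
  {B2 : Type*} [CommRing B2] [IsDomain B2] {F2 : Type*} [Field F2] [Algebra B2 F2]
  [IsFractionRing B2 F2]

/-- the conclusions at a triple point, for a subalgebra `T ⊆ F2` (the local ring of `B2` at the
point): `T` factorial, `PA T = (a)`, `PB T = (b)` with `b = v`, `PC T = (c)`,
`u = w a c ^ (q - 1)`, `𝔫P T = (b, t) = (a, b) = (c, b)`, `u = w' t ^ q + b k`,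
`u b = ϖ₂ · unit`. -/
def s36tr_Concl (q : ℕ) (ϖ2 : B2) (𝔫P PA PB PC : Ideal B2) (uF vF : F2)
    (T : Subalgebra B2 F2) : Prop :=
  UniqueFactorizationMonoid T ∧ ∃ (a b c t : T) (w w' ε : Tˣ) (k uT : T),
    (b : F2) = vF ∧ (uT : F2) = uF ∧ Prime a ∧ Prime b ∧ Prime c ∧
    PA.map (algebraMap B2 T) = Ideal.span {a} ∧ PB.map (algebraMap B2 T) = Ideal.span {b} ∧
    PC.map (algebraMap B2 T) = Ideal.span {c} ∧
    uT = w * a * c ^ (q - 1) ∧
    𝔫P.map (algebraMap B2 T) = Ideal.span {b, t} ∧ 𝔫P.map (algebraMap B2 T) = Ideal.span {a, b} ∧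
    𝔫P.map (algebraMap B2 T) = Ideal.span {c, b} ∧
    uT = w' * t ^ q + b * k ∧ uT * b = algebraMap B2 T ϖ2 * ε

variable [IsNoetherianRing B1] [IsNoetherianRing B2] [IsIntegrallyClosed B2]

/-- chart-level hypotheses at a triple point (see the header). -/
structure s36tr_ChartHyp (ι : B1 →+* B2) (j : F1 →+* F2) (𝔫 : Ideal B1) [𝔫.IsPrime]
    (u v : ssl_locSub F1 𝔫) (ϖ : B1) (q : ℕ) (PF PV : Ideal B1) (PA PB PC : Ideal B2) : Prop where
  hcomm : ∀ b : B1, algebraMap B2 F2 (ι b) = j (algebraMap B1 F1 b)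
  hint : ι.IsIntegral
  hmax : 𝔫.map (algebraMap B1 (ssl_locSub F1 𝔫)) = Ideal.span {u, v}
  hu : Prime u
  hv : Prime v
  huv : ¬ v ∣ u
  huvϖ : ∃ e : (ssl_locSub F1 𝔫)ˣ, u * v = algebraMap B1 (ssl_locSub F1 𝔫) ϖ * e
  hPF : Ideal.span {u} = PF.map (algebraMap B1 (ssl_locSub F1 𝔫))
  hPV : Ideal.span {v} = PV.map (algebraMap B1 (ssl_locSub F1 𝔫))
  hPF𝔫 : PF ≤ 𝔫
  hPV𝔫 : PV ≤ 𝔫
  hq : 2 ≤ q
  hPA : PA.IsPrime
  hPB : PB.IsPrime
  hPC : PC.IsPrime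
  hA : PA.comap ι = PF
  hB : PB.comap ι = PV
  hC : PC.comap ι = PF
  hAC : PA ≠ PC
  hvert : ∀ 𝔮 : Ideal B2, 𝔮.IsPrime → ι ϖ ∈ 𝔮 → PA ≤ 𝔮 ∨ PB ≤ 𝔮 ∨ PC ≤ 𝔮
  heA : ∀ x ∈ PA, ∃ s : B2, s ∉ PA ∧ ι ϖ ∣ s * x
  heB : ∀ x ∈ PB, ∃ s : B2, s ∉ PB ∧ ι ϖ ∣ s * x
  heC : ∃ z ∈ PC, (∀ x ∈ PC, ∃ s : B2, s ∉ PC ∧ z ∣ s * x) ∧
    (∃ s : B2, s ∉ PC ∧ ι ϖ ∣ s * z ^ (q - 1)) ∧ (∃ s : B2, s ∉ PC ∧ z ^ (q - 1) ∣ s * ι ϖ)
  hinsB : ∀ x : B2, ∃ y s : B1, s ∉ PV ∧ ι s * x ^ q - ι y ∈ PB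
  hsmB : ∀ 𝔫' : Ideal B2, 𝔫'.IsPrime → 𝔫'.comap ι = 𝔫 → PB ≤ 𝔫' →
    ∃ t ∈ 𝔫', ∀ x ∈ 𝔫', ∃ s : B2, s ∉ 𝔫' ∧ s * x ∈ PB ⊔ Ideal.span {t}

namespace s36tr_ChartHyp

variable {ι : B1 →+* B2} {j : F1 →+* F2} {𝔫 : Ideal B1} [h𝔫 : 𝔫.IsPrime]
  {u v : ssl_locSub F1 𝔫} {ϖ : B1} {q : ℕ} {PF PV : Ideal B1} {PA PB PC : Ideal B2}
  (H : s36tr_ChartHyp ι j 𝔫 u v ϖ q PF PV PA PB PC)
include H

theorem hA𝔫 : PA.comap ι ≤ 𝔫 := H.hA ▸ H.hPF𝔫
theorem hB𝔫 : PB.comap ι ≤ 𝔫 := H.hB ▸ H.hPV𝔫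
theorem hC𝔫 : PC.comap ι ≤ 𝔫 := H.hC ▸ H.hPF𝔫

local notation "SS" => s36tr_semi F2 ι 𝔫 (s36tr_inj j H.hcomm)
local notation "ρρ" => s36tr_rho 𝔫 H.hcomm
local notation "aS" => algebraMap B2 (s36tr_semi F2 ι 𝔫 (s36tr_inj j H.hcomm))

/-- the abstract hypotheses (without smoothness of `B`) hold for the semilocalisation. -/
theorem hyp0 :
    @s36tr_Hyp0 (ssl_locSub F1 𝔫) SS _ (IsLocalization.AtPrime.isLocalRing _ 𝔫) _
      (ρρ).toAlgebra u v q (PA.map aS) (PB.map aS) (PC.map aS) := by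
  have hcomm := H.hcomm
  have hι := s36tr_inj j hcomm
  let _ : Algebra (ssl_locSub F1 𝔫) SS := (ρρ).toAlgebra
  have : IsLocalRing (ssl_locSub F1 𝔫) := IsLocalization.AtPrime.isLocalRing _ 𝔫
  have hPA := H.hPA
  have hPB := H.hPB
  have hPC := H.hPC
  have hρ : ∀ r : ssl_locSub F1 𝔫, algebraMap (ssl_locSub F1 𝔫) SS r = ρρ r := fun r => rfl
  have hρu : ∀ r : (ssl_locSub F1 𝔫)ˣ, IsUnit (ρρ (r : ssl_locSub F1 𝔫)) :=
    fun r => r.isUnit.map _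
  -- `u v = ϖ · unit` in `S`
  obtain ⟨e, he⟩ := H.huvϖ
  have huvS : algebraMap (ssl_locSub F1 𝔫) SS (u * v) = aS (ι ϖ) * ρρ e := by
    rw [hρ, he, map_mul, s36tr_rho_algebraMap hcomm]
  have hdvd : ∀ x : SS, algebraMap (ssl_locSub F1 𝔫) SS (u * v) ∣ x ↔ aS (ι ϖ) ∣ x := by
    intro x
    rw [huvS]
    exact (hρu e).mul_right_dvd
  have hnotMem : ∀ (P : Ideal B2) [P.IsPrime], P.comap ι ≤ 𝔫 → ∀ s : B2, s ∉ P →
      aS s ∉ P.map aS := by
    intro P _ hP𝔫 s hs hmem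
    apply hs
    rw [← s36tr_comap_map (F2 := F2) hι P hP𝔫]
    exact hmem
  refine
    { hmax := ?_
      hu := H.hu
      hv := H.hv
      huv := H.huv
      hq := H.hq
      hPA := s36tr_map_isPrime hι PA H.hA𝔫
      hPB := s36tr_map_isPrime hι PB H.hB𝔫
      hPC := s36tr_map_isPrime hι PC H.hC𝔫
      hA := ?_
      hB := ?_
      hC := ?_
      hAC := ?_
      hvert := ?_
      heA := ?_
      heB := ?_
      heC := ?_
      hinsB := ?_ }
  · rw [← H.hmax]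
    exact (IsLocalization.AtPrime.map_eq_maximalIdeal 𝔫 (ssl_locSub F1 𝔫)).symm
  · have := s36tr_comap_rho PA hcomm H.hA𝔫
    rw [H.hA, ← H.hPF] at this
    exact this
  · have := s36tr_comap_rho PB hcomm H.hB𝔫
    rw [H.hB, ← H.hPV] at this
    exact this
  · have := s36tr_comap_rho PC hcomm H.hC𝔫
    rw [H.hC, ← H.hPF] at this
    exact this
  · intro h
    apply H.hAC
    rw [← s36tr_comap_map (F2 := F2) hι PA H.hA𝔫, ← s36tr_comap_map (F2 := F2) hι PC H.hC𝔫, h]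
  · intro 𝔮 h𝔮 hmem
    rw [huvS] at hmem
    have h1 : aS (ι ϖ) ∈ 𝔮 := by
      rcases h𝔮.mem_or_mem hmem with h | h
      · exact h
      · exact absurd (Ideal.eq_top_of_isUnit_mem _ h (hρu e)) h𝔮.ne_top
    have h𝔮' : (𝔮.comap aS).IsPrime := Ideal.comap_isPrime aS 𝔮
    rcases H.hvert _ h𝔮' h1 with h | h | h
    · exact Or.inl (Ideal.map_le_iff_le_comap.2 h)
    · exact Or.inr (Or.inl (Ideal.map_le_iff_le_comap.2 h))
    · exact Or.inr (Or.inr (Ideal.map_le_iff_le_comap.2 h))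
  · intro x hx
    obtain ⟨r, p, hp, rfl⟩ := s36tr_map_repr hcomm PA hx
    obtain ⟨s, hs, k, hk⟩ := H.heA p hp
    refine ⟨aS s, hnotMem PA H.hA𝔫 s hs, ?_⟩
    rw [hdvd]
    refine ⟨ρρ r * aS k, ?_⟩
    have : aS s * aS p = aS (ι ϖ) * aS k := by rw [← map_mul, hk, map_mul]
    calc aS s * (ρρ r * aS p) = ρρ r * (aS s * aS p) := by ring
      _ = _ := by rw [this]; ring
  · intro x hx
    obtain ⟨r, p, hp, rfl⟩ := s36tr_map_repr hcomm PB hx
    obtain ⟨s, hs, k, hk⟩ := H.heB p hp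
    refine ⟨aS s, hnotMem PB H.hB𝔫 s hs, ?_⟩
    rw [hdvd]
    refine ⟨ρρ r * aS k, ?_⟩
    have : aS s * aS p = aS (ι ϖ) * aS k := by rw [← map_mul, hk, map_mul]
    calc aS s * (ρρ r * aS p) = ρρ r * (aS s * aS p) := by ring
      _ = _ := by rw [this]; ring
  · obtain ⟨z, hz, h1, ⟨s2, hs2, k2, hk2⟩, ⟨s3, hs3, k3, hk3⟩⟩ := H.heC
    refine ⟨aS z, Ideal.mem_map_of_mem _ hz, ?_, ⟨aS s2, hnotMem PC H.hC𝔫 s2 hs2, ?_⟩,
      ⟨aS s3, hnotMem PC H.hC𝔫 s3 hs3, ?_⟩⟩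
    · intro x hx
      obtain ⟨r, p, hp, rfl⟩ := s36tr_map_repr hcomm PC hx
      obtain ⟨s, hs, k, hk⟩ := h1 p hp
      refine ⟨aS s, hnotMem PC H.hC𝔫 s hs, ρρ r * aS k, ?_⟩
      have : aS s * aS p = aS z * aS k := by rw [← map_mul, hk, map_mul]
      calc aS s * (ρρ r * aS p) = ρρ r * (aS s * aS p) := by ring
        _ = _ := by rw [this]; ring
    · rw [hdvd]
      refine ⟨aS k2, ?_⟩
      rw [← map_pow, ← map_mul, hk2, map_mul]
    · rw [huvS]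
      refine ⟨aS k3 * ρρ e, ?_⟩
      have : aS s3 * aS (ι ϖ) = aS z ^ (q - 1) * aS k3 := by
        rw [← map_mul, hk3, map_mul, map_pow]
      calc aS s3 * (aS (ι ϖ) * ρρ e) = (aS s3 * aS (ι ϖ)) * ρρ e := by ring
        _ = _ := by rw [this]; ring
  · -- `R / (v)` is integrally closed, so the fraction form `H.hinsB` gives the integral form
    have hRn : IsNoetherianRing (ssl_locSub F1 𝔫) :=
      IsLocalization.isNoetherianRing 𝔫.primeCompl _ inferInstance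
    have hBc : (PB.map aS).comap (algebraMap (ssl_locSub F1 𝔫) SS) = Ideal.span {v} := by
      have := s36tr_comap_rho PB hcomm H.hB𝔫
      rw [H.hB, ← H.hPV] at this
      exact this
    have hPBp : (PB.map aS).IsPrime := s36tr_map_isPrime hι PB H.hB𝔫
    have hvp : (Ideal.span {v} : Ideal (ssl_locSub F1 𝔫)).IsPrime :=
      (Ideal.span_singleton_prime H.hv.ne_zero).2 H.hv
    have hmaxR : maximalIdeal (ssl_locSub F1 𝔫) = Ideal.span {v, u} := by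
      rw [Set.pair_comm, ← H.hmax]
      exact (IsLocalization.AtPrime.map_eq_maximalIdeal 𝔫 (ssl_locSub F1 𝔫)).symm
    have hic := s36tr_quot_ic H.hv hmaxR
    refine ssm_cp_pow (algebraMap (ssl_locSub F1 𝔫) SS) (s36tr_rho_isIntegral hcomm H.hint) v
      (PB.map aS) hvp hic hBc q ?_
    intro x
    obtain ⟨r, b, rfl⟩ := s36tr_semi_repr hcomm x
    obtain ⟨y, s, hs, hy⟩ := H.hinsB b
    have hsB : ι s ∉ PB := by
      intro h
      apply hs
      rw [← H.hB]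
      exact h
    refine ⟨(r : ssl_locSub F1 𝔫) ^ q * algebraMap B1 (ssl_locSub F1 𝔫) y,
      algebraMap B1 (ssl_locSub F1 𝔫) s, ?_, ?_⟩
    · rw [hρ, s36tr_rho_algebraMap hcomm]
      exact hnotMem PB H.hB𝔫 _ hsB
    · rw [hρ, hρ, map_mul, map_pow, s36tr_rho_algebraMap hcomm, s36tr_rho_algebraMap hcomm]
      have : aS (ι s) * (ρρ r * aS b) ^ q - ρρ r ^ q * aS (ι y) =
          ρρ r ^ q * aS (ι s * b ^ q - ι y) := by
        rw [map_sub, map_mul, map_pow]; ring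
      rw [this]
      exact Ideal.mul_mem_left _ _ (Ideal.mem_map_of_mem _ hy)

/-- **The triple point, chart level (one-sided form).** There is exactly one prime `𝔫P` of `B2`
over `𝔫`; its local ring is `B2[ι (B1 ∖ 𝔫)⁻¹]`, and `s36tr_Concl` holds there. -/
theorem chart : ∃ (𝔫P : Ideal B2) (_ : 𝔫P.IsPrime), 𝔫P.comap ι = 𝔫 ∧
    (∀ 𝔫' : Ideal B2, 𝔫'.IsPrime → 𝔫'.comap ι = 𝔫 → 𝔫' = 𝔫P) ∧
    (∀ z : F2, z ∈ ssl_locSub F2 𝔫P → ∃ (s : B1) (b : B2), s ∉ 𝔫 ∧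
      algebraMap B2 F2 (ι s) * z = algebraMap B2 F2 b) ∧
    s36tr_Concl q (ι ϖ) 𝔫P PA PB PC (j u) (j v) (ssl_locSub F2 𝔫P) := by
  have hcomm := H.hcomm
  have hι := s36tr_inj j hcomm
  let _ : Algebra (ssl_locSub F1 𝔫) SS := (ρρ).toAlgebra
  have : IsLocalRing (ssl_locSub F1 𝔫) := IsLocalization.AtPrime.isLocalRing _ 𝔫
  have : IsNoetherianRing (ssl_locSub F1 𝔫) :=
    IsLocalization.isNoetherianRing 𝔫.primeCompl _ inferInstance
  have : IsNoetherianRing SS := s36tr_semi_isNoetherianRing hι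
  have : IsIntegrallyClosed SS := s36tr_semi_isIntegrallyClosed hι
  have : FaithfulSMul (ssl_locSub F1 𝔫) SS :=
    (faithfulSMul_iff_algebraMap_injective _ _).2 (s36tr_rho_injective hcomm)
  have : Algebra.IsIntegral (ssl_locSub F1 𝔫) SS := ⟨s36tr_rho_isIntegral hcomm H.hint⟩
  have hρ : ∀ r : ssl_locSub F1 𝔫, algebraMap (ssl_locSub F1 𝔫) SS r = ρρ r := fun r => rfl
  have H0 := H.hyp0
  have hloc : IsLocalRing SS := H0.isLocalRing
  -- the point `𝔫P`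
  have h𝔫Pp : ((maximalIdeal SS).comap aS).IsPrime := Ideal.comap_isPrime aS _
  have hcomapρ : (maximalIdeal SS).comap ρρ = 𝔫.map (algebraMap B1 (ssl_locSub F1 𝔫)) := by
    have h1 : ((maximalIdeal SS).comap (algebraMap (ssl_locSub F1 𝔫) SS)).IsMaximal :=
      Ideal.isMaximal_comap_of_isIntegral_of_isMaximal _
    rw [IsLocalization.AtPrime.map_eq_maximalIdeal 𝔫 (ssl_locSub F1 𝔫)]
    exact eq_maximalIdeal h1
  have h𝔫Pι : ((maximalIdeal SS).comap aS).comap ι = 𝔫 :=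
    s36tr_comap_of_comap_rho hcomm _ hcomapρ
  have hSeq : SS = ssl_locSub F2 ((maximalIdeal SS).comap aS) :=
    s36tr_semi_eq_locSub hι (maximalIdeal SS) (maximalIdeal.isMaximal SS)
      (fun 𝔐' h => eq_maximalIdeal h) _ rfl
  have hunitS : ∀ s : B2, s ∉ (maximalIdeal SS).comap aS → IsUnit (aS s) := by
    intro s hs
    by_contra hnu
    exact hs ((mem_maximalIdeal _).2 hnu)
  -- smoothness of `B`
  have hsm : ∃ t : SS, ∀ 𝔐 : Ideal SS, 𝔐.IsMaximal →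
      t ∈ 𝔐 ∧ 𝔐 ≤ PB.map aS ⊔ Ideal.span {t} := by
    have hPBle : PB ≤ (maximalIdeal SS).comap aS :=
      Ideal.map_le_iff_le_comap.1 (H0.B_le_maximal (maximalIdeal SS))
    obtain ⟨t, ht, hgen⟩ := H.hsmB _ h𝔫Pp h𝔫Pι hPBle
    refine ⟨aS t, fun 𝔐 h𝔐 => ?_⟩
    rw [eq_maximalIdeal h𝔐]
    refine ⟨ht, fun x hx => ?_⟩
    obtain ⟨r, b, rfl⟩ := s36tr_semi_repr hcomm x
    have hru : IsUnit (ρρ (r : ssl_locSub F1 𝔫)) := r.isUnit.map _
    have hb : aS b ∈ maximalIdeal SS := by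
      rcases (maximalIdeal.isMaximal SS).isPrime.mem_or_mem hx with h | h
      · exact absurd (Ideal.eq_top_of_isUnit_mem _ h hru) (maximalIdeal.isMaximal SS).ne_top
      · exact h
    obtain ⟨s, hs, hsb⟩ := hgen b hb
    obtain ⟨w, hw⟩ := hunitS s hs
    have h1 : aS (s * b) ∈ PB.map aS ⊔ Ideal.span {aS t} := by
      have := Ideal.mem_map_of_mem aS hsb
      rw [Ideal.map_sup, Ideal.map_span, Set.image_singleton] at this
      exact this
    have h2 : ρρ r * aS b = (ρρ r * (↑w⁻¹ : SS)) * aS (s * b) := by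
      rw [map_mul, ← hw]
      calc ρρ r * aS b = ρρ r * ((↑w⁻¹ : SS) * (w : SS)) * aS b := by
            rw [Units.inv_mul, mul_one]
        _ = _ := by ring
    rw [h2]
    exact Ideal.mul_mem_left _ _ h1
  have H1 : s36tr_Hyp u v q (PA.map aS) (PB.map aS) (PC.map aS) := ⟨H0, Or.inr hsm⟩
  obtain ⟨𝔐0, a, c, t, w, w', k, h𝔐0, -, hvp, hap, hcp, hPA, hPB, hPC, hfac, h𝔐t, h𝔐av, h𝔐cv, hut⟩ :=
    H1.main
  have h𝔐0eq : 𝔐0 = maximalIdeal SS := eq_maximalIdeal h𝔐0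
  have hmapP : ((maximalIdeal SS).comap aS).map aS = 𝔐0 := by
    rw [h𝔐0eq]
    exact IsLocalization.map_under (s36tr_M ι 𝔫) SS (maximalIdeal SS)
  -- the conclusions in `SS`
  obtain ⟨e, he⟩ := H.huvϖ
  have hconcl : s36tr_Concl q (ι ϖ) ((maximalIdeal SS).comap aS) PA PB PC (j u) (j v) SS := by
    refine ⟨H1.ufd, a, ρρ v, c, t, w, w', Units.map (ρρ : _ →* _) e, k, ρρ u, rfl, rfl, hap, hvp, hcp,
      hPA, hPB, hPC, hfac, ?_, ?_, ?_, hut, ?_⟩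
    · rw [hmapP]; exact h𝔐t
    · rw [hmapP]; exact h𝔐av
    · rw [hmapP]; exact h𝔐cv
    · rw [← map_mul, he, map_mul, s36tr_rho_algebraMap hcomm]
      rfl
  refine ⟨(maximalIdeal SS).comap aS, h𝔫Pp, h𝔫Pι, ?_, ?_, ?_⟩
  · -- uniqueness
    intro 𝔫' h𝔫' h𝔫'ι
    have hdisj : 𝔫'.comap ι ≤ 𝔫 := le_of_eq h𝔫'ι
    have hprime : (𝔫'.map aS).IsPrime := s36tr_map_isPrime hι 𝔫' hdisj
    have hle : 𝔫'.map aS ≤ maximalIdeal SS := IsLocalRing.le_maximalIdeal hprime.ne_top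
    have hle' : 𝔫' ≤ (maximalIdeal SS).comap aS := Ideal.map_le_iff_le_comap.1 hle
    exact s36tr_eq_of_le_of_comap H.hint hle' (h𝔫'ι.trans h𝔫Pι.symm)
  · intro z hz
    rw [← hSeq] at hz
    exact (s36tr_mem_semi hι).1 hz
  · exact hSeq ▸ hconcl

end s36tr_ChartHyp

omit [IsNoetherianRing B1] [IsNoetherianRing B2] [IsIntegrallyClosed B2] in
/-- the two-sided conclusions at a triple point, for a subalgebra `T ⊆ F2`: `T` factorial,
`PA T = (a)`, `PB T = (b)`, `PC T = (c)`, `ϖ₂ = w a b c ^ (q - 1)`,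
`𝔫P T = (a, b) = (a, c) = (b, c)`. -/
def s36tr_Concl3 (q : ℕ) (ϖ2 : B2) (𝔫P PA PB PC : Ideal B2) (T : Subalgebra B2 F2) : Prop :=
  UniqueFactorizationMonoid T ∧ ∃ (a b c : T) (w : Tˣ),
    Prime a ∧ Prime b ∧ Prime c ∧
    PA.map (algebraMap B2 T) = Ideal.span {a} ∧ PB.map (algebraMap B2 T) = Ideal.span {b} ∧
    PC.map (algebraMap B2 T) = Ideal.span {c} ∧
    algebraMap B2 T ϖ2 = w * a * b * c ^ (q - 1) ∧
    𝔫P.map (algebraMap B2 T) = Ideal.span {a, b} ∧ 𝔫P.map (algebraMap B2 T) = Ideal.span {a, c} ∧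
    𝔫P.map (algebraMap B2 T) = Ideal.span {b, c}

omit [IsNoetherianRing B1] [IsNoetherianRing B2] [IsIntegrallyClosed B2] in
/-- **The triple point, two-sided form**: the one-sided conclusions for `(A, B, C)` (from the
level-`q` chart through `π₁`) and for `(B, A, C)` (from its `W₂`-mirror) at the same point give the
three transversalities `𝔫P T = (a, b) = (a, c) = (b, c)`. -/
theorem s36tr_concl_both {q : ℕ} {ϖ2 ϖ2' : B2} {𝔫P PA PB PC : Ideal B2} {uF vF uF' vF' : F2}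
    {T : Subalgebra B2 F2} (h1 : s36tr_Concl q ϖ2 𝔫P PA PB PC uF vF T)
    (h2 : s36tr_Concl q ϖ2' 𝔫P PB PA PC uF' vF' T) :
    s36tr_Concl3 q ϖ2 𝔫P PA PB PC T := by
  obtain ⟨hufd, a, b, c, t, w, w', ε, k, uT, hb, huT, hap, hbp, hcp, hPA, hPB, hPC, hfac, -, hab, hcb,
    -, hε⟩ := h1
  obtain ⟨-, a2, b2, c2, t2, w2, w2', ε2, k2, uT2, -, -, -, -, -, hPB2, hPA2, hPC2, -, -, -, hcb2, -,
    -⟩ := h2
  refine ⟨hufd, a, b, c, w * ε⁻¹, hap, hbp, hcp, hPA, hPB, hPC, ?_, hab, ?_, ?_⟩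
  · have h1 : algebraMap B2 T ϖ2 = uT * b * (↑ε⁻¹ : T) := by
      rw [hε, mul_assoc, Units.mul_inv, mul_one]
    rw [h1, hfac, Units.val_mul]; ring
  · rw [hcb2, Ideal.span_insert, Ideal.span_insert, ← hPC2, ← hPA2, hPC, hPA, sup_comm]
  · rw [hcb, Ideal.span_insert, Ideal.span_insert, sup_comm]

end Chart

end Fermat.Agent.S36
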