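/-
Project S36 (Carayol), cell [TRI-INST] = [L3d] (helper10; prefix `s36tri_`), GENERIC VALUATION LEVEL:
the chart-level hypotheses `s36tr_ChartHyp` of the triple point (S36/Tri/Chart.lean) from

* helper24's [TP3] package `H : s36tp_Hyp π₂ V e` on the top chart `B2` (a finite family of
  valuation subrings `V i` of `F2` over the Gauss ring, three distinguished indices `a b c` with
  `e a = e b = 1`: in the application `V = ![VA, VB, VC]`, `(a, b, c) = (0, 1, 2)` on the `α`-side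
  and `(1, 0, 2)` on the `W₂`-mirror side);
* the restrictions `V a ∩ F1 = VF = V c ∩ F1`, `V b ∩ F1 = VV` along `j : F1 →+* F2`;
* a uniformiser `z ∈ B2` of `V c` with `π₂ = unit · z ^ (q - 1)` (helper29's `s36t3_Third`);
* `κ(V b) ^ q ⊆ κ(VV)` (helper26's `s36i_pow`) and `VV = (B1)_{PV}` (S34's `ssm_tp_Hyp.mem_V2_iff`);
* the component `b` is smooth at every closed point (`hsm`: helper17's `s36cp_leg_comp`, or
  `s36tri_smooth_of_reg` from `B2 = ψ B' + P_b` with `B'` regular along `π'`);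
* the node data at `𝔫 ⊆ B1` (`s35l_node_ring`).

Tower independent (Legendre and Hesse).
-/
import Mathlib
import Fermat.Agent.S36.Tri.Chart
import Fermat.Agent.S36.Model.Primes3

set_option autoImplicit false
set_option linter.unusedSectionVars false
set_option linter.unusedVariables false

namespace Fermat.Agent.S36

open Ideal IsLocalRing Fermat.Agent.SS Fermat.Agent.JT3

section VS

variable {F1 F2 : Type*} [Field F1] [Field F2]

/-- restriction of the maximal ideal: if `W ∩ F1 = W0` along `j` then `𝔪(W) ∩ F1 = 𝔪(W0)`. -/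
theorem s36tri_nonunits_iff (j : F1 →+* F2) {W : ValuationSubring F2} {W0 : ValuationSubring F1}
    (r : ∀ z : F1, j z ∈ W ↔ z ∈ W0) (z : F1) : j z ∈ W.nonunits ↔ z ∈ W0.nonunits := by
  rw [ValuationSubring.mem_nonunits_iff_or, ValuationSubring.mem_nonunits_iff_or, ← map_inv₀,
    r z⁻¹, map_eq_zero]

end VS

section Smooth

variable {B' B : Type*} [CommRing B'] [CommRing B]

/-- **the component `P` is smooth at `𝔫'`**: if `B = ψ B' + P`, `ψ π' ∈ P` and the maximal ideal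
`𝔫' ∩ B'` is locally generated by `π'` and `t'`, then `𝔫'` is locally generated by `P` and `ψ t'`. -/
theorem s36tri_smooth (ψ : B' →+* B) (π' : B') (P : Ideal B) (hψπ : ψ π' ∈ P)
    (hadd : ∀ x : B, ∃ x' : B', x - ψ x' ∈ P) (𝔫' : Ideal B) [𝔫'.IsPrime] (hP : P ≤ 𝔫')
    (t' : B') (ht' : tq_GenBy π' t' (𝔫'.comap ψ)) :
    ∃ t ∈ 𝔫', ∀ x ∈ 𝔫', ∃ s : B, s ∉ 𝔫' ∧ s * x ∈ P ⊔ Ideal.span {t} := by
  refine ⟨ψ t', ht'.2.1, fun x hx => ?_⟩
  obtain ⟨x', hx'⟩ := hadd x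
  have hx'n : x' ∈ 𝔫'.comap ψ := by
    rw [Ideal.mem_comap]
    have : ψ x' = x - (x - ψ x') := by ring
    rw [this]
    exact 𝔫'.sub_mem hx (hP hx')
  obtain ⟨s', hs', hs'x⟩ := ht'.2.2 x' hx'n
  obtain ⟨a, r, har⟩ := Ideal.mem_span_pair.mp hs'x
  refine ⟨ψ s', hs', ?_⟩
  have e : ψ s' * x = (ψ a * ψ π' + ψ s' * (x - ψ x')) + ψ r * ψ t' := by
    have : ψ s' * ψ x' = ψ a * ψ π' + ψ r * ψ t' := by
      rw [← map_mul, ← map_mul, ← map_mul, ← map_add, har]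
    linear_combination this
  rw [e]
  refine Ideal.add_mem _ (Ideal.mem_sup_left ?_) (Ideal.mem_sup_right ?_)
  · exact P.add_mem (P.mul_mem_left _ hψπ) (P.mul_mem_left _ hx')
  · exact Ideal.mul_mem_left _ _ (Ideal.mem_span_singleton_self _)

/-- the smoothness clause `hsm` of `s36tri_chartHyp` at every maximal ideal containing `P`, from
`B = ψ B' + P` and the regularity clause of `B'`. -/
theorem s36tri_smooth_of_reg (ψ : B' →+* B) (hψ : ψ.IsIntegral) (π' : B') (P : Ideal B)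
    (hψπ : ψ π' ∈ P) (hadd : ∀ x : B, ∃ x' : B', x - ψ x' ∈ P)
    (hreg : ∀ y : Ideal B', y.IsMaximal → π' ∈ y → ∃ t' : B', tq_GenBy π' t' y)
    (𝔫' : Ideal B) (h𝔫' : 𝔫'.IsMaximal) (hP : P ≤ 𝔫') :
    ∃ t ∈ 𝔫', ∀ x ∈ 𝔫', ∃ s : B, s ∉ 𝔫' ∧ s * x ∈ P ⊔ Ideal.span {t} := by
  have := h𝔫'.isPrime
  have hymax : (𝔫'.comap ψ).IsMaximal :=
    Ideal.isMaximal_comap_of_isIntegral_of_isMaximal' ψ hψ 𝔫'
  obtain ⟨t', ht'⟩ := hreg _ hymax (by rw [Ideal.mem_comap]; exact hP hψπ)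
  exact s36tri_smooth ψ π' P hψπ hadd 𝔫' hP t' ht'

end Smooth

section Val

variable {A0 : Type*} [CommRing A0] {F1 F2 : Type*} [Field F1] [Field F2] [Algebra A0 F1]
  [Algebra A0 F2] {B1 : Subalgebra A0 F1} {B2 : Subalgebra A0 F2}
  [IsFractionRing B1 F1] [IsFractionRing B2 F2] [IsNoetherianRing B1] [IsNoetherianRing B2]
  [IsIntegrallyClosed B2]
  {R2 : Type*} [CommRing R2] [IsDomain R2] [IsIntegrallyClosed R2] [Algebra R2 F2]
  [FaithfulSMul R2 F2]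
  {κ : Type*} [Fintype κ] {π2 : R2} {V : κ → ValuationSubring F2} {e : κ → ℕ}

/-- **[TRI-INST], generic valuation level.**  See the header. -/
theorem s36tri_chartHyp (H : s36tp_Hyp π2 V e) (hC2 : ssm_tp_Chart π2 B2)
    (a b c : κ) (hall : ∀ i, i = a ∨ i = b ∨ i = c) (hac : a ≠ c) (hea : e a = 1) (heb : e b = 1)
    {q : ℕ} (hq : 2 ≤ q)
    (ι : B1 →+* B2) (j : F1 →+* F2)
    (hcomm : ∀ x : B1, algebraMap B2 F2 (ι x) = j (algebraMap B1 F1 x)) (hint : ι.IsIntegral)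
    (VF VV : ValuationSubring F1) (leF : ∀ x ∈ B1, x ∈ VF) (leV : ∀ x ∈ B1, x ∈ VV)
    (rA : ∀ y : F1, j y ∈ V a ↔ y ∈ VF) (rB : ∀ y : F1, j y ∈ V b ↔ y ∈ VV)
    (rC : ∀ y : F1, j y ∈ V c ↔ y ∈ VF)
    (ϖ : B1) (hϖ : j (ϖ : F1) = algebraMap R2 F2 π2)
    (𝔫 : Ideal B1) [h𝔫 : 𝔫.IsPrime] (h𝔫max : 𝔫.IsMaximal) (u v : ssl_locSub F1 𝔫)
    (hmax : 𝔫.map (algebraMap B1 (ssl_locSub F1 𝔫)) = Ideal.span {u, v})
    (hu : Prime u) (hv : Prime v) (huv : ¬ v ∣ u)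
    (huvϖ : ∃ ε : (ssl_locSub F1 𝔫)ˣ, u * v = algebraMap B1 (ssl_locSub F1 𝔫) ϖ * ε)
    (hPF : Ideal.span {u} = (ssm_tp_P B1 VF).map (algebraMap B1 (ssl_locSub F1 𝔫)))
    (hPV : Ideal.span {v} = (ssm_tp_P B1 VV).map (algebraMap B1 (ssl_locSub F1 𝔫)))
    (hPF𝔫 : ssm_tp_P B1 VF ≤ 𝔫) (hPV𝔫 : ssm_tp_P B1 VV ≤ 𝔫)
    (locV : ∀ r ∈ VV, ∃ t : B1, t ∉ ssm_tp_P B1 VV ∧ (t : F1) * r ∈ B1)
    (z : B2) (hz : (z : F2) ∈ (V c).nonunits)
    (hzC : ∀ x ∈ (V c).nonunits, ∃ y ∈ V c, x = (z : F2) * y)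
    (hram : ∃ w : F2, w ∈ V c ∧ w⁻¹ ∈ V c ∧ algebraMap R2 F2 π2 = w * (z : F2) ^ (q - 1))
    (hins : ∀ x ∈ V b, ∃ r ∈ VV, x ^ q - j r ∈ (V b).nonunits)
    (hsm : ∀ 𝔫' : Ideal B2, 𝔫'.IsMaximal → ∃ t ∈ 𝔫', ∀ x ∈ 𝔫', ∃ s : B2, s ∉ 𝔫' ∧
      s * x ∈ ssm_tp_P B2 (V b) ⊔ Ideal.span {t}) :
    s36tr_ChartHyp ι j 𝔫 u v ϖ q (ssm_tp_P B1 VF) (ssm_tp_P B1 VV)
      (ssm_tp_P B2 (V a)) (ssm_tp_P B2 (V b)) (ssm_tp_P B2 (V c)) := by
  have hcoe : ∀ x : B1, ((ι x : B2) : F2) = j (x : F1) := hcomm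
  have hϖ' : ((ι ϖ : B2) : F2) = algebraMap R2 F2 π2 := by rw [hcoe, hϖ]
  have hπ0 : algebraMap R2 F2 π2 ≠ 0 := H.algebraMap_ne_zero
  -- comap of the vertical primes
  have hcomap : ∀ (i : κ) (W0 : ValuationSubring F1) (le0 : ∀ x ∈ B1, x ∈ W0)
      (r : ∀ y : F1, j y ∈ V i ↔ y ∈ W0), (ssm_tp_P B2 (V i)).comap ι = ssm_tp_P B1 W0 := by
    intro i W0 le0 r
    ext x
    rw [Ideal.mem_comap, H.mem_P hC2 i, ssm_tp_mem_P le0, hcoe, s36tri_nonunits_iff j r]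
  obtain ⟨w, hw, hw', hπw⟩ := hram
  have hq1 : q - 1 ≠ 0 := by omega
  have hz0 : (z : F2) ≠ 0 := by
    intro h0
    rw [h0, zero_pow hq1, mul_zero] at hπw
    exact hπ0 hπw
  have hw0 : w ≠ 0 := by
    rintro rfl
    rw [zero_mul] at hπw
    exact hπ0 hπw
  have hzq0 : (z : F2) ^ (q - 1) ≠ 0 := pow_ne_zero _ hz0
  refine
    { hcomm := hcomm
      hint := hint
      hmax := hmax
      hu := hu
      hv := hv
      huv := huv
      huvϖ := huvϖ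
      hPF := hPF
      hPV := hPV
      hPF𝔫 := hPF𝔫
      hPV𝔫 := hPV𝔫
      hq := hq
      hPA := H.P_isPrime hC2 a
      hPB := H.P_isPrime hC2 b
      hPC := H.P_isPrime hC2 c
      hA := hcomap a VF leF rA
      hB := hcomap b VV leV rB
      hC := hcomap c VF leF rC
      hAC := fun h => hac (H.P_injective hC2 h)
      hvert := ?_
      heA := ?_
      heB := ?_
      heC := ?_
      hinsB := ?_
      hsmB := ?_ }
  · intro 𝔮 h𝔮 hmem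
    have := h𝔮
    obtain ⟨i, hi⟩ := H.P_le_of_mem hC2 (ι ϖ) hϖ' 𝔮 hmem
    rcases hall i with rfl | rfl | rfl
    · exact Or.inl hi
    · exact Or.inr (Or.inl hi)
    · exact Or.inr (Or.inr hi)
  · intro x hx
    obtain ⟨s, hs, hd⟩ := H.P_pow_dvd hC2 (ι ϖ) hϖ' a hx
    rw [hea, pow_one] at hd
    exact ⟨s, hs, hd⟩
  · intro x hx
    obtain ⟨s, hs, hd⟩ := H.P_pow_dvd hC2 (ι ϖ) hϖ' b hx
    rw [heb, pow_one] at hd
    exact ⟨s, hs, hd⟩
  · refine ⟨z, (H.mem_P hC2 c).2 hz, ?_, ?_, ?_⟩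
    · intro x hx
      refine H.exists_dvd hC2 c hz0 ?_
      obtain ⟨y, hy, hxy⟩ := hzC _ ((H.mem_P hC2 c).1 hx)
      rw [hxy, ← mul_assoc, inv_mul_cancel₀ hz0, one_mul]
      exact hy
    · refine H.exists_dvd hC2 c (by rw [hϖ']; exact hπ0) ?_
      rw [hϖ', SubmonoidClass.coe_pow, hπw]
      have : (w * (z : F2) ^ (q - 1))⁻¹ * (z : F2) ^ (q - 1) = w⁻¹ := by
        field_simp
      rw [this]
      exact hw'
    · refine H.exists_dvd hC2 c (by rw [SubmonoidClass.coe_pow]; exact hzq0) ?_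
      rw [hϖ', SubmonoidClass.coe_pow, hπw]
      have : ((z : F2) ^ (q - 1))⁻¹ * (w * (z : F2) ^ (q - 1)) = w := by
        field_simp
      rw [this]
      exact hw
  · intro x
    obtain ⟨r, hr, hxr⟩ := hins (x : F2) (H.chart_le hC2 b x.2)
    obtain ⟨t, ht, htr⟩ := locV r hr
    refine ⟨⟨(t : F1) * r, htr⟩, t, ht, ?_⟩
    rw [H.mem_P hC2 b]
    have e1 : ((ι t * x ^ q - ι ⟨(t : F1) * r, htr⟩ : B2) : F2) =
        ((ι t : B2) : F2) * ((x : F2) ^ q - j r) := by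
      rw [AddSubgroupClass.coe_sub, MulMemClass.coe_mul, SubmonoidClass.coe_pow, hcoe, hcoe]
      change j (t : F1) * (x : F2) ^ q - j ((t : F1) * r) = _
      rw [map_mul]
      ring
    rw [e1, mul_comm]
    exact ssm_tp_nonunits_mul _ hxr (H.chart_le hC2 b (ι t).2)
  · intro 𝔫' h𝔫' hc hP
    have := h𝔫'
    have h𝔫'max : 𝔫'.IsMaximal := by
      have : (𝔫'.comap ι).IsMaximal := hc ▸ h𝔫max
      exact Ideal.isMaximal_of_isIntegral_of_isMaximal_comap' ι hint 𝔫' this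
    exact hsm 𝔫' h𝔫'max

end Val

end Fermat.Agent.S36
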