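/-
Project S36 (Carayol), cell [TRI] (helper10): from the two-sided conclusion `s36tr_Concl3` at a
triple point to the TRIPLE clause consumed by `s36g_hloc_tri` (helper3, S36/Glue/Tri.lean):
`u : Fin 3 → R` prime, pairwise non associated, `ϖ ~ ∏ u j ^ e j` with `e = ![1, 1, q - 1]`,
`𝔫 R ≤ (u i) + (u j)` for `i ≠ j`, `R / (u j)` integrally closed.  Prefix `s36tr_`.
-/
import Mathlib
import Fermat.Agent.S36.Tri.Chart

set_option autoImplicit false
set_option linter.unusedSectionVars false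

namespace Fermat.Agent.S36

open Ideal IsLocalRing Fermat.Agent.SS

section Clause

variable {B2 : Type*} [CommRing B2] [IsDomain B2] [IsNoetherianRing B2]
  {F2 : Type*} [Field F2] [Algebra B2 F2] [IsFractionRing B2 F2]

/-- **The TRIPLE clause** for `s36g_hloc_tri`, from the two-sided conclusion at the point. -/
theorem s36tr_clause {q : ℕ} {ϖ2 : B2} {𝔫P PA PB PC : Ideal B2} [h𝔫P : 𝔫P.IsPrime]
    [hPA : PA.IsPrime] [hPC : PC.IsPrime] (hAC : PA ≠ PC)
    (h : s36tr_Concl3 q ϖ2 𝔫P PA PB PC (ssl_locSub F2 𝔫P)) :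
    UniqueFactorizationMonoid (ssl_locSub F2 𝔫P) ∧
    ∃ u : Fin 3 → ssl_locSub F2 𝔫P, (∀ j, Prime (u j)) ∧
      (∀ i j, i ≠ j → ¬ Associated (u i) (u j)) ∧
      Associated (algebraMap B2 (ssl_locSub F2 𝔫P) ϖ2)
        (∏ j, u j ^ (![1, 1, q - 1] : Fin 3 → ℕ) j) ∧
      (∀ i j, i ≠ j → 𝔫P.map (algebraMap B2 (ssl_locSub F2 𝔫P)) ≤
        Ideal.span {u i} ⊔ Ideal.span {u j}) ∧
      (∀ j, IsIntegrallyClosed (ssl_locSub F2 𝔫P ⧸ Ideal.span {u j})) ∧
      PA.map (algebraMap B2 (ssl_locSub F2 𝔫P)) = Ideal.span {u 0} ∧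
      PB.map (algebraMap B2 (ssl_locSub F2 𝔫P)) = Ideal.span {u 1} ∧
      PC.map (algebraMap B2 (ssl_locSub F2 𝔫P)) = Ideal.span {u 2} := by
  obtain ⟨hufd, a, b, c, w, hap, hbp, hcp, hPAa, hPBb, hPCc, hϖ, hab, hac, hbc⟩ := h
  have : IsLocalRing (ssl_locSub F2 𝔫P) := IsLocalization.AtPrime.isLocalRing (ssl_locSub F2 𝔫P) 𝔫P
  have : IsNoetherianRing (ssl_locSub F2 𝔫P) := IsLocalization.isNoetherianRing 𝔫P.primeCompl (ssl_locSub F2 𝔫P) inferInstance
  have hmax : 𝔫P.map (algebraMap B2 (ssl_locSub F2 𝔫P)) = maximalIdeal (ssl_locSub F2 𝔫P) :=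
    IsLocalization.AtPrime.map_eq_maximalIdeal 𝔫P (ssl_locSub F2 𝔫P)
  -- contraction of extended primes inside `𝔫P`
  have hcomap : ∀ (P : Ideal B2) [P.IsPrime], P.map (algebraMap B2 (ssl_locSub F2 𝔫P)) ≤ 𝔫P.map (algebraMap B2 (ssl_locSub F2 𝔫P)) →
      (P.map (algebraMap B2 (ssl_locSub F2 𝔫P))).comap (algebraMap B2 (ssl_locSub F2 𝔫P)) = P := by
    intro P hP hle
    refine IsLocalization.under_map_of_isPrime_disjoint 𝔫P.primeCompl (ssl_locSub F2 𝔫P) hP ?_
    rw [Set.disjoint_left]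
    intro x hx hxP
    apply hx
    have h1 : algebraMap B2 (ssl_locSub F2 𝔫P) x ∈ 𝔫P.map (algebraMap B2 (ssl_locSub F2 𝔫P)) := hle (Ideal.mem_map_of_mem _ hxP)
    have h2 : (𝔫P.map (algebraMap B2 (ssl_locSub F2 𝔫P))).comap (algebraMap B2 (ssl_locSub F2 𝔫P)) = 𝔫P :=
      IsLocalization.under_map_of_isPrime_disjoint 𝔫P.primeCompl (ssl_locSub F2 𝔫P) h𝔫P
        (by rw [Set.disjoint_left]; exact fun y hy hy' => hy hy')
    rw [← h2]
    exact h1
  have hnac : ¬ Associated a c := by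
    intro hass
    apply hAC
    have h1 : PA.map (algebraMap B2 (ssl_locSub F2 𝔫P)) = PC.map (algebraMap B2 (ssl_locSub F2 𝔫P)) := by
      rw [hPAa, hPCc]; exact Ideal.span_singleton_eq_span_singleton.2 hass
    have hA : PA.map (algebraMap B2 (ssl_locSub F2 𝔫P)) ≤ 𝔫P.map (algebraMap B2 (ssl_locSub F2 𝔫P)) := by
      rw [hPAa, hab, Ideal.span_le]
      intro x hx
      rw [Set.mem_singleton_iff] at hx
      rw [hx]; exact Ideal.subset_span (by simp)
    have hC : PC.map (algebraMap B2 (ssl_locSub F2 𝔫P)) ≤ 𝔫P.map (algebraMap B2 (ssl_locSub F2 𝔫P)) := h1 ▸ hA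
    rw [← hcomap PA hA, ← hcomap PC hC, h1]
  have hnab : ¬ Associated a b := by
    intro hass
    apply hnac
    have h1 : 𝔫P.map (algebraMap B2 (ssl_locSub F2 𝔫P)) = Ideal.span {a} := by
      rw [hab, Ideal.span_insert, ← Ideal.span_singleton_eq_span_singleton.2 hass, sup_idem]
    have hc : c ∈ Ideal.span {a} := by
      rw [← h1, hac]; exact Ideal.subset_span (by simp)
    exact (hap.dvd_prime_iff_associated hcp).1 (Ideal.mem_span_singleton.1 hc)
  have hnbc : ¬ Associated b c := by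
    intro hass
    apply hnac
    have h1 : 𝔫P.map (algebraMap B2 (ssl_locSub F2 𝔫P)) = Ideal.span {c} := by
      rw [hbc, Ideal.span_insert, Ideal.span_singleton_eq_span_singleton.2 hass, sup_idem]
    have ha : a ∈ Ideal.span {c} := by
      rw [← h1, hab]; exact Ideal.subset_span (by simp)
    exact ((hcp.dvd_prime_iff_associated hap).1 (Ideal.mem_span_singleton.1 ha)).symm
  refine ⟨hufd, ![a, b, c], ?_, ?_, ?_, ?_, ?_, hPAa, hPBb, hPCc⟩
  · intro j; fin_cases j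
    · exact hap
    · exact hbp
    · exact hcp
  · intro i j hij
    fin_cases i <;> fin_cases j
    · exact absurd rfl hij
    · exact hnab
    · exact hnac
    · exact fun h => hnab h.symm
    · exact absurd rfl hij
    · exact hnbc
    · exact fun h => hnac h.symm
    · exact fun h => hnbc h.symm
    · exact absurd rfl hij
  · refine ⟨w⁻¹, ?_⟩
    rw [hϖ, Fin.prod_univ_three]
    simp only [Matrix.cons_val_zero, Matrix.cons_val_one, Matrix.cons_val_two, Matrix.head_cons,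
      Matrix.tail_cons, pow_one]
    have : (w : ssl_locSub F2 𝔫P) * (↑w⁻¹ : ssl_locSub F2 𝔫P) = 1 := Units.mul_inv w
    calc (w : ssl_locSub F2 𝔫P) * a * b * c ^ (q - 1) * (↑w⁻¹ : ssl_locSub F2 𝔫P)
        = ((w : ssl_locSub F2 𝔫P) * (↑w⁻¹ : ssl_locSub F2 𝔫P)) * (a * b * c ^ (q - 1)) := by ring
      _ = a * b * c ^ (q - 1) := by rw [this, one_mul]
  · intro i j hij
    fin_cases i <;> fin_cases j
    · exact absurd rfl hij
    · rw [hab, Ideal.span_insert]; rfl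
    · rw [hac, Ideal.span_insert]; rfl
    · rw [hab, Ideal.span_insert, sup_comm]; rfl
    · exact absurd rfl hij
    · rw [hbc, Ideal.span_insert]; rfl
    · rw [hac, Ideal.span_insert, sup_comm]; rfl
    · rw [hbc, Ideal.span_insert, sup_comm]; rfl
    · exact absurd rfl hij
  · have hba : maximalIdeal (ssl_locSub F2 𝔫P) = Ideal.span {b, a} := by
      rw [← hmax, hab, Ideal.span_insert, Ideal.span_insert, sup_comm]
    have hcb : maximalIdeal (ssl_locSub F2 𝔫P) = Ideal.span {c, b} := by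
      rw [← hmax, hbc, Ideal.span_insert, Ideal.span_insert, sup_comm]
    intro j
    fin_cases j
    · exact s36tr_quot_ic hap (hmax ▸ hab)
    · exact s36tr_quot_ic hbp hba
    · exact s36tr_quot_ic hcp hcb

variable (F2) in
/-- **the TRIPLE clause as a predicate** (the hypotheses `hu hna hπ htr hsm` of helper3's
`s36g_hloc_tri` at the point `𝔫P`, with `e = ![1, 1, q - 1]`, + the identification of the three
branches with `PA PB PC`). -/
def s36tr_TripleAt (q : ℕ) (ϖ2 : B2) (𝔫P PA PB PC : Ideal B2) [𝔫P.IsPrime] : Prop :=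
  UniqueFactorizationMonoid (ssl_locSub F2 𝔫P) ∧
    ∃ u : Fin 3 → ssl_locSub F2 𝔫P, (∀ j, Prime (u j)) ∧
      (∀ i j, i ≠ j → ¬ Associated (u i) (u j)) ∧
      Associated (algebraMap B2 (ssl_locSub F2 𝔫P) ϖ2)
        (∏ j, u j ^ (![1, 1, q - 1] : Fin 3 → ℕ) j) ∧
      (∀ i j, i ≠ j → 𝔫P.map (algebraMap B2 (ssl_locSub F2 𝔫P)) ≤
        Ideal.span {u i} ⊔ Ideal.span {u j}) ∧
      (∀ j, IsIntegrallyClosed (ssl_locSub F2 𝔫P ⧸ Ideal.span {u j})) ∧
      PA.map (algebraMap B2 (ssl_locSub F2 𝔫P)) = Ideal.span {u 0} ∧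
      PB.map (algebraMap B2 (ssl_locSub F2 𝔫P)) = Ideal.span {u 1} ∧
      PC.map (algebraMap B2 (ssl_locSub F2 𝔫P)) = Ideal.span {u 2}

/-- `s36tr_clause` in predicate form. -/
theorem s36tr_tripleAt {q : ℕ} {ϖ2 : B2} {𝔫P PA PB PC : Ideal B2} [h𝔫P : 𝔫P.IsPrime]
    [hPA : PA.IsPrime] [hPC : PC.IsPrime] (hAC : PA ≠ PC)
    (h : s36tr_Concl3 q ϖ2 𝔫P PA PB PC (ssl_locSub F2 𝔫P)) :
    s36tr_TripleAt F2 q ϖ2 𝔫P PA PB PC :=
  s36tr_clause hAC h

end Clause

end Fermat.Agent.S36
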