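/-
Project S36 (Carayol), cell [TRI-INST], THE LEVEL-`N' q` HALF (helper20).  Prefix `s36tn_`.

Inputs of helper10's `s36tr_ChartHyp` (S36/Tri/Chart.lean) which live on the level-`N' q` chart
`B₁ = fc_chart O {λ} ⊆ E₁ = lg_E L (N' q)` at a supersingular point `𝔫 ⊇ PF + PV`
(`PF = ssm_tp_P B₁ V₁`, `PV = ssm_tp_P B₁ V₂`):

* `s36tn_node_ring_of_cross` : tower-independent: from the crossing package `ssm_nx_Cross` and the
  thickness-one clause (`ssm_nx_thick`), the local ring `R = ssl_locSub E 𝔫` has `𝔫 R = (u, v)`,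
  `u`, `v` prime, non-associated, `u v = ϖ · unit`, `(u) = P1 R`, `(v) = P2 R`
  (helper10's `s35l_node_ring`; no Frobenius involved);
* `s36tn_leg_node`           : the Legendre instance over a number field `(L, O, q)`, `ζ_{N'} ∈ L`
  = the fields `hmax hu hv huv huvϖ hPF hPV` of `s36tr_ChartHyp` VERBATIM;
* `s36tn_leg_node_swap`      : the same with the roles of `PF` and `PV` exchanged (for the
  `W₂`-mirror).
-/
import Mathlib
import Fermat.Agent.S35.LocalPhi.NodeRing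
import Fermat.Agent.SS.Model.NodeLegB

set_option autoImplicit false
set_option linter.unusedSectionVars false
set_option linter.unusedVariables false
set_option linter.style.haveILetI false

noncomputable section

namespace Fermat.Agent.S36

open Fermat.Agent.SS Fermat.Agent.JT3 Fermat.Agent.S35 IsLocalRing Polynomial

section Abstract

variable {A0 : Type*} [CommRing A0] {K E : Type*} [Field K] [Field E] [Algebra K E]
  [Algebra A0 K] [Algebra A0 E]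
  {B' : Subalgebra A0 K} {B : Subalgebra A0 E} [IsFractionRing B E] [IsNoetherianRing B]
  [IsIntegrallyClosed B]

/-- **the local ring at a crossing point from the crossing package and thickness one**
(tower-independent, no Frobenius). -/
theorem s36tn_node_ring_of_cross {φ : B' →+* B} {π' : B'} {q₀ : ℕ} {P1 P2 : Ideal B} {lam' : B'}
    {lamq : B} {c : ℤ[X]} (C : ssm_nx_Cross B' B φ π' q₀ P1 P2 lam' lamq c)
    (π : A0) (hπ' : φ π' = algebraMap A0 B π) (hϖ0 : algebraMap A0 E π ≠ 0)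
    (𝔫 : Ideal B) [h𝔫 : 𝔫.IsMaximal] (hP1 : P1 ≤ 𝔫) (hP2 : P2 ≤ 𝔫)
    (hthick : ∃ u v : E, u * v = algebraMap A0 E π ∧
      (∃ s t : B, s ∉ 𝔫 ∧ t ∈ P2 ∧ (s : E) * u = t) ∧
      (∃ s t : B, s ∉ 𝔫 ∧ t ∈ P1 ∧ (s : E) * v = t) ∧
      (∀ z ∈ P2, ∃ s c : B, s ∉ 𝔫 ∧ (s : E) * (z : E) = u * c) ∧
      (∀ z ∈ P1, ∃ s c : B, s ∉ 𝔫 ∧ (s : E) * (z : E) = v * c) ∧
      (∃ s t : B, s ∉ 𝔫 ∧ t ∉ P1 ∧ (s : E) * u = t) ∧
      (∃ s t : B, s ∉ 𝔫 ∧ t ∉ P2 ∧ (s : E) * v = t)) :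
    haveI : 𝔫.IsPrime := h𝔫.isPrime
    ∃ u v : ssl_locSub E 𝔫,
      𝔫.map (algebraMap B (ssl_locSub E 𝔫)) = Ideal.span {u, v} ∧ Prime u ∧ Prime v ∧
      ¬ v ∣ u ∧ ¬ u ∣ v ∧
      (∃ e : (ssl_locSub E 𝔫)ˣ,
        u * v = algebraMap B (ssl_locSub E 𝔫) (algebraMap A0 B π) * (e : ssl_locSub E 𝔫)) ∧
      Ideal.span {u} = P1.map (algebraMap B (ssl_locSub E 𝔫)) ∧
      Ideal.span {v} = P2.map (algebraMap B (ssl_locSub E 𝔫)) := by
  haveI h𝔫p : 𝔫.IsPrime := h𝔫.isPrime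
  haveI := ssl_loc_isLocalRing (F0 := E) 𝔫
  haveI := C.prime1
  haveI := C.prime2
  obtain ⟨-, -, -, -, d4, d5, -, -, d9⟩ := C.cross 𝔫 h𝔫 hP1 hP2
  rw [hπ'] at d9
  have hrad : Ideal.span {algebraMap A0 B π} = P1 ⊓ P2 := by
    rw [← hπ']; exact C.hP
  obtain ⟨u, v, huv, ⟨su, tu, hsu, htu, hu⟩, ⟨sv, tv, hsv, htv, hv⟩, hgu, hgv,
    ⟨su1, tu1, hsu1, htu1, hu1⟩, ⟨sv2, tv2, hsv2, htv2, hv2⟩⟩ := hthick
  have h1𝔫 : (1 : B) ∉ 𝔫 := fun h => h𝔫p.ne_top ((Ideal.eq_top_iff_one _).2 h)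
  -- the generation clause
  have hgen : ∀ z ∈ 𝔫, ∃ s c1 c2 c3 : B, s ∉ 𝔫 ∧
      (s : E) * (z : E) = algebraMap A0 E π * c1 + u * c2 + v * c3 := by
    intro z hz
    obtain ⟨s, hs, hsz⟩ := d9 z hz
    obtain ⟨a, y, hy, hay⟩ := Ideal.mem_span_insert.1 hsz
    obtain ⟨b, c, hbc⟩ := Ideal.mem_span_pair.1 hy
    obtain ⟨sU, cU, hsU, hcU⟩ := hgu _ d4
    obtain ⟨sV, cV, hsV, hcV⟩ := hgv _ d5
    refine ⟨s * sU * sV, a * sU * sV, b * cU * sV, c * cV * sU, fun h => ?_, ?_⟩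
    · rcases h𝔫p.mem_or_mem h with h | h
      · rcases h𝔫p.mem_or_mem h with h | h
        · exact hs h
        · exact hsU h
      · exact hsV h
    · have e1 := congrArg (Subtype.val : B → E) hay
      rw [← hbc] at e1
      have e1' : (s : E) * (z : E) = (a : E) * algebraMap A0 E π +
          ((b : E) * ((φ lam' ^ (q₀ ^ 2) - φ lam' - (lamq ^ (q₀ ^ 2) - lamq) ^ q₀ : B) : E) +
            (c : E) * ((lamq ^ (q₀ ^ 2) - lamq - (φ lam' ^ (q₀ ^ 2) - φ lam') ^ q₀ : B) : E)) := by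
        simpa using e1
      push_cast
      have e2 : (s : E) * sU * sV * z = (sU : E) * sV * ((s : E) * z) := by ring
      rw [e2, e1']
      push_cast at hcU hcV ⊢
      linear_combination ((b : E) * (sV : E)) * hcU + ((c : E) * (sU : E)) * hcV
  obtain ⟨uR, vR, eR, huR, hvR, heR, huvR, hpu, hpv, hmax, hspu, hspv⟩ :=
    s35l_node_ring (π := π) 𝔫 hϖ0 hrad C.h12 C.h21 hP1 hP2 (u := u) (v := v) (e := 1)
      (by rw [mul_one]; exact huv) ⟨1, 1, h1𝔫, h1𝔫, by simp⟩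
      ⟨su, tu, hsu, hP2 htu, hu⟩ ⟨sv, tv, hsv, hP1 htv, hv⟩ hgen
      ⟨su1, tu1, fun h => hsu1 (hP1 h), htu1, hu1⟩ ⟨sv2, tv2, fun h => hsv2 (hP2 h), htv2, hv2⟩
  have hdisj : ∀ I : Ideal B, I ≤ 𝔫 → Disjoint (𝔫.primeCompl : Set B) (I : Set B) := by
    intro I hI
    rw [Set.disjoint_left]
    intro x hx hxI
    exact hx (hI hxI)
  have hcomap : ∀ (I : Ideal B) [I.IsPrime], I ≤ 𝔫 →
      (I.map (algebraMap B (ssl_locSub E 𝔫))).comap (algebraMap B (ssl_locSub E 𝔫)) = I :=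
    fun I hI hle => IsLocalization.under_map_of_isPrime_disjoint 𝔫.primeCompl _ hI (hdisj I hle)
  refine ⟨vR, uR, ?_, hpv, hpu, ?_, ?_, ⟨eR, by rw [mul_comm]; exact huvR⟩, hspv, hspu⟩
  · rw [IsLocalization.AtPrime.map_eq_maximalIdeal 𝔫 (ssl_locSub E 𝔫), hmax, Set.pair_comm]
  · -- `¬ uR ∣ vR`
    intro hdvd
    apply C.h12
    have hle : (Ideal.span {vR} : Ideal (ssl_locSub E 𝔫)) ≤ Ideal.span {uR} :=
      Ideal.span_singleton_le_span_singleton.2 hdvd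
    rw [hspv, hspu] at hle
    have := Ideal.comap_mono (f := algebraMap B (ssl_locSub E 𝔫)) hle
    rwa [hcomap P1 hP1, hcomap P2 hP2] at this
  · -- `¬ vR ∣ uR`
    intro hdvd
    apply C.h21
    have hle : (Ideal.span {uR} : Ideal (ssl_locSub E 𝔫)) ≤ Ideal.span {vR} :=
      Ideal.span_singleton_le_span_singleton.2 hdvd
    rw [hspv, hspu] at hle
    have := Ideal.comap_mono (f := algebraMap B (ssl_locSub E 𝔫)) hle
    rwa [hcomap P1 hP1, hcomap P2 hP2] at this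

end Abstract

section Leg

/-- the chart `B_λ` of `lg_E L M` over `O` has fraction field `lg_E L M`. -/
theorem s36tn_chart_isFractionRing {L : Type*} [Field L] [CharZero L]
    [Algebra L (AlgebraicClosure ℚ)] (O : ValuationSubring L) [IsDiscreteValuationRing O]
    (M : ℕ) [NeZero M] :
    IsFractionRing ↥(fc_chart ↥O ({lg_lamE M} : Set ↥(lg_E L M))) ↥(lg_E L M) := by
  haveI := ssm_go_isScalarTower O (lg_E L M)
  haveI := lgf_finite L M
  exact ssm_ths_chart_isFractionRing (A0 := ↥O) (L := L) _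

variable (L : Type) [Field L] [NumberField L] [Algebra L (AlgebraicClosure ℚ)]
  (O : ValuationSubring L) [IsDiscreteValuationRing O]
variable (N' q : ℕ) [NeZero N'] [NeZero q] [hq : Fact q.Prime] [CharP (ResidueField O) q]
  (hq2 : ¬ 2 ∣ q) (hqN' : ¬ q ∣ N') (hπ : Irreducible ((q : ℕ) : ↥O))
  (ζ : L) (hζ : IsPrimitiveRoot ζ N')

include hζ in
set_option synthInstance.maxHeartbeats 400000 in
set_option maxHeartbeats 3200000 in
/-- **the local ring of the level-`N' q` chart `B_λ` at a supersingular point** (Legendre tower,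
number-field base with uniformiser `q`): the fields `hmax hu hv huv huvϖ hPF hPV` of helper10's
`s36tr_ChartHyp`, with `PF = ssm_tp_P B₁ V₁`, `PV = ssm_tp_P B₁ V₂`. -/
theorem s36tn_leg_node
    (𝔫 : Ideal (fc_chart ↥O ({lg_lamE (N' * q)} : Set ↥(lg_E L (N' * q))))) [h𝔫 : 𝔫.IsMaximal]
    (hP1 : ssm_tp_P (fc_chart ↥O ({lg_lamE (N' * q)} : Set ↥(lg_E L (N' * q))))
      (ssm_gl_V1 O hπ N' q) ≤ 𝔫)
    (hP2 : ssm_tp_P (fc_chart ↥O ({lg_lamE (N' * q)} : Set ↥(lg_E L (N' * q))))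
      (ssm_gl_V2 O hπ N' q hq2 hqN') ≤ 𝔫) :
    haveI := s36tn_chart_isFractionRing O (N' * q)
    haveI : 𝔫.IsPrime := h𝔫.isPrime
    ∃ u v : ssl_locSub ↥(lg_E L (N' * q)) 𝔫,
      𝔫.map (algebraMap (fc_chart ↥O ({lg_lamE (N' * q)} : Set ↥(lg_E L (N' * q))))
        (ssl_locSub ↥(lg_E L (N' * q)) 𝔫)) = Ideal.span {u, v} ∧ Prime u ∧ Prime v ∧
      ¬ v ∣ u ∧ ¬ u ∣ v ∧
      (∃ e : (ssl_locSub ↥(lg_E L (N' * q)) 𝔫)ˣ,
        u * v = algebraMap (fc_chart ↥O ({lg_lamE (N' * q)} : Set ↥(lg_E L (N' * q))))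
          (ssl_locSub ↥(lg_E L (N' * q)) 𝔫)
          (algebraMap ↥O (fc_chart ↥O ({lg_lamE (N' * q)} : Set ↥(lg_E L (N' * q))))
            ((q : ℕ) : ↥O)) * (e : ssl_locSub ↥(lg_E L (N' * q)) 𝔫)) ∧
      Ideal.span {u} = (ssm_tp_P (fc_chart ↥O ({lg_lamE (N' * q)} : Set ↥(lg_E L (N' * q))))
        (ssm_gl_V1 O hπ N' q)).map
          (algebraMap (fc_chart ↥O ({lg_lamE (N' * q)} : Set ↥(lg_E L (N' * q))))
            (ssl_locSub ↥(lg_E L (N' * q)) 𝔫)) ∧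
      Ideal.span {v} = (ssm_tp_P (fc_chart ↥O ({lg_lamE (N' * q)} : Set ↥(lg_E L (N' * q))))
        (ssm_gl_V2 O hπ N' q hq2 hqN')).map
          (algebraMap (fc_chart ↥O ({lg_lamE (N' * q)} : Set ↥(lg_E L (N' * q))))
            (ssl_locSub ↥(lg_E L (N' * q)) 𝔫)) := by
  have hqO : ((q : ℕ) : O) ∈ maximalIdeal O := ssm_fln_q_mem L O q
  have hq2' : q ≠ 2 := ssm_fl_ne_two q hq2
  have hp := ssm_ll_prime L N' hπ q hqO hq2' hqN' ζ hζ
  have hic := ssm_ll_ic1 L N' hπ q hqO hq2' hqN' ζ hζ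
  have F := ssm_fl_facts O hπ N' q hq2 hqN' hp.1
  letI := ssm_gi_algebra (ssm_al_E_le L N' q)
  haveI := ssm_gt_isScalarTower O (ssm_al_E_le L N' q)
  haveI := ssm_go_isScalarTower O (lg_E L (N' * q))
  haveI := lgf_finite L (N' * q)
  have hx : Transcendental L (lg_lamE (L := L) (N' * q)) :=
    lgf_lam_transcendental L (N' * q) two_ne_zero
  haveI : IsNoetherianRing ↥(fc_chart ↥O ({lg_lamE (N' * q)} : Set ↥(lg_E L (N' * q)))) :=
    ssm_ths_chart_isNoetherianRing (A0 := ↥O) (L := L) hx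
  haveI : IsIntegrallyClosed ↥(fc_chart ↥O ({lg_lamE (N' * q)} : Set ↥(lg_E L (N' * q)))) :=
    ssm_ths_chart_isIntegrallyClosed (A0 := ↥O) (L := L) _
  haveI := s36tn_chart_isFractionRing O (N' * q)
  have C := ssm_nl_cross O hπ N' q hq2 hqN' hp.1 hic F
    (fun 𝔫' h1 h2 h3 h4 h5 => ssm_ll_EC L N' hπ q hqO hq2' hqN' 𝔫' h1 h2 h3 h4 h5)
  have hth := ssm_nlb_thick_nf L O N' q hq2 hqN' hπ ζ hζ 𝔫 h𝔫 hP1 hP2
  have e : algebraMap ↥O ↥(lg_E L (N' * q)) ((q : ℕ) : ↥O) = ((q : ℕ) : ↥(lg_E L (N' * q))) :=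
    map_natCast _ q
  rw [← e] at hth
  have hϖ0 : algebraMap ↥O ↥(lg_E L (N' * q)) ((q : ℕ) : ↥O) ≠ 0 := by
    rw [e]
    haveI : CharZero ↥(lg_E L (N' * q)) :=
      charZero_of_injective_algebraMap (algebraMap L ↥(lg_E L (N' * q))).injective
    exact Nat.cast_ne_zero.mpr hq.out.ne_zero
  exact s36tn_node_ring_of_cross C ((q : ℕ) : ↥O) (ssm_cpi_phi_algebraMap _ _) hϖ0 𝔫 hP1 hP2 hth

end Leg

end Fermat.Agent.S36
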