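/-
Project S36 (Carayol), cell [TRI-INST] = [L3d] (helper10; prefix `s36tri_`), LEGENDRE TOWER:
the triple points of the chart `B₂ = fc_chart O {λ}` of level `N' q q`.

Context [NF2-CTX].  `B₁ = fc_chart O {λ} ⊆ E₁ = lg_E L (N' q)`, `B₂ ⊆ E₂ = lg_E L (N' q q)`,
`VA = s36i_VA` (Gauss), `VB = s36cp_VB = VA.comap W₂`, `VC` ANY third valuation subring with
helper24's package `H : s36tp_Hyp q ![VA, VB, VC] ![1, 1, q - 1]`, `VC ∩ E₁ = VF`, `W₂ VC = VC`, a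
uniformiser `z ∈ B₂` of `VC` with `q = unit · z ^ (q - 1)` (helper29's `s36t3_Third`), the
smoothness clauses of the components `A`, `B` (helper17's `s36cp_leg_comp`) and `W₂ B₂ ⊆ B₂`
(helper29's `s36ig_W_charts`).

* `s36tri_leg_hyp`    : `s36tr_ChartHyp` for `ι : B₁ → B₂` at every supersingular point of `B₁`;
* `s36tri_leg_hyp_W`  : the same for the mirror `W₂ ∘ ι` (roles `PB PA PC`);
* `s36tri_leg_unique` : the point of `B₂` over a supersingular point of `B₁` is unique (the `huniq`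
  of helper17's `s36cp_all_of_two_max`), for `ι` and for `W₂ ∘ ι`;
* `s36tri_leg_triple` : the TRIPLE clause of helper3's `s36g_hloc_tri` at every maximal ideal of
  `B₂` containing `PA` and `PB`.
-/
import Mathlib
import Fermat.Agent.S36.Tri.InstVal
import Fermat.Agent.S36.Tri.Clause
import Fermat.Agent.S36.Tri.NodeInst
import Fermat.Agent.S36.Tri.MapInst
import Fermat.Agent.S36.Ins1.ThirdLeg
import Fermat.Agent.S36.Model.Smooth3Inst

set_option autoImplicit false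
set_option linter.unusedSectionVars false
set_option linter.unusedVariables false
set_option linter.style.haveILetI false

noncomputable section

namespace Fermat.Agent.S36

open Fermat.Agent.SS Fermat.Agent.JT3 Fermat.Agent.S35 IsLocalRing IntermediateField ModularCurve

section Charts

variable {L : Type*} [Field L] [CharZero L] [Algebra L (AlgebraicClosure ℚ)]
  (O : ValuationSubring L) [IsDiscreteValuationRing O] (M : ℕ) [NeZero M]

/-- the chart `B_λ` of `lg_E L M` is noetherian. -/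
theorem s36tri_chart_isNoetherianRing :
    IsNoetherianRing ↥(fc_chart ↥O ({lg_lamE M} : Set ↥(lg_E L M))) := by
  haveI := ssm_go_isScalarTower O (lg_E L M)
  haveI := lgf_finite L M
  exact ssm_ths_chart_isNoetherianRing (A0 := ↥O) (L := L)
    (lgf_lam_transcendental L M two_ne_zero)

/-- the chart `B_λ` of `lg_E L M` is integrally closed. -/
theorem s36tri_chart_isIntegrallyClosed :
    IsIntegrallyClosed ↥(fc_chart ↥O ({lg_lamE M} : Set ↥(lg_E L M))) := by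
  haveI := ssm_go_isScalarTower O (lg_E L M)
  haveI := lgf_finite L M
  exact ssm_ths_chart_isIntegrallyClosed (A0 := ↥O) (L := L) _

end Charts

section Restr

variable {L : Type*} [Field L] [CharZero L] [Algebra L (AlgebraicClosure ℚ)]
  (O : ValuationSubring L) [IsDiscreteValuationRing O] {π : O} (hπ : Irreducible π)
variable (N' q : ℕ) [NeZero N'] [NeZero q] [hq : Fact q.Prime] [CharP (ResidueField O) q]
  (hq2 : ¬ 2 ∣ q) (hqN' : ¬ q ∣ N')

/-- `VA ∩ E₁ = VF`. -/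
theorem s36tri_leg_rA (y : ↥(lg_E L (N' * q))) :
    (IntermediateField.inclusion (s36w_E_le1 L N' q)).toRingHom y ∈ s36i_VA O hπ (N' * q) q ↔
      y ∈ ssm_gl_V1 O hπ N' q := by
  letI := ssm_gi_algebra (ssm_al_E_le L (N' * q) q)
  letI := ssm_gi_algebraV (ssm_al_E_le L (N' * q) q) (ssm_gl_V1 O hπ N' q)
  have h := s36i_leg_overA O hπ N' q y
  exact h.trans (ssm_gi_mem_range _ _)

/-- `VB ∩ E₁ = VV`. -/
theorem s36tri_leg_rB (y : ↥(lg_E L (N' * q))) :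
    (IntermediateField.inclusion (s36w_E_le1 L N' q)).toRingHom y ∈ s36cp_VB O hπ N' q hq2 hqN' ↔
      y ∈ ssm_gl_V2 O hπ N' q hq2 hqN' := by
  letI := ssm_gi_algebra (ssm_al_E_le L (N' * q) q)
  letI := ssm_gi_algebraV (ssm_al_E_le L (N' * q) q) (s36i_VV O hπ N' q hq2 hqN')
  have D := s36i_leg_dataB O hπ N' q hq2 hqN'
  have h := D.overR y
  exact h.trans (ssm_gi_mem_range _ _)

/-- `κ(VB) ^ q ⊆ κ(VV)`. -/
theorem s36tri_leg_ins (x : ↥(lg_E L (N' * q * q))) (hx : x ∈ s36cp_VB O hπ N' q hq2 hqN') :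
    ∃ r ∈ ssm_gl_V2 O hπ N' q hq2 hqN',
      x ^ q - (IntermediateField.inclusion (s36w_E_le1 L N' q)).toRingHom r ∈
        (s36cp_VB O hπ N' q hq2 hqN').nonunits := by
  letI := ssm_gi_algebra (ssm_al_E_le L (N' * q) q)
  letI := ssm_gi_algebraV (ssm_al_E_le L (N' * q) q) (s36i_VV O hπ N' q hq2 hqN')
  haveI := ssm_gi_isScalarTower (ssm_al_E_le L (N' * q) q) (s36i_VV O hπ N' q hq2 hqN')
  have D := s36i_leg_dataB O hπ N' q hq2 hqN'
  haveI : FiniteDimensional ↥(lg_E L (N' * q)) ↥(lg_E L (N' * q * q)) :=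
    Module.finite_of_finrank_pos (by rw [D.finrank_eq]; exact hq.out.pos)
  haveI : CharZero ↥(lg_E L (N' * q)) :=
    charZero_of_injective_algebraMap (algebraMap L ↥(lg_E L (N' * q))).injective
  obtain ⟨r, hr⟩ := s36i_pow D x hx
  exact ⟨(r : ↥(lg_E L (N' * q))), r.2, hr⟩

end Restr

section Data

variable {L : Type*} [Field L] [CharZero L] [Algebra L (AlgebraicClosure ℚ)]
  (O : ValuationSubring L) [IsDiscreteValuationRing O] {π : O} (hπ : Irreducible π)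
variable (N' q : ℕ) [NeZero N'] [NeZero q] [hq : Fact q.Prime] [CharP (ResidueField O) q]
  (hq2 : ¬ 2 ∣ q) (hqN' : ¬ q ∣ N')

/-- **the inputs of [TRI-INST] about the third valuation `VC`** (and the mirror `W₂`) at level
`N' q q`: helper24's package for `![VA, VB, VC]`, `VC ∩ E₁ = VF`, `W₂ VC = VC`, a uniformiser
`z ∈ B₂` of `VC` with `π = unit · z ^ (q - 1)`, the smoothness of the components `A`, `B` at every
closed point of `B₂`, and `W₂ B₂ ⊆ B₂`. -/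
structure s36tri_LegData (VC : ValuationSubring ↥(lg_E L (N' * q * q)))
    (z : fc_chart ↥O ({lg_lamE (N' * q * q)} : Set ↥(lg_E L (N' * q * q)))) : Prop where
  H : s36tp_Hyp (algebraMap ↥O
      (Algebra.adjoin ↥O ({lg_lamE (N' * q * q)} : Set ↥(lg_E L (N' * q * q)))) π)
    ![s36i_VA O hπ (N' * q) q, s36cp_VB O hπ N' q hq2 hqN', VC] ![1, 1, q - 1]
  rC : ∀ y : ↥(lg_E L (N' * q)),
    (IntermediateField.inclusion (s36w_E_le1 L N' q)).toRingHom y ∈ VC ↔ y ∈ ssm_gl_V1 O hπ N' q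
  hWC : ∀ x : ↥(lg_E L (N' * q * q)), s36cp_W2 L N' q hq2 hqN' x ∈ VC ↔ x ∈ VC
  hz : (z : ↥(lg_E L (N' * q * q))) ∈ VC.nonunits
  hzC : ∀ x ∈ VC.nonunits, ∃ y ∈ VC, x = (z : ↥(lg_E L (N' * q * q))) * y
  hram : ∃ w : ↥(lg_E L (N' * q * q)), w ∈ VC ∧ w⁻¹ ∈ VC ∧
    algebraMap ↥O ↥(lg_E L (N' * q * q)) π = w * (z : ↥(lg_E L (N' * q * q))) ^ (q - 1)
  hsmA : ∀ 𝔫' : Ideal (fc_chart ↥O ({lg_lamE (N' * q * q)} : Set ↥(lg_E L (N' * q * q)))),
    𝔫'.IsMaximal → ∃ t ∈ 𝔫', ∀ x ∈ 𝔫',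
      ∃ s : fc_chart ↥O ({lg_lamE (N' * q * q)} : Set ↥(lg_E L (N' * q * q))), s ∉ 𝔫' ∧
      s * x ∈ ssm_tp_P (fc_chart ↥O ({lg_lamE (N' * q * q)} : Set ↥(lg_E L (N' * q * q))))
        (s36i_VA O hπ (N' * q) q) ⊔ Ideal.span {t}
  hsmB : ∀ 𝔫' : Ideal (fc_chart ↥O ({lg_lamE (N' * q * q)} : Set ↥(lg_E L (N' * q * q)))),
    𝔫'.IsMaximal → ∃ t ∈ 𝔫', ∀ x ∈ 𝔫',
      ∃ s : fc_chart ↥O ({lg_lamE (N' * q * q)} : Set ↥(lg_E L (N' * q * q))), s ∉ 𝔫' ∧
      s * x ∈ ssm_tp_P (fc_chart ↥O ({lg_lamE (N' * q * q)} : Set ↥(lg_E L (N' * q * q))))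
        (s36cp_VB O hπ N' q hq2 hqN') ⊔ Ideal.span {t}
  hWB : ∀ b ∈ fc_chart ↥O ({lg_lamE (N' * q * q)} : Set ↥(lg_E L (N' * q * q))),
    s36cp_W2 L N' q hq2 hqN' b ∈
      fc_chart ↥O ({lg_lamE (N' * q * q)} : Set ↥(lg_E L (N' * q * q)))

variable {O hπ N' q hq2 hqN'}

/-- `W₂` preserves the chart `B₂` (iff form). -/
theorem s36tri_LegData.hWB_iff {VC : ValuationSubring ↥(lg_E L (N' * q * q))}
    {z : fc_chart ↥O ({lg_lamE (N' * q * q)} : Set ↥(lg_E L (N' * q * q)))}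
    (D : s36tri_LegData O hπ N' q hq2 hqN' VC z) (x : ↥(lg_E L (N' * q * q))) :
    s36cp_W2 L N' q hq2 hqN' x ∈
      fc_chart ↥O ({lg_lamE (N' * q * q)} : Set ↥(lg_E L (N' * q * q))) ↔
    x ∈ fc_chart ↥O ({lg_lamE (N' * q * q)} : Set ↥(lg_E L (N' * q * q))) := by
  constructor
  · intro h
    have := D.hWB _ h
    rwa [show s36cp_W2 L N' q hq2 hqN' (s36cp_W2 L N' q hq2 hqN' x) = x from
      s36w_WE_WE L N' q hq.out hq2 hqN' x] at this
  · exact D.hWB x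

end Data

section Main

variable (L : Type) [Field L] [NumberField L] [Algebra L (AlgebraicClosure ℚ)]
  (O : ValuationSubring L) [IsDiscreteValuationRing O]
variable (N' q : ℕ) [NeZero N'] [NeZero q] [hq : Fact q.Prime] [CharP (ResidueField O) q]
  (hq2 : ¬ 2 ∣ q) (hqN' : ¬ q ∣ N') (hπ : Irreducible ((q : ℕ) : ↥O))
  (ζ : L) (hζ : IsPrimitiveRoot ζ N')

set_option quotPrecheck false

local notation "E1" => ↥(lg_E L (N' * q))
local notation "E2" => ↥(lg_E L (N' * q * q))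
local notation "B1" => fc_chart ↥O ({lg_lamE (N' * q)} : Set ↥(lg_E L (N' * q)))
local notation "B2" => fc_chart ↥O ({lg_lamE (N' * q * q)} : Set ↥(lg_E L (N' * q * q)))
local notation "VA" => s36i_VA O hπ (N' * q) q
local notation "VB" => s36cp_VB O hπ N' q hq2 hqN'
local notation "VF" => ssm_gl_V1 O hπ N' q
local notation "VV" => ssm_gl_V2 O hπ N' q hq2 hqN'
local notation "W2" => s36cp_W2 L N' q hq2 hqN'
local notation "jj" => (IntermediateField.inclusion (s36w_E_le1 L N' q)).toRingHom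
local notation "ιι" => s36tn_leg_iota O N' q

variable {VC : ValuationSubring ↥(lg_E L (N' * q * q))}
  {z : fc_chart ↥O ({lg_lamE (N' * q * q)} : Set ↥(lg_E L (N' * q * q)))}

/-- the mirror chart map `ι' = W₂ ∘ ι : B₁ → B₂`. -/
def s36tri_leg_iotaW (D : s36tri_LegData O hπ N' q hq2 hqN' VC z) : B1 →+* B2 :=
  s36tn_mirror W2 D.hWB_iff ιι

include hζ in
set_option synthInstance.maxHeartbeats 400000 in
set_option maxHeartbeats 3200000 in
/-- **[TRI-INST], Legendre, `α`-side**: the chart-level hypotheses of the triple point for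
`ι : B₁ → B₂` at every supersingular point `𝔫` of `B₁`. -/
theorem s36tri_leg_hyp (D : s36tri_LegData O hπ N' q hq2 hqN' VC z)
    (𝔫 : Ideal B1) [h𝔫 : 𝔫.IsMaximal] (hP1 : ssm_tp_P B1 VF ≤ 𝔫) (hP2 : ssm_tp_P B1 VV ≤ 𝔫) :
    haveI := s36tn_chart_isFractionRing O (N' * q)
    haveI := s36tn_chart_isFractionRing O (N' * q * q)
    haveI := s36tri_chart_isNoetherianRing O (N' * q)
    haveI := s36tri_chart_isNoetherianRing O (N' * q * q)
    haveI := s36tri_chart_isIntegrallyClosed O (N' * q * q)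
    haveI : 𝔫.IsPrime := h𝔫.isPrime
    ∃ u v : ssl_locSub E1 𝔫, s36tr_ChartHyp ιι jj 𝔫 u v (algebraMap ↥O B1 ((q : ℕ) : ↥O)) q
      (ssm_tp_P B1 VF) (ssm_tp_P B1 VV) (ssm_tp_P B2 VA) (ssm_tp_P B2 VB) (ssm_tp_P B2 VC) := by
  haveI := s36tn_chart_isFractionRing O (N' * q)
  haveI := s36tn_chart_isFractionRing O (N' * q * q)
  haveI := s36tri_chart_isNoetherianRing O (N' * q)
  haveI := s36tri_chart_isNoetherianRing O (N' * q * q)
  haveI := s36tri_chart_isIntegrallyClosed O (N' * q * q)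
  haveI : 𝔫.IsPrime := h𝔫.isPrime
  have hqO : ((q : ℕ) : O) ∈ maximalIdeal O := ssm_fln_q_mem L O q
  have hq2' : q ≠ 2 := ssm_fl_ne_two q hq2
  have hp := ssm_ll_prime L N' hπ q hqO hq2' hqN' ζ hζ
  have H1 := ssm_gl_hyp O hπ N' q hq2 hqN' hp.1
  haveI := ssm_go_isScalarTower O (lg_E L (N' * q))
  haveI := ssm_go_isScalarTower O (lg_E L (N' * q * q))
  haveI := lgf_finite L (N' * q)
  haveI := lgf_finite L (N' * q * q)
  have hx1 : Transcendental L (lg_lamE (L := L) (N' * q)) :=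
    lgf_lam_transcendental L (N' * q) two_ne_zero
  have hx2 : Transcendental L (lg_lamE (L := L) (N' * q * q)) :=
    lgf_lam_transcendental L (N' * q * q) two_ne_zero
  have hxA1 : Transcendental ↥O (lg_lamE (L := L) (N' * q)) :=
    fc_ff_transcendental (L := L) hx1
  haveI : IsIntegrallyClosed
      (Algebra.adjoin ↥O ({lg_lamE (N' * q)} : Set ↥(lg_E L (N' * q)))) :=
    fc_ff_isIntegrallyClosed hxA1
  haveI : FaithfulSMul
      (Algebra.adjoin ↥O ({lg_lamE (N' * q)} : Set ↥(lg_E L (N' * q)))) E1 :=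
    (faithfulSMul_iff_algebraMap_injective _ _).2 Subtype.val_injective
  have hxA2 : Transcendental ↥O (lg_lamE (L := L) (N' * q * q)) :=
    fc_ff_transcendental (L := L) hx2
  haveI : IsIntegrallyClosed
      (Algebra.adjoin ↥O ({lg_lamE (N' * q * q)} : Set ↥(lg_E L (N' * q * q)))) :=
    fc_ff_isIntegrallyClosed hxA2
  haveI : FaithfulSMul
      (Algebra.adjoin ↥O ({lg_lamE (N' * q * q)} : Set ↥(lg_E L (N' * q * q)))) E2 :=
    (faithfulSMul_iff_algebraMap_injective _ _).2 Subtype.val_injective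
  have hC1 := ssm_tp_ff_chart (L := L) hπ hx1
  have hC2 := ssm_tp_ff_chart (L := L) hπ hx2
  obtain ⟨u, v, hmax, hu, hv, huv, hvu, huvϖ, hPF, hPV⟩ :=
    s36tn_leg_node L O N' q hq2 hqN' hπ ζ hζ 𝔫 hP1 hP2
  have hall : ∀ i : Fin 3, i = 0 ∨ i = 1 ∨ i = 2 := by
    intro i; fin_cases i <;> simp
  refine ⟨u, v, s36tri_chartHyp D.H hC2 0 1 2 hall (by decide) rfl rfl hq.out.two_le ιι jj
    (s36tn_leg_iota_coe O N' q) (s36tn_leg_iota_isIntegral O N' q) VF VV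
    (fun x hx => hC1.le H1.over1 hx) (fun x hx => hC1.le H1.over2 hx)
    (s36tri_leg_rA O hπ N' q) (s36tri_leg_rB O hπ N' q hq2 hqN') D.rC _ ?_ 𝔫 h𝔫 u v hmax hu hv
    huv huvϖ hPF hPV hP1 hP2 ?_ z D.hz D.hzC ?_ (s36tri_leg_ins O hπ N' q hq2 hqN') D.hsmB⟩
  · rw [← IsScalarTower.algebraMap_apply]
    change jj (algebraMap ↥O E1 ((q : ℕ) : ↥O)) = _
    rw [map_natCast, map_natCast, map_natCast]
  · intro r hr
    exact (H1.mem_V2_iff hC1).1 hr
  · obtain ⟨w, hw, hw', hπw⟩ := D.hram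
    refine ⟨w, hw, hw', ?_⟩
    rw [← IsScalarTower.algebraMap_apply]
    exact hπw

include hζ in
set_option synthInstance.maxHeartbeats 400000 in
set_option maxHeartbeats 3200000 in
/-- **[TRI-INST], Legendre, mirror side**: the chart-level hypotheses of the triple point for
`ι' = W₂ ∘ ι : B₁ → B₂` (roles `PB PA PC`) at every supersingular point `𝔫` of `B₁`. -/
theorem s36tri_leg_hyp_W (D : s36tri_LegData O hπ N' q hq2 hqN' VC z)
    (𝔫 : Ideal B1) [h𝔫 : 𝔫.IsMaximal] (hP1 : ssm_tp_P B1 VF ≤ 𝔫) (hP2 : ssm_tp_P B1 VV ≤ 𝔫) :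
    haveI := s36tn_chart_isFractionRing O (N' * q)
    haveI := s36tn_chart_isFractionRing O (N' * q * q)
    haveI := s36tri_chart_isNoetherianRing O (N' * q)
    haveI := s36tri_chart_isNoetherianRing O (N' * q * q)
    haveI := s36tri_chart_isIntegrallyClosed O (N' * q * q)
    haveI : 𝔫.IsPrime := h𝔫.isPrime
    ∃ u v : ssl_locSub E1 𝔫, s36tr_ChartHyp (s36tri_leg_iotaW L O N' q hq2 hqN' hπ D)
      ((W2 : E2 →+* E2).comp jj) 𝔫 u v (algebraMap ↥O B1 ((q : ℕ) : ↥O)) q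
      (ssm_tp_P B1 VF) (ssm_tp_P B1 VV) (ssm_tp_P B2 VB) (ssm_tp_P B2 VA) (ssm_tp_P B2 VC) := by
  haveI := s36tn_chart_isFractionRing O (N' * q)
  haveI := s36tn_chart_isFractionRing O (N' * q * q)
  haveI := s36tri_chart_isNoetherianRing O (N' * q)
  haveI := s36tri_chart_isNoetherianRing O (N' * q * q)
  haveI := s36tri_chart_isIntegrallyClosed O (N' * q * q)
  haveI : 𝔫.IsPrime := h𝔫.isPrime
  have hqO : ((q : ℕ) : O) ∈ maximalIdeal O := ssm_fln_q_mem L O q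
  have hq2' : q ≠ 2 := ssm_fl_ne_two q hq2
  have hp := ssm_ll_prime L N' hπ q hqO hq2' hqN' ζ hζ
  have H1 := ssm_gl_hyp O hπ N' q hq2 hqN' hp.1
  haveI := ssm_go_isScalarTower O (lg_E L (N' * q))
  haveI := ssm_go_isScalarTower O (lg_E L (N' * q * q))
  haveI := lgf_finite L (N' * q)
  haveI := lgf_finite L (N' * q * q)
  have hx1 : Transcendental L (lg_lamE (L := L) (N' * q)) :=
    lgf_lam_transcendental L (N' * q) two_ne_zero
  have hx2 : Transcendental L (lg_lamE (L := L) (N' * q * q)) :=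
    lgf_lam_transcendental L (N' * q * q) two_ne_zero
  have hxA1 : Transcendental ↥O (lg_lamE (L := L) (N' * q)) :=
    fc_ff_transcendental (L := L) hx1
  haveI : IsIntegrallyClosed
      (Algebra.adjoin ↥O ({lg_lamE (N' * q)} : Set ↥(lg_E L (N' * q)))) :=
    fc_ff_isIntegrallyClosed hxA1
  haveI : FaithfulSMul
      (Algebra.adjoin ↥O ({lg_lamE (N' * q)} : Set ↥(lg_E L (N' * q)))) E1 :=
    (faithfulSMul_iff_algebraMap_injective _ _).2 Subtype.val_injective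
  have hxA2 : Transcendental ↥O (lg_lamE (L := L) (N' * q * q)) :=
    fc_ff_transcendental (L := L) hx2
  haveI : IsIntegrallyClosed
      (Algebra.adjoin ↥O ({lg_lamE (N' * q * q)} : Set ↥(lg_E L (N' * q * q)))) :=
    fc_ff_isIntegrallyClosed hxA2
  haveI : FaithfulSMul
      (Algebra.adjoin ↥O ({lg_lamE (N' * q * q)} : Set ↥(lg_E L (N' * q * q)))) E2 :=
    (faithfulSMul_iff_algebraMap_injective _ _).2 Subtype.val_injective
  have hC1 := ssm_tp_ff_chart (L := L) hπ hx1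
  have hC2 := ssm_tp_ff_chart (L := L) hπ hx2
  have hWW : ∀ x : E2, W2 (W2 x) = x := s36w_WE_WE L N' q hq.out hq2 hqN'
  obtain ⟨u, v, hmax, hu, hv, huv, hvu, huvϖ, hPF, hPV⟩ :=
    s36tn_leg_node L O N' q hq2 hqN' hπ ζ hζ 𝔫 hP1 hP2
  have hall : ∀ i : Fin 3, i = 1 ∨ i = 0 ∨ i = 2 := by
    intro i; fin_cases i <;> simp
  -- membership in `VB = VA.comap W₂`
  have hVB : ∀ x : E2, x ∈ VB ↔ W2 x ∈ VA := fun x => Iff.rfl
  refine ⟨u, v, s36tri_chartHyp D.H hC2 1 0 2 hall (by decide) rfl rfl hq.out.two_le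
    (s36tri_leg_iotaW L O N' q hq2 hqN' hπ D) ((W2 : E2 →+* E2).comp jj)
    (s36tn_mirror_comm W2 D.hWB_iff ιι jj (s36tn_leg_iota_coe O N' q))
    (s36tn_mirror_isIntegral W2 D.hWB_iff ιι (s36tn_leg_iota_isIntegral O N' q)) VF VV
    (fun x hx => hC1.le H1.over1 hx) (fun x hx => hC1.le H1.over2 hx)
    ?_ ?_ ?_ _ ?_ 𝔫 h𝔫 u v hmax hu hv
    huv huvϖ hPF hPV hP1 hP2 ?_ z D.hz D.hzC ?_ ?_ D.hsmA⟩
  · -- `W₂ (j y) ∈ VB ↔ y ∈ VF`
    intro y
    change W2 (jj y) ∈ VB ↔ _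
    rw [hVB, hWW]
    exact s36tri_leg_rA O hπ N' q y
  · -- `W₂ (j y) ∈ VA ↔ y ∈ VV`
    intro y
    change W2 (jj y) ∈ VA ↔ _
    rw [← hVB]
    exact s36tri_leg_rB O hπ N' q hq2 hqN' y
  · -- `W₂ (j y) ∈ VC ↔ y ∈ VF`
    intro y
    change W2 (jj y) ∈ VC ↔ _
    rw [D.hWC]
    exact D.rC y
  · rw [← IsScalarTower.algebraMap_apply]
    change W2 (jj (algebraMap ↥O E1 ((q : ℕ) : ↥O))) = _
    rw [map_natCast, map_natCast, map_natCast, map_natCast]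
  · intro r hr
    exact (H1.mem_V2_iff hC1).1 hr
  · obtain ⟨w, hw, hw', hπw⟩ := D.hram
    refine ⟨w, hw, hw', ?_⟩
    rw [← IsScalarTower.algebraMap_apply]
    exact hπw
  · -- `κ(VA) ^ q ⊆ W₂ κ(VV)`
    intro x hx
    have hx' : W2 x ∈ VB := by rw [hVB, hWW]; exact hx
    obtain ⟨r, hr, hxr⟩ := s36tri_leg_ins O hπ N' q hq2 hqN' (W2 x) hx'
    refine ⟨r, hr, ?_⟩
    have h1 := (s36tn_mem_comap_nonunits W2 VA _).1 hxr
    rw [map_sub, map_pow, hWW] at h1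
    exact h1

include hζ in
set_option synthInstance.maxHeartbeats 400000 in
set_option maxHeartbeats 3200000 in
/-- **the contractions of the three vertical primes** of `B₂` to `B₁`, along `ι` and along the
mirror `ι' = W₂ ∘ ι` (`hA hB hC` of `s36cp_all_of_two_max`). -/
theorem s36tri_leg_comap (D : s36tri_LegData O hπ N' q hq2 hqN' VC z) :
    ((ssm_tp_P B2 VA).comap ιι = ssm_tp_P B1 VF ∧ (ssm_tp_P B2 VB).comap ιι = ssm_tp_P B1 VV ∧
      (ssm_tp_P B2 VC).comap ιι = ssm_tp_P B1 VF) ∧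
    ((ssm_tp_P B2 VB).comap (s36tri_leg_iotaW L O N' q hq2 hqN' hπ D) = ssm_tp_P B1 VF ∧
      (ssm_tp_P B2 VA).comap (s36tri_leg_iotaW L O N' q hq2 hqN' hπ D) = ssm_tp_P B1 VV ∧
      (ssm_tp_P B2 VC).comap (s36tri_leg_iotaW L O N' q hq2 hqN' hπ D) = ssm_tp_P B1 VF) := by
  have hqO : ((q : ℕ) : O) ∈ maximalIdeal O := ssm_fln_q_mem L O q
  have hq2' : q ≠ 2 := ssm_fl_ne_two q hq2
  have hp := ssm_ll_prime L N' hπ q hqO hq2' hqN' ζ hζ
  have H1 := ssm_gl_hyp O hπ N' q hq2 hqN' hp.1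
  haveI := ssm_go_isScalarTower O (lg_E L (N' * q))
  haveI := ssm_go_isScalarTower O (lg_E L (N' * q * q))
  haveI := lgf_finite L (N' * q)
  haveI := lgf_finite L (N' * q * q)
  have hx1 : Transcendental L (lg_lamE (L := L) (N' * q)) :=
    lgf_lam_transcendental L (N' * q) two_ne_zero
  have hx2 : Transcendental L (lg_lamE (L := L) (N' * q * q)) :=
    lgf_lam_transcendental L (N' * q * q) two_ne_zero
  have hxA1 : Transcendental ↥O (lg_lamE (L := L) (N' * q)) :=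
    fc_ff_transcendental (L := L) hx1
  haveI : IsIntegrallyClosed
      (Algebra.adjoin ↥O ({lg_lamE (N' * q)} : Set ↥(lg_E L (N' * q)))) :=
    fc_ff_isIntegrallyClosed hxA1
  haveI : FaithfulSMul
      (Algebra.adjoin ↥O ({lg_lamE (N' * q)} : Set ↥(lg_E L (N' * q)))) E1 :=
    (faithfulSMul_iff_algebraMap_injective _ _).2 Subtype.val_injective
  have hxA2 : Transcendental ↥O (lg_lamE (L := L) (N' * q * q)) :=
    fc_ff_transcendental (L := L) hx2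
  haveI : IsIntegrallyClosed
      (Algebra.adjoin ↥O ({lg_lamE (N' * q * q)} : Set ↥(lg_E L (N' * q * q)))) :=
    fc_ff_isIntegrallyClosed hxA2
  haveI : FaithfulSMul
      (Algebra.adjoin ↥O ({lg_lamE (N' * q * q)} : Set ↥(lg_E L (N' * q * q)))) E2 :=
    (faithfulSMul_iff_algebraMap_injective _ _).2 Subtype.val_injective
  have hC1 := ssm_tp_ff_chart (L := L) hπ hx1
  have hC2 := ssm_tp_ff_chart (L := L) hπ hx2
  have hWW : ∀ x : E2, W2 (W2 x) = x := s36w_WE_WE L N' q hq.out hq2 hqN'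
  have leF : ∀ x ∈ B1, x ∈ VF := fun x hx => hC1.le H1.over1 hx
  have leV : ∀ x ∈ B1, x ∈ VV := fun x hx => hC1.le H1.over2 hx
  have leA : ∀ x ∈ B2, x ∈ VA := fun x hx => D.H.chart_le hC2 0 hx
  have leB : ∀ x ∈ B2, x ∈ VB := fun x hx => D.H.chart_le hC2 1 hx
  have leC : ∀ x ∈ B2, x ∈ VC := fun x hx => D.H.chart_le hC2 2 hx
  have hcA := s36tn_comap_P ιι jj (s36tn_leg_iota_coe O N' q) leF leA
    (s36tri_nonunits_iff jj (s36tri_leg_rA O hπ N' q))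
  have hcB := s36tn_comap_P ιι jj (s36tn_leg_iota_coe O N' q) leV leB
    (s36tri_nonunits_iff jj (s36tri_leg_rB O hπ N' q hq2 hqN'))
  have hcC := s36tn_comap_P ιι jj (s36tn_leg_iota_coe O N' q) leF leC
    (s36tri_nonunits_iff jj D.rC)
  refine ⟨⟨hcA, hcB, hcC⟩, ?_, ?_, ?_⟩
  · -- `PB = P (VA.comap W₂)`
    exact (s36tn_mirror_comap W2 D.hWB_iff hWW ιι VA leA).trans hcA
  · -- `PA = P (VB.comap W₂)`
    have hVA : (VB).comap (W2 : E2 →+* E2) = VA := by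
      ext x
      rw [ValuationSubring.mem_comap]
      change W2 (W2 x) ∈ VA ↔ _
      rw [hWW]
    have h := s36tn_mirror_comap W2 D.hWB_iff hWW ιι VB leB
    rw [hVA] at h
    exact h.trans hcB
  · have hVC : VC.comap (W2 : E2 →+* E2) = VC := by
      ext x
      rw [ValuationSubring.mem_comap]
      exact D.hWC x
    have h := s36tn_mirror_comap W2 D.hWB_iff hWW ιι VC leC
    rw [hVC] at h
    exact h.trans hcC

include hζ in
set_option synthInstance.maxHeartbeats 400000 in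
set_option maxHeartbeats 3200000 in
/-- **the point of `B₂` over a supersingular point of `B₁` is unique** (`huniq` of helper17's
`s36cp_all_of_two_max`, `ψ = ι`). -/
theorem s36tri_leg_unique (D : s36tri_LegData O hπ N' q hq2 hqN' VC z)
    (𝔪 𝔪' : Ideal B2) (h𝔪 : 𝔪.IsMaximal) (h𝔪' : 𝔪'.IsMaximal)
    (hP1 : ssm_tp_P B1 VF ≤ 𝔪.comap ιι) (hP2 : ssm_tp_P B1 VV ≤ 𝔪.comap ιι)
    (hc : 𝔪'.comap ιι = 𝔪.comap ιι) : 𝔪' = 𝔪 := by
  haveI := s36tn_chart_isFractionRing O (N' * q)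
  haveI := s36tn_chart_isFractionRing O (N' * q * q)
  haveI := s36tri_chart_isNoetherianRing O (N' * q)
  haveI := s36tri_chart_isNoetherianRing O (N' * q * q)
  haveI := s36tri_chart_isIntegrallyClosed O (N' * q * q)
  haveI : (𝔪.comap ιι).IsMaximal :=
    ssm_cp_comap_isMaximal ιι (s36tn_leg_iota_isIntegral O N' q) 𝔪 h𝔪
  haveI : (𝔪.comap ιι).IsPrime := Ideal.IsMaximal.isPrime ‹_›
  obtain ⟨u, v, Hc⟩ := s36tri_leg_hyp L O N' q hq2 hqN' hπ ζ hζ D (𝔪.comap ιι) hP1 hP2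
  obtain ⟨𝔫P, -, -, huniq, -, -⟩ := Hc.chart
  exact (huniq 𝔪' h𝔪'.isPrime hc).trans (huniq 𝔪 h𝔪.isPrime rfl).symm

include hζ in
set_option synthInstance.maxHeartbeats 400000 in
set_option maxHeartbeats 3200000 in
/-- the same for the mirror `ι' = W₂ ∘ ι`. -/
theorem s36tri_leg_unique_W (D : s36tri_LegData O hπ N' q hq2 hqN' VC z)
    (𝔪 𝔪' : Ideal B2) (h𝔪 : 𝔪.IsMaximal) (h𝔪' : 𝔪'.IsMaximal)
    (hP1 : ssm_tp_P B1 VF ≤ 𝔪.comap (s36tri_leg_iotaW L O N' q hq2 hqN' hπ D))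
    (hP2 : ssm_tp_P B1 VV ≤ 𝔪.comap (s36tri_leg_iotaW L O N' q hq2 hqN' hπ D))
    (hc : 𝔪'.comap (s36tri_leg_iotaW L O N' q hq2 hqN' hπ D) =
      𝔪.comap (s36tri_leg_iotaW L O N' q hq2 hqN' hπ D)) : 𝔪' = 𝔪 := by
  haveI := s36tn_chart_isFractionRing O (N' * q)
  haveI := s36tn_chart_isFractionRing O (N' * q * q)
  haveI := s36tri_chart_isNoetherianRing O (N' * q)
  haveI := s36tri_chart_isNoetherianRing O (N' * q * q)
  haveI := s36tri_chart_isIntegrallyClosed O (N' * q * q)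
  have hint' : (s36tri_leg_iotaW L O N' q hq2 hqN' hπ D).IsIntegral :=
    s36tn_mirror_isIntegral W2 D.hWB_iff ιι (s36tn_leg_iota_isIntegral O N' q)
  haveI : (𝔪.comap (s36tri_leg_iotaW L O N' q hq2 hqN' hπ D)).IsMaximal :=
    ssm_cp_comap_isMaximal _ hint' 𝔪 h𝔪
  haveI : (𝔪.comap (s36tri_leg_iotaW L O N' q hq2 hqN' hπ D)).IsPrime :=
    Ideal.IsMaximal.isPrime ‹_›
  obtain ⟨u, v, Hc⟩ := s36tri_leg_hyp_W L O N' q hq2 hqN' hπ ζ hζ D
    (𝔪.comap (s36tri_leg_iotaW L O N' q hq2 hqN' hπ D)) hP1 hP2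
  obtain ⟨𝔫P, -, -, huniq, -, -⟩ := Hc.chart
  exact (huniq 𝔪' h𝔪'.isPrime hc).trans (huniq 𝔪 h𝔪.isPrime rfl).symm

include hζ in
set_option synthInstance.maxHeartbeats 400000 in
set_option maxHeartbeats 3200000 in
/-- **[TRI-INST] (γ), Legendre: THE TRIPLE CLAUSE** of helper3's `s36g_hloc_tri` at every maximal
ideal `𝔪` of `B₂ = fc_chart O {λ}` (level `N' q q`) containing `PA` and `PB`: `𝔪` also contains
`PC`; `R = ssl_locSub E₂ 𝔪` is factorial; `PA R = (u 0)`, `PB R = (u 1)`, `PC R = (u 2)` with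
`u j` prime, pairwise non-associated, `q ~ u 0 · u 1 · (u 2) ^ (q - 1)`, any two of the `u j`
generate `𝔪 R`, and the quotients `R ⧸ (u j)` are integrally closed. -/
theorem s36tri_leg_triple (D : s36tri_LegData O hπ N' q hq2 hqN' VC z)
    (𝔪 : Ideal B2) [h𝔪 : 𝔪.IsMaximal] (hA : ssm_tp_P B2 VA ≤ 𝔪) (hB : ssm_tp_P B2 VB ≤ 𝔪) :
    haveI := s36tn_chart_isFractionRing O (N' * q * q)
    haveI := s36tri_chart_isNoetherianRing O (N' * q * q)
    haveI : 𝔪.IsPrime := h𝔪.isPrime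
    ssm_tp_P B2 VC ≤ 𝔪 ∧
    s36tr_TripleAt E2 q (algebraMap ↥O B2 ((q : ℕ) : ↥O)) 𝔪
      (ssm_tp_P B2 VA) (ssm_tp_P B2 VB) (ssm_tp_P B2 VC) := by
  haveI := s36tn_chart_isFractionRing O (N' * q)
  haveI := s36tn_chart_isFractionRing O (N' * q * q)
  haveI := s36tri_chart_isNoetherianRing O (N' * q)
  haveI := s36tri_chart_isNoetherianRing O (N' * q * q)
  haveI := s36tri_chart_isIntegrallyClosed O (N' * q * q)
  haveI h𝔪p : 𝔪.IsPrime := h𝔪.isPrime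
  obtain ⟨⟨hcA, hcB, hcC⟩, hcB', hcA', hcC'⟩ := s36tri_leg_comap L O N' q hq2 hqN' hπ ζ hζ D
  have hint := s36tn_leg_iota_isIntegral O N' q
  have hint' : (s36tri_leg_iotaW L O N' q hq2 hqN' hπ D).IsIntegral :=
    s36tn_mirror_isIntegral W2 D.hWB_iff ιι hint
  -- the `α`-side
  haveI h1max : (𝔪.comap ιι).IsMaximal := ssm_cp_comap_isMaximal ιι hint 𝔪 h𝔪
  haveI h1p : (𝔪.comap ιι).IsPrime := h1max.isPrime
  have hP1 : ssm_tp_P B1 VF ≤ 𝔪.comap ιι := hcA ▸ Ideal.comap_mono hA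
  have hP2 : ssm_tp_P B1 VV ≤ 𝔪.comap ιι := hcB ▸ Ideal.comap_mono hB
  obtain ⟨u, v, Hc⟩ := s36tri_leg_hyp L O N' q hq2 hqN' hπ ζ hζ D (𝔪.comap ιι) hP1 hP2
  obtain ⟨𝔫P, h𝔫Pp, h𝔫Pc, huniq, -, hconcl⟩ := Hc.chart
  have e1 : 𝔪 = 𝔫P := huniq 𝔪 h𝔪p rfl
  subst e1
  -- the mirror side
  haveI h2max : (𝔪.comap (s36tri_leg_iotaW L O N' q hq2 hqN' hπ D)).IsMaximal :=
    ssm_cp_comap_isMaximal _ hint' 𝔪 h𝔪
  haveI h2p : (𝔪.comap (s36tri_leg_iotaW L O N' q hq2 hqN' hπ D)).IsPrime := h2max.isPrime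
  have hP1' : ssm_tp_P B1 VF ≤ 𝔪.comap (s36tri_leg_iotaW L O N' q hq2 hqN' hπ D) :=
    hcB' ▸ Ideal.comap_mono hB
  have hP2' : ssm_tp_P B1 VV ≤ 𝔪.comap (s36tri_leg_iotaW L O N' q hq2 hqN' hπ D) :=
    hcA' ▸ Ideal.comap_mono hA
  obtain ⟨u', v', Hc'⟩ := s36tri_leg_hyp_W L O N' q hq2 hqN' hπ ζ hζ D
    (𝔪.comap (s36tri_leg_iotaW L O N' q hq2 hqN' hπ D)) hP1' hP2'
  obtain ⟨𝔫P', h𝔫Pp', h𝔫Pc', huniq', -, hconcl'⟩ := Hc'.chart
  have e2 : 𝔪 = 𝔫P' := huniq' 𝔪 h𝔪p rfl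
  subst e2
  have h3 := s36tr_concl_both hconcl hconcl'
  rw [s36tn_leg_iota_algebraMap] at h3
  haveI := Hc.hPA
  haveI := Hc.hPC
  refine ⟨?_, s36tr_tripleAt Hc.hAC h3⟩
  -- `PC ≤ 𝔪`
  obtain ⟨𝔮, hle, h𝔮p, h𝔮c⟩ := ssm_cp_exists ιι hint (ssm_tp_P B2 VC) (𝔪.comap ιι)
    (hcC ▸ hP1)
  rw [huniq 𝔮 h𝔮p h𝔮c] at hle
  exact hle

end Main

end Fermat.Agent.S36
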