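/-
Project S36 (Carayol), cell [M2], leaf [L3d] = [TRI-INST], LEGENDRE (helper10; prefix `s36tri_`):
THE INPUT STRUCTURE `s36tri_LegData` OF `Tri/InstLeg.lean` AS A CLOSED TERM from the third-valuation
package (`s36asm_Third`, helper29/helper15), [TP3] `H` and the `W₂`-stability of the two charts.

* `s36tri_lam2_mem_chart` : `λ₂ = λ(X^{q q}) ∈ B₂ = fc_chart O {λ}` (from `W₂ B₂ ⊆ B₂`);
* `s36tri_z`              : `z = λ₂ - λ` as an element of `B₂`;
* `s36tri_legData_of_third` : `s36tri_LegData O hπ N' q hq2 hqN' VC (s36tri_z …)` ([NF2-CTX], general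
  `π`) — so that `s36tri_leg_hyp`, `s36tri_leg_hyp_W`, `s36tri_leg_unique(_W)`, `s36tri_leg_triple`
  and helper17's `s36cp_bl_leg_cases` / `s36cp_bl_leg_below` are closed modulo `T3`, `H`, `(W)`.
-/
import Mathlib
import Fermat.Agent.S36.Tri.InstLeg
import Fermat.Agent.S36.Model.AsmLegFinal
import Fermat.Agent.S36.Model.BelowInst
import Fermat.Agent.S36.Ins1.MirrorLeg
import Fermat.Agent.S36.Model.ThreeLeg

set_option autoImplicit false
set_option linter.unusedSectionVars false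
set_option linter.unusedVariables false
set_option linter.style.haveILetI false

noncomputable section

open ModularCurve AlgebraicCurve IntermediateField IsLocalRing
open Fermat.Agent.JT3 Fermat.Agent.SS Fermat.Agent.S35

namespace Fermat.Agent.S36

section Leg

variable {L : Type*} [Field L] [CharZero L] [Algebra L (AlgebraicClosure ℚ)]
  (O : ValuationSubring L) [IsDiscreteValuationRing O] {π : O} (hπ : Irreducible π)
variable (N' q : ℕ) [NeZero N'] [NeZero q] [hq : Fact q.Prime] [CharP (ResidueField O) q]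
  (hq2 : ¬ 2 ∣ q) (hqN' : ¬ q ∣ N')

/-- `W₂ λ = λ₂`. -/
theorem s36tri_W2_lam :
    s36cp_W2 L N' q hq2 hqN' (lg_lamE (N' * q * q)) = s36i_lam2 L N' q hq2 := by
  have h := s36i_W2_lam2 (L := L) N' q hq2 hqN'
  have h2 := s36w_WE_WE L N' q hq.out hq2 hqN' (s36i_lam2 L N' q hq2)
  rw [← h]
  exact h2

/-- `λ₂ ∈ B₂` from the `W₂`-stability of the chart. -/
theorem s36tri_lam2_mem_chart
    (hWB1 : ∀ b ∈ fc_chart ↥O ({lg_lamE (N' * q * q)} : Set ↥(lg_E L (N' * q * q))),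
      s36cp_W2 L N' q hq2 hqN' b ∈
        fc_chart ↥O ({lg_lamE (N' * q * q)} : Set ↥(lg_E L (N' * q * q)))) :
    s36i_lam2 L N' q hq2 ∈
      fc_chart ↥O ({lg_lamE (N' * q * q)} : Set ↥(lg_E L (N' * q * q))) := by
  rw [← s36tri_W2_lam N' q hq2 hqN']
  exact hWB1 _ (fc_x_mem_chart _)

/-- `z = λ₂ - λ` as an element of the chart `B₂`. -/
def s36tri_z
    (hWB1 : ∀ b ∈ fc_chart ↥O ({lg_lamE (N' * q * q)} : Set ↥(lg_E L (N' * q * q))),
      s36cp_W2 L N' q hq2 hqN' b ∈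
        fc_chart ↥O ({lg_lamE (N' * q * q)} : Set ↥(lg_E L (N' * q * q)))) :
    fc_chart ↥O ({lg_lamE (N' * q * q)} : Set ↥(lg_E L (N' * q * q))) :=
  ⟨s36i_lam2 L N' q hq2 - lg_lamE (N' * q * q),
    Subalgebra.sub_mem _ (s36tri_lam2_mem_chart O N' q hq2 hqN' hWB1) (fc_x_mem_chart _)⟩

end Leg

section NF

variable (L : Type) [Field L] [NumberField L] [Algebra L (AlgebraicClosure ℚ)]
  (O : ValuationSubring L) [IsDiscreteValuationRing O] {π : O} (hπ : Irreducible π)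
variable (N' q : ℕ) [NeZero N'] [NeZero q] [hq : Fact q.Prime] [CharP (ResidueField O) q]
  (hq2 : ¬ 2 ∣ q) (hqN' : ¬ q ∣ N') (ζ : L) (hζ : IsPrimitiveRoot ζ N')

include hζ in
set_option synthInstance.maxHeartbeats 400000 in
set_option maxHeartbeats 1600000 in
/-- **the input structure of [TRI-INST]-Leg from the third-valuation package**, [NF2-CTX]. -/
theorem s36tri_legData_of_third {VC : ValuationSubring ↥(lg_E L (N' * q * q))}
    (T3 : s36asm_Third O hπ N' q hq2 hqN' VC)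
    (H : s36tp_Hyp
      (algebraMap ↥O (Algebra.adjoin ↥O ({lg_lamE (N' * q * q)} : Set ↥(lg_E L (N' * q * q)))) π)
      ![s36i_VA O hπ (N' * q) q, s36cp_VB O hπ N' q hq2 hqN', VC] ![1, 1, q - 1])
    (hWB1 : ∀ b ∈ fc_chart ↥O ({lg_lamE (N' * q * q)} : Set ↥(lg_E L (N' * q * q))),
      s36cp_W2 L N' q hq2 hqN' b ∈
        fc_chart ↥O ({lg_lamE (N' * q * q)} : Set ↥(lg_E L (N' * q * q))))
    (hWB2 : ∀ b ∈ fc_chart ↥O ({(lg_lamE (N' * q * q))⁻¹} : Set ↥(lg_E L (N' * q * q))),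
      s36cp_W2 L N' q hq2 hqN' b ∈
        fc_chart ↥O ({(lg_lamE (N' * q * q))⁻¹} : Set ↥(lg_E L (N' * q * q)))) :
    s36tri_LegData O hπ N' q hq2 hqN' VC (s36tri_z O N' q hq2 hqN' hWB1) := by
  letI := ssm_gi_algebra (ssm_al_E_le L (N' * q) q)
  letI := ssm_gi_algebraV (ssm_al_E_le L (N' * q) q) (ssm_gl_V1 O hπ N' q)
  haveI := ssm_gi_isScalarTower (ssm_al_E_le L (N' * q) q) (ssm_gl_V1 O hπ N' q)
  haveI : FiniteDimensional ↥(lg_E L (N' * q)) ↥(lg_E L (N' * q * q)) :=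
    s36at_leg_fin1 (L := L) N' q hq2
  haveI : Algebra.IsSeparable ↥(lg_E L (N' * q)) ↥(lg_E L (N' * q * q)) := ssm_gi_isSeparable
  have T : s36t3_Third ↥(lg_E L (N' * q)) ↥(ssm_gl_V1 O hπ N' q) q (s36at_leg_piF O hπ N' q)
      (s36i_lam2 L N' q hq2 - lg_lamE (N' * q * q)) (s36i_VA O hπ (N' * q) q) VC := T3
  have hsm := s36cp_nf_comp L O hπ N' q hq2 hqN' ζ hζ hWB1 hWB2
  have hWC := s36i_leg_W2_VC O hπ N' q hq2 hqN' VC T.overC T.ne T.only
  refine ⟨H, fun y => s36cp_bl_leg_rC O hπ N' q VC T.overC y, ?_, T.z_mem, ?_, ?_, hsm.1, hsm.2.1,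
    hWB1⟩
  · intro x
    conv_rhs => rw [← hWC]
    rw [ValuationSubring.mem_comap]
    rfl
  · intro x hx
    exact (T.unifC x).1 hx
  · obtain ⟨u, hu, hu', hπu⟩ := T.ramC
    exact ⟨u, hu, hu', hπu⟩

include hζ in
set_option synthInstance.maxHeartbeats 400000 in
set_option maxHeartbeats 1600000 in
/-- the same with [TP3] `H` derived from the package (helper29's `s36t3_leg_hyp_of`): the inputs are
`T3` and (W) only. -/
theorem s36tri_legData_of_third' {VC : ValuationSubring ↥(lg_E L (N' * q * q))}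
    (T3 : s36asm_Third O hπ N' q hq2 hqN' VC)
    (hWB1 : ∀ b ∈ fc_chart ↥O ({lg_lamE (N' * q * q)} : Set ↥(lg_E L (N' * q * q))),
      s36cp_W2 L N' q hq2 hqN' b ∈
        fc_chart ↥O ({lg_lamE (N' * q * q)} : Set ↥(lg_E L (N' * q * q))))
    (hWB2 : ∀ b ∈ fc_chart ↥O ({(lg_lamE (N' * q * q))⁻¹} : Set ↥(lg_E L (N' * q * q))),
      s36cp_W2 L N' q hq2 hqN' b ∈
        fc_chart ↥O ({(lg_lamE (N' * q * q))⁻¹} : Set ↥(lg_E L (N' * q * q)))) :
    s36tri_LegData O hπ N' q hq2 hqN' VC (s36tri_z O N' q hq2 hqN' hWB1) := by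
  have hqO : ((q : ℕ) : O) ∈ maximalIdeal O := ssm_fln_q_mem L O q
  have hq2' : q ≠ 2 := ssm_fl_ne_two q hq2
  have hp := ssm_ll_prime L N' hπ q hqO hq2' hqN' ζ hζ
  exact s36tri_legData_of_third L O hπ N' q hq2 hqN' ζ hζ T3
    (s36t3_leg_hyp_of O hπ N' q hq2 hqN' hp.1 VC T3) hWB1 hWB2

end NF

end Fermat.Agent.S36
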