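/-
Project S36 (Carayol), cell [L3d] (triple points), helper22; prefix `s36tmt_`.
TOWER-INDEPENDENT TRANSPORT OF THE SIDE-1 VALUATION FACTS TO THE MIRROR SIDE.

`W : F₂ ≃+* F₂` an involution, `j : F₁ →+* F₂`, `j' := W ∘ j`; `VA, VC` valuation subrings of
`F₂`, `VB := VA.comap W`, `VC.comap W = VC`.  From the side-1 inputs of helper20's
`s36tpt_ptTri` (`rA rB rC hins resA resC`) we get the side-2 inputs (`rA' rB' rC' hins' resB' resC'`).
-/
import Mathlib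
import Fermat.Agent.S36.Tri.MapInst

set_option autoImplicit false
set_option linter.unusedSectionVars false
set_option linter.unusedVariables false

namespace Fermat.Agent.S36

section MirrorTransport

variable {F1 F2 : Type*} [Field F1] [Field F2] (W : F2 ≃+* F2) (hWW : ∀ z, W (W z) = z)
  (j : F1 →+* F2)

include hWW in
/-- `rA'`: `j' y ∈ W(VA) ↔ y ∈ VX` from `j y ∈ VA ↔ y ∈ VX`. -/
theorem s36tmt_rA (VA : ValuationSubring F2) (VX : ValuationSubring F1)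
    (r : ∀ y : F1, j y ∈ VA ↔ y ∈ VX) (y : F1) :
    ((W : F2 →+* F2).comp j) y ∈ VA.comap (W : F2 →+* F2) ↔ y ∈ VX := by
  rw [ValuationSubring.mem_comap]
  show W (W (j y)) ∈ VA ↔ _
  rw [hWW]
  exact r y

/-- `rB'`: `j' y ∈ VA ↔ y ∈ VX` from `j y ∈ W(VA) ↔ y ∈ VX`. -/
theorem s36tmt_rB (VA : ValuationSubring F2) (VX : ValuationSubring F1)
    (r : ∀ y : F1, j y ∈ VA.comap (W : F2 →+* F2) ↔ y ∈ VX) (y : F1) :
    ((W : F2 →+* F2).comp j) y ∈ VA ↔ y ∈ VX := by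
  rw [← r y, ValuationSubring.mem_comap]
  rfl

/-- `rC'`: `j' y ∈ VC ↔ y ∈ VX` from `j y ∈ VC ↔ y ∈ VX` and `W(VC) = VC`. -/
theorem s36tmt_rC (VC : ValuationSubring F2) (hVC : VC.comap (W : F2 →+* F2) = VC)
    (VX : ValuationSubring F1) (r : ∀ y : F1, j y ∈ VC ↔ y ∈ VX) (y : F1) :
    ((W : F2 →+* F2).comp j) y ∈ VC ↔ y ∈ VX := by
  rw [← r y]
  conv_rhs => rw [← hVC, ValuationSubring.mem_comap]
  rfl

include hWW in
/-- `hins'`: `κ(VA)^q ⊆ κ(VV)` along `j'` from `κ(W(VA))^q ⊆ κ(VV)` along `j`. -/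
theorem s36tmt_ins (VA : ValuationSubring F2) (VV : ValuationSubring F1) (q : ℕ)
    (hins : ∀ x ∈ VA.comap (W : F2 →+* F2), ∃ r ∈ VV,
      x ^ q - j r ∈ (VA.comap (W : F2 →+* F2)).nonunits)
    (x : F2) (hx : x ∈ VA) :
    ∃ r ∈ VV, x ^ q - ((W : F2 →+* F2).comp j) r ∈ VA.nonunits := by
  have hWx : W x ∈ VA.comap (W : F2 →+* F2) := by
    rw [ValuationSubring.mem_comap]
    show W (W x) ∈ VA
    rw [hWW]
    exact hx
  obtain ⟨r, hr, h⟩ := hins (W x) hWx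
  refine ⟨r, hr, ?_⟩
  rw [s36tn_mem_comap_nonunits, map_sub, map_pow, hWW] at h
  exact h

include hWW in
/-- `resB'`: `κ(W(VA)) = κ(VF)` along `j'` from `κ(VA) = κ(VF)` along `j`. -/
theorem s36tmt_resB (VA : ValuationSubring F2) (VF : ValuationSubring F1)
    (resA : ∀ x ∈ VA, ∃ y ∈ VF, x - j y ∈ VA.nonunits)
    (x : F2) (hx : x ∈ VA.comap (W : F2 →+* F2)) :
    ∃ y ∈ VF, x - ((W : F2 →+* F2).comp j) y ∈ (VA.comap (W : F2 →+* F2)).nonunits := by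
  rw [ValuationSubring.mem_comap] at hx
  obtain ⟨y, hy, h⟩ := resA _ hx
  refine ⟨y, hy, ?_⟩
  rw [s36tn_mem_comap_nonunits, map_sub]
  show W x - W (W (j y)) ∈ _
  rw [hWW]
  exact h

include hWW in
/-- `resC'`: `κ(VC) = κ(VF)` along `j'` from the same along `j` and `W(VC) = VC`. -/
theorem s36tmt_resC (VC : ValuationSubring F2) (hVC : VC.comap (W : F2 →+* F2) = VC)
    (VF : ValuationSubring F1)
    (resC : ∀ x ∈ VC, ∃ y ∈ VF, x - j y ∈ VC.nonunits)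
    (x : F2) (hx : x ∈ VC) :
    ∃ y ∈ VF, x - ((W : F2 →+* F2).comp j) y ∈ VC.nonunits := by
  have hWx : (W : F2 →+* F2) x ∈ VC := by
    rw [← ValuationSubring.mem_comap, hVC]
    exact hx
  obtain ⟨y, hy, h⟩ := resC _ hWx
  refine ⟨y, hy, ?_⟩
  have h2 : x - ((W : F2 →+* F2).comp j) y ∈ (VC.comap (W : F2 →+* F2)).nonunits := by
    rw [s36tn_mem_comap_nonunits, map_sub]
    show W x - W (W (j y)) ∈ _
    rw [hWW]
    exact h
  rw [hVC] at h2
  exact h2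

include hWW in
/-- a `W`-stable chart in the `iff` form needed by `s36tn_mirror`. -/
theorem s36tmt_chart_iff {A0 : Type*} [CommRing A0] [Algebra A0 F2] (B2 : Subalgebra A0 F2)
    (hWB : ∀ b ∈ B2, W b ∈ B2) (z : F2) : W z ∈ B2 ↔ z ∈ B2 := by
  refine ⟨fun h => ?_, hWB z⟩
  have := hWB _ h
  rwa [hWW] at this

end MirrorTransport

end Fermat.Agent.S36
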