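/-
Project S36 (Carayol), cell [L3d]-Hes = Hesse twin of [TRI-INST], THE LEVEL-`N' q` HALF (helper22).
Prefix `s36tnh_`.

Hesse twin of helper20's `S36/Tri/NodeInst.lean`: the inputs of helper10's `s36tr_ChartHyp`
(S36/Tri/Chart.lean) which live on the level-`N' q` chart
`B₁ = fc_chart O {μ - 1} ⊆ E₁ = hs_E L h3 (N' q)` at a supersingular point `𝔫 ⊇ PF + PV`
(`PF = ssm_tp_P B₁ (ssm_fh_V1 …)`, `PV = ssm_tp_P B₁ (ssm_fh_V2 …)`):

* `s36tnh_chart_isFractionRing` : the chart `B_{μ-1}` of `hs_E L h3 M` has fraction field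
  `hs_E L h3 M` (+ noetherian, integrally closed);
* `s36tnh_hes_node`      : the Hesse instance over a number field `(L, O, q)`, `ζ_{3N'} ∈ L`
  = the fields `hmax hu hv huv huvϖ hPF hPV` of `s36tr_ChartHyp` VERBATIM: ONE application of
  helper20's tower-independent `s36tn_node_ring_of_cross` with the crossing package `ssm_nh_cross`
  and thickness one `ssm_nht_thick_nf`;
* `s36tnh_hes_node_swap` : the same with the roles of `PF` and `PV` exchanged (for the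
  `W₂`-mirror).
-/
import Mathlib
import Fermat.Agent.S36.Tri.NodeInst
import Fermat.Agent.SS.Model.NodeHesThick

set_option autoImplicit false
set_option linter.unusedSectionVars false
set_option linter.unusedVariables false
set_option linter.style.haveILetI false

noncomputable section

namespace Fermat.Agent.S36

open Fermat.Agent.SS Fermat.Agent.JT3 Fermat.Agent.S35 IsLocalRing Polynomial

section Chart

variable {L : Type*} [Field L] [CharZero L] [Algebra L (AlgebraicClosure ℚ)] (h3 : (3 : L) ≠ 0)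
  (O : ValuationSubring L) [IsDiscreteValuationRing O] (M : ℕ) [NeZero M]

/-- the chart `B_{μ-1}` of `hs_E L h3 M` over `O` has fraction field `hs_E L h3 M`. -/
theorem s36tnh_chart_isFractionRing :
    IsFractionRing ↥(fc_chart ↥O ({hs_muE h3 M - 1} : Set ↥(hs_E L h3 M))) ↥(hs_E L h3 M) := by
  haveI := ssm_go_isScalarTower O (hs_E L h3 M)
  haveI := ssm_glh_finite h3 M
  exact ssm_ths_chart_isFractionRing (A0 := ↥O) (L := L) _

/-- the chart `B_{μ-1}` of `hs_E L h3 M` over `O` is noetherian. -/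
theorem s36tnh_chart_isNoetherianRing :
    IsNoetherianRing ↥(fc_chart ↥O ({hs_muE h3 M - 1} : Set ↥(hs_E L h3 M))) := by
  haveI := ssm_go_isScalarTower O (hs_E L h3 M)
  haveI := ssm_glh_finite h3 M
  exact ssm_ths_chart_isNoetherianRing (A0 := ↥O) (L := L) (ssm_hl_transcendental L h3 M)

/-- the chart `B_{μ-1}` of `hs_E L h3 M` over `O` is integrally closed. -/
theorem s36tnh_chart_isIntegrallyClosed :
    IsIntegrallyClosed ↥(fc_chart ↥O ({hs_muE h3 M - 1} : Set ↥(hs_E L h3 M))) := by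
  haveI := ssm_go_isScalarTower O (hs_E L h3 M)
  haveI := ssm_glh_finite h3 M
  exact ssm_ths_chart_isIntegrallyClosed (A0 := ↥O) (L := L) _

end Chart

section Hes

variable (L : Type) [Field L] [NumberField L] [Algebra L (AlgebraicClosure ℚ)]
  (h3 : (3 : L) ≠ 0) (O : ValuationSubring L) [IsDiscreteValuationRing O] (h3O : IsUnit (3 : O))
variable (N' q : ℕ) [NeZero N'] [NeZero q] [hq : Fact q.Prime] [CharP (ResidueField O) q]
  (hq3 : ¬ 3 ∣ q) (hqN' : ¬ q ∣ N') (hπ : Irreducible ((q : ℕ) : ↥O))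
  (ζ : L) (hζ : IsPrimitiveRoot ζ (3 * N'))

include hζ in
set_option synthInstance.maxHeartbeats 400000 in
set_option maxHeartbeats 3200000 in
/-- **the local ring of the level-`N' q` chart `B_{μ-1}` at a supersingular point** (Hesse tower,
number-field base with uniformiser `q`): the fields `hmax hu hv huv huvϖ hPF hPV` of helper10's
`s36tr_ChartHyp`, with `PF = ssm_tp_P B₁ V₁`, `PV = ssm_tp_P B₁ V₂`. -/
theorem s36tnh_hes_node
    (𝔫 : Ideal (fc_chart ↥O ({hs_muE h3 (N' * q) - 1} : Set ↥(hs_E L h3 (N' * q)))))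
    [h𝔫 : 𝔫.IsMaximal]
    (hP1 : ssm_tp_P (fc_chart ↥O ({hs_muE h3 (N' * q) - 1} : Set ↥(hs_E L h3 (N' * q))))
      (ssm_fh_V1 h3 O h3O hπ N' q) ≤ 𝔫)
    (hP2 : ssm_tp_P (fc_chart ↥O ({hs_muE h3 (N' * q) - 1} : Set ↥(hs_E L h3 (N' * q))))
      (ssm_fh_V2 h3 O h3O hπ N' q hq3 hqN') ≤ 𝔫) :
    haveI := s36tnh_chart_isFractionRing h3 O (N' * q)
    haveI : 𝔫.IsPrime := h𝔫.isPrime
    ∃ u v : ssl_locSub ↥(hs_E L h3 (N' * q)) 𝔫,
      𝔫.map (algebraMap (fc_chart ↥O ({hs_muE h3 (N' * q) - 1} : Set ↥(hs_E L h3 (N' * q))))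
        (ssl_locSub ↥(hs_E L h3 (N' * q)) 𝔫)) = Ideal.span {u, v} ∧ Prime u ∧ Prime v ∧
      ¬ v ∣ u ∧ ¬ u ∣ v ∧
      (∃ e : (ssl_locSub ↥(hs_E L h3 (N' * q)) 𝔫)ˣ,
        u * v = algebraMap (fc_chart ↥O ({hs_muE h3 (N' * q) - 1} : Set ↥(hs_E L h3 (N' * q))))
          (ssl_locSub ↥(hs_E L h3 (N' * q)) 𝔫)
          (algebraMap ↥O (fc_chart ↥O ({hs_muE h3 (N' * q) - 1} : Set ↥(hs_E L h3 (N' * q))))
            ((q : ℕ) : ↥O)) * (e : ssl_locSub ↥(hs_E L h3 (N' * q)) 𝔫)) ∧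
      Ideal.span {u} =
        (ssm_tp_P (fc_chart ↥O ({hs_muE h3 (N' * q) - 1} : Set ↥(hs_E L h3 (N' * q))))
          (ssm_fh_V1 h3 O h3O hπ N' q)).map
            (algebraMap (fc_chart ↥O ({hs_muE h3 (N' * q) - 1} : Set ↥(hs_E L h3 (N' * q))))
              (ssl_locSub ↥(hs_E L h3 (N' * q)) 𝔫)) ∧
      Ideal.span {v} =
        (ssm_tp_P (fc_chart ↥O ({hs_muE h3 (N' * q) - 1} : Set ↥(hs_E L h3 (N' * q))))
          (ssm_fh_V2 h3 O h3O hπ N' q hq3 hqN')).map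
            (algebraMap (fc_chart ↥O ({hs_muE h3 (N' * q) - 1} : Set ↥(hs_E L h3 (N' * q))))
              (ssl_locSub ↥(hs_E L h3 (N' * q)) 𝔫)) := by
  have hqO : ((q : ℕ) : O) ∈ maximalIdeal O := by
    rw [← residue_eq_zero_iff, map_natCast]
    exact CharP.cast_eq_zero _ q
  have hq3' : q ≠ 3 := by
    rintro rfl
    exact hq3 dvd_rfl
  obtain ⟨ω, hω, hram', hram⟩ := ssm_nht_ram h3 O N' (N' * q) hζ
  obtain ⟨-, -, hprime1, -, -, hded1, -⟩ := ssm_hlr_main h3 O N' hπ q hqO hq3' hqN' ζ hζ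
  have hic1 : IsIntegrallyClosed (fc_chart ↥O ({hs_muE h3 N' - 1} : Set ↥(hs_E L h3 N')) ⧸
      (Ideal.span {algebraMap ↥O (fc_chart ↥O ({hs_muE h3 N' - 1} : Set ↥(hs_E L h3 N')))
          ((q : ℕ) : ↥O)} :
        Ideal (fc_chart ↥O ({hs_muE h3 N' - 1} : Set ↥(hs_E L h3 N'))))) := by
    haveI := hded1
    infer_instance
  have hEC := ssm_hl_EC_aeval h3 O N' hπ q hqO hq3' hqN' ω hω hram'
  have hth := ssm_nht_thick_nf L h3 O h3O N' q hq3 hqN' hπ ζ hζ 𝔫 h𝔫 hP1 hP2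
  letI := ssm_gi_algebra (ssm_alh_E_le L h3 (ssm_fh_hF9 h3) N' q)
  haveI := ssm_gt_isScalarTower O (ssm_alh_E_le L h3 (ssm_fh_hF9 h3) N' q)
  haveI := ssm_go_isScalarTower O (hs_E L h3 (N' * q))
  haveI := s36tnh_chart_isNoetherianRing h3 O (N' * q)
  haveI := s36tnh_chart_isIntegrallyClosed h3 O (N' * q)
  haveI := s36tnh_chart_isFractionRing h3 O (N' * q)
  have C := ssm_nh_cross h3 O h3O hπ N' q hq3 hqN' hprime1 hic1 hEC
  have e : algebraMap ↥O ↥(hs_E L h3 (N' * q)) ((q : ℕ) : ↥O) =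
      ((q : ℕ) : ↥(hs_E L h3 (N' * q))) := map_natCast _ q
  rw [← e] at hth
  have hϖ0 : algebraMap ↥O ↥(hs_E L h3 (N' * q)) ((q : ℕ) : ↥O) ≠ 0 := by
    rw [e]
    haveI : CharZero ↥(hs_E L h3 (N' * q)) :=
      charZero_of_injective_algebraMap (algebraMap L ↥(hs_E L h3 (N' * q))).injective
    exact Nat.cast_ne_zero.mpr hq.out.ne_zero
  exact s36tn_node_ring_of_cross C ((q : ℕ) : ↥O) (ssm_cpi_phi_algebraMap _ _) hϖ0 𝔫 hP1 hP2 hth

include hζ in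
set_option synthInstance.maxHeartbeats 400000 in
set_option maxHeartbeats 3200000 in
/-- the same with the roles of `PF` and `PV` exchanged (for the `W₂`-mirror). -/
theorem s36tnh_hes_node_swap
    (𝔫 : Ideal (fc_chart ↥O ({hs_muE h3 (N' * q) - 1} : Set ↥(hs_E L h3 (N' * q)))))
    [h𝔫 : 𝔫.IsMaximal]
    (hP1 : ssm_tp_P (fc_chart ↥O ({hs_muE h3 (N' * q) - 1} : Set ↥(hs_E L h3 (N' * q))))
      (ssm_fh_V1 h3 O h3O hπ N' q) ≤ 𝔫)
    (hP2 : ssm_tp_P (fc_chart ↥O ({hs_muE h3 (N' * q) - 1} : Set ↥(hs_E L h3 (N' * q))))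
      (ssm_fh_V2 h3 O h3O hπ N' q hq3 hqN') ≤ 𝔫) :
    haveI := s36tnh_chart_isFractionRing h3 O (N' * q)
    haveI : 𝔫.IsPrime := h𝔫.isPrime
    ∃ u v : ssl_locSub ↥(hs_E L h3 (N' * q)) 𝔫,
      𝔫.map (algebraMap (fc_chart ↥O ({hs_muE h3 (N' * q) - 1} : Set ↥(hs_E L h3 (N' * q))))
        (ssl_locSub ↥(hs_E L h3 (N' * q)) 𝔫)) = Ideal.span {u, v} ∧ Prime u ∧ Prime v ∧
      ¬ v ∣ u ∧ ¬ u ∣ v ∧
      (∃ e : (ssl_locSub ↥(hs_E L h3 (N' * q)) 𝔫)ˣ,
        u * v = algebraMap (fc_chart ↥O ({hs_muE h3 (N' * q) - 1} : Set ↥(hs_E L h3 (N' * q))))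
          (ssl_locSub ↥(hs_E L h3 (N' * q)) 𝔫)
          (algebraMap ↥O (fc_chart ↥O ({hs_muE h3 (N' * q) - 1} : Set ↥(hs_E L h3 (N' * q))))
            ((q : ℕ) : ↥O)) * (e : ssl_locSub ↥(hs_E L h3 (N' * q)) 𝔫)) ∧
      Ideal.span {u} =
        (ssm_tp_P (fc_chart ↥O ({hs_muE h3 (N' * q) - 1} : Set ↥(hs_E L h3 (N' * q))))
          (ssm_fh_V2 h3 O h3O hπ N' q hq3 hqN')).map
            (algebraMap (fc_chart ↥O ({hs_muE h3 (N' * q) - 1} : Set ↥(hs_E L h3 (N' * q))))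
              (ssl_locSub ↥(hs_E L h3 (N' * q)) 𝔫)) ∧
      Ideal.span {v} =
        (ssm_tp_P (fc_chart ↥O ({hs_muE h3 (N' * q) - 1} : Set ↥(hs_E L h3 (N' * q))))
          (ssm_fh_V1 h3 O h3O hπ N' q)).map
            (algebraMap (fc_chart ↥O ({hs_muE h3 (N' * q) - 1} : Set ↥(hs_E L h3 (N' * q))))
              (ssl_locSub ↥(hs_E L h3 (N' * q)) 𝔫)) := by
  haveI := s36tnh_chart_isFractionRing h3 O (N' * q)
  haveI : 𝔫.IsPrime := h𝔫.isPrime
  obtain ⟨u, v, hmax, hu, hv, hvu, huv, ⟨e, he⟩, hPF, hPV⟩ :=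
    s36tnh_hes_node L h3 O h3O N' q hq3 hqN' hπ ζ hζ 𝔫 hP1 hP2
  refine ⟨v, u, ?_, hv, hu, huv, hvu, ⟨e, ?_⟩, hPV, hPF⟩
  · rw [hmax, Set.pair_comm]
  · rw [mul_comm v u]
    exact he

end Hes

end Fermat.Agent.S36
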