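/-
Project S36 (Carayol), cell [L3d] (triple points), THE TWO-SIDED STEP AT A POINT OF THE TOP CHART,
tower independent (helper22).  Prefix `s36tnh_two_`.

Context of helper10's `S36/Tri/InstVal.lean` (`s36tri_chartHyp`): `B1 ⊆ F1` the level-`N' q` chart,
`B2 ⊆ F2` the level-`N' q q` chart, `ι : B1 →+* B2` integral over `j : F1 →+* F2`,
`H : s36tp_Hyp π₂ V e` helper24's [TP3] package on `B2`, three distinguished indices `a b c`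
(`(0, 1, 2)` on the `α`-side, `(1, 0, 2)` on the `W₂`-mirror side).

* `s36tnh_two_comap`  : `(ssm_tp_P B2 (V i)).comap ι = ssm_tp_P B1 W0` when `V i ∩ F1 = W0`;
* `s36tnh_two_side`   : **one side at a point of `B2`**: if the node clauses hold at EVERY maximal
  ideal of `B1` containing `PF + PV`, then at every maximal `𝔫P ⊆ B2` containing `P_b` and one of
  `P_a`, `P_c`: `𝔫P` contains all three vertical primes, helper10's one-sided conclusion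
  `s36tr_Concl q (ι ϖ) 𝔫P P_a P_b P_c (j u) (j v) (B2)_{𝔫P}` holds, and `(B2)_{𝔫P}` is
  `B2[ι(B1 ∖ 𝔫)⁻¹]`, `𝔫 = 𝔫P ∩ B1` (the third clause of `s36tr_ChartHyp.chart`, consumed by
  helper3's `s36g_int_of_chart`);
* `s36tnh_two_both`   : **both sides**: from the two one-sided statements (roles `(A, B, C)` and
  `(B, A, C)`), every maximal `𝔫P` containing TWO of `PA PB PC` contains all three and
  `s36tr_Concl3 q ϖ₂ 𝔫P PA PB PC (B2)_{𝔫P}` holds (the input of `s36tr_clause` and of helper3's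
  adaptor to `s36g_PtTri`).
-/
import Mathlib
import Fermat.Agent.S36.Tri.InstVal

set_option autoImplicit false
set_option linter.unusedSectionVars false
set_option linter.unusedVariables false
set_option linter.style.haveILetI false

namespace Fermat.Agent.S36

open Ideal IsLocalRing Fermat.Agent.SS Fermat.Agent.JT3

section Val

variable {A0 : Type*} [CommRing A0] {F1 F2 : Type*} [Field F1] [Field F2] [Algebra A0 F1]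
  [Algebra A0 F2] {B1 : Subalgebra A0 F1} {B2 : Subalgebra A0 F2}
  [IsFractionRing B1 F1] [IsFractionRing B2 F2] [IsNoetherianRing B1] [IsNoetherianRing B2]
  [IsIntegrallyClosed B2]
  {R2 : Type*} [CommRing R2] [IsDomain R2] [IsIntegrallyClosed R2] [Algebra R2 F2]
  [FaithfulSMul R2 F2]
  {κ : Type*} [Fintype κ] {π2 : R2} {V : κ → ValuationSubring F2} {e : κ → ℕ}

omit [IsFractionRing B1 F1] [IsFractionRing B2 F2] [IsNoetherianRing B1] [IsNoetherianRing B2]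
  [IsIntegrallyClosed B2] in
/-- comap of a vertical prime of the top chart along the chart map. -/
theorem s36tnh_two_comap (H : s36tp_Hyp π2 V e) (hC2 : ssm_tp_Chart π2 B2)
    (ι : B1 →+* B2) (j : F1 →+* F2)
    (hcomm : ∀ x : B1, algebraMap B2 F2 (ι x) = j (algebraMap B1 F1 x))
    (i : κ) (W0 : ValuationSubring F1) (le0 : ∀ x ∈ B1, x ∈ W0)
    (r : ∀ y : F1, j y ∈ V i ↔ y ∈ W0) :
    (ssm_tp_P B2 (V i)).comap ι = ssm_tp_P B1 W0 := by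
  have hcoe : ∀ x : B1, ((ι x : B2) : F2) = j (x : F1) := hcomm
  ext x
  rw [Ideal.mem_comap, H.mem_P hC2 i, ssm_tp_mem_P le0, hcoe, s36tri_nonunits_iff j r]

/-- **one side of the triple point, at a point of the top chart.**  See the header. -/
theorem s36tnh_two_side (H : s36tp_Hyp π2 V e) (hC2 : ssm_tp_Chart π2 B2)
    (a b c : κ) (hall : ∀ i, i = a ∨ i = b ∨ i = c) (hac : a ≠ c) (hea : e a = 1) (heb : e b = 1)
    {q : ℕ} (hq : 2 ≤ q)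
    (ι : B1 →+* B2) (j : F1 →+* F2)
    (hcomm : ∀ x : B1, algebraMap B2 F2 (ι x) = j (algebraMap B1 F1 x)) (hint : ι.IsIntegral)
    (VF VV : ValuationSubring F1) (leF : ∀ x ∈ B1, x ∈ VF) (leV : ∀ x ∈ B1, x ∈ VV)
    (rA : ∀ y : F1, j y ∈ V a ↔ y ∈ VF) (rB : ∀ y : F1, j y ∈ V b ↔ y ∈ VV)
    (rC : ∀ y : F1, j y ∈ V c ↔ y ∈ VF)
    (ϖ : B1) (hϖ : j (ϖ : F1) = algebraMap R2 F2 π2)
    (hnode : ∀ (𝔫 : Ideal B1) (h𝔫 : 𝔫.IsMaximal), ssm_tp_P B1 VF ≤ 𝔫 → ssm_tp_P B1 VV ≤ 𝔫 →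
      haveI : 𝔫.IsPrime := h𝔫.isPrime
      ∃ u v : ssl_locSub F1 𝔫,
        𝔫.map (algebraMap B1 (ssl_locSub F1 𝔫)) = Ideal.span {u, v} ∧ Prime u ∧ Prime v ∧
        ¬ v ∣ u ∧ ¬ u ∣ v ∧
        (∃ ε : (ssl_locSub F1 𝔫)ˣ, u * v = algebraMap B1 (ssl_locSub F1 𝔫) ϖ * ε) ∧
        Ideal.span {u} = (ssm_tp_P B1 VF).map (algebraMap B1 (ssl_locSub F1 𝔫)) ∧
        Ideal.span {v} = (ssm_tp_P B1 VV).map (algebraMap B1 (ssl_locSub F1 𝔫)))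
    (locV : ∀ r ∈ VV, ∃ t : B1, t ∉ ssm_tp_P B1 VV ∧ (t : F1) * r ∈ B1)
    (z : B2) (hz : (z : F2) ∈ (V c).nonunits)
    (hzC : ∀ x ∈ (V c).nonunits, ∃ y ∈ V c, x = (z : F2) * y)
    (hram : ∃ w : F2, w ∈ V c ∧ w⁻¹ ∈ V c ∧ algebraMap R2 F2 π2 = w * (z : F2) ^ (q - 1))
    (hins : ∀ x ∈ V b, ∃ r ∈ VV, x ^ q - j r ∈ (V b).nonunits)
    (hsm : ∀ 𝔫' : Ideal B2, 𝔫'.IsMaximal → ∃ t ∈ 𝔫', ∀ x ∈ 𝔫', ∃ s : B2, s ∉ 𝔫' ∧
      s * x ∈ ssm_tp_P B2 (V b) ⊔ Ideal.span {t})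
    (𝔫P : Ideal B2) (h𝔫P : 𝔫P.IsMaximal) (hB : ssm_tp_P B2 (V b) ≤ 𝔫P)
    (hAC : ssm_tp_P B2 (V a) ≤ 𝔫P ∨ ssm_tp_P B2 (V c) ≤ 𝔫P) :
    haveI : 𝔫P.IsPrime := h𝔫P.isPrime
    (∃ uF vF : F2, s36tr_Concl q (ι ϖ) 𝔫P (ssm_tp_P B2 (V a)) (ssm_tp_P B2 (V b))
      (ssm_tp_P B2 (V c)) uF vF (ssl_locSub F2 𝔫P)) ∧
    (∀ y : F2, y ∈ ssl_locSub F2 𝔫P → ∃ (s : B1) (b' : B2), s ∉ 𝔫P.comap ι ∧
      algebraMap B2 F2 (ι s) * y = algebraMap B2 F2 b') ∧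
    ssm_tp_P B2 (V a) ≤ 𝔫P ∧ ssm_tp_P B2 (V c) ≤ 𝔫P := by
  haveI h𝔫Pp : 𝔫P.IsPrime := h𝔫P.isPrime
  have h𝔫max : (𝔫P.comap ι).IsMaximal :=
    Ideal.isMaximal_comap_of_isIntegral_of_isMaximal' ι hint 𝔫P
  haveI h𝔫p : (𝔫P.comap ι).IsPrime := h𝔫max.isPrime
  have hcA := s36tnh_two_comap H hC2 ι j hcomm a VF leF rA
  have hcB := s36tnh_two_comap H hC2 ι j hcomm b VV leV rB
  have hcC := s36tnh_two_comap H hC2 ι j hcomm c VF leF rC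
  have hPF𝔫 : ssm_tp_P B1 VF ≤ 𝔫P.comap ι := by
    rcases hAC with h | h
    · rw [← hcA]; exact Ideal.comap_mono h
    · rw [← hcC]; exact Ideal.comap_mono h
  have hPV𝔫 : ssm_tp_P B1 VV ≤ 𝔫P.comap ι := by
    rw [← hcB]; exact Ideal.comap_mono hB
  obtain ⟨u, v, hmax, hu, hv, hvu, -, huvϖ, hPF, hPV⟩ := hnode _ h𝔫max hPF𝔫 hPV𝔫
  have Hc := s36tri_chartHyp H hC2 a b c hall hac hea heb hq ι j hcomm hint VF VV leF leV rA rB rC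
    ϖ hϖ (𝔫P.comap ι) h𝔫max u v hmax hu hv hvu huvϖ hPF hPV hPF𝔫 hPV𝔫 locV z hz hzC hram hins hsm
  obtain ⟨𝔫P', h𝔫P'p, -, huniq, hrepr, hconcl⟩ := Hc.chart
  obtain rfl : 𝔫P = 𝔫P' := huniq 𝔫P h𝔫Pp rfl
  -- the local ring at `𝔫P`
  haveI : IsLocalRing (ssl_locSub F2 𝔫P) := IsLocalization.AtPrime.isLocalRing _ 𝔫P
  have hcomapmap : (𝔫P.map (algebraMap B2 (ssl_locSub F2 𝔫P))).comap
      (algebraMap B2 (ssl_locSub F2 𝔫P)) = 𝔫P := by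
    rw [IsLocalization.AtPrime.map_eq_maximalIdeal 𝔫P (ssl_locSub F2 𝔫P)]
    exact IsLocalization.AtPrime.comap_maximalIdeal (ssl_locSub F2 𝔫P) 𝔫P
  have hle : ∀ P : Ideal B2, P.map (algebraMap B2 (ssl_locSub F2 𝔫P)) ≤
      𝔫P.map (algebraMap B2 (ssl_locSub F2 𝔫P)) → P ≤ 𝔫P := by
    intro P hP
    have := Ideal.comap_mono (f := algebraMap B2 (ssl_locSub F2 𝔫P)) hP
    rw [hcomapmap] at this
    exact Ideal.le_comap_map.trans this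
  have hconcl' := hconcl
  obtain ⟨-, a', b', c', t, w, w', ε, k, uT, -, -, -, -, -, hPA, -, hPC, -, -, hab, hcb, -, -⟩ :=
    hconcl'
  refine ⟨⟨j u, j v, hconcl⟩, hrepr, hle _ ?_, hle _ ?_⟩
  · rw [hPA, hab]
    exact Ideal.span_mono (by intro x hx; rw [Set.mem_singleton_iff] at hx; rw [hx]; simp)
  · rw [hPC, hcb]
    exact Ideal.span_mono (by intro x hx; rw [Set.mem_singleton_iff] at hx; rw [hx]; simp)

end Val

section Both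

variable {B2 : Type*} [CommRing B2] [IsDomain B2] {F2 : Type*} [Field F2] [Algebra B2 F2]
  [IsFractionRing B2 F2]

/-- **both sides of the triple point**: every maximal ideal of the top chart containing TWO of the
three vertical primes contains all three, and helper10's two-sided conclusion `s36tr_Concl3` holds
in its local ring. -/
theorem s36tnh_two_both {q : ℕ} {ϖ2 ϖ2' : B2} {PA PB PC : Ideal B2}
    (side1 : ∀ (𝔫P : Ideal B2) (h𝔫P : 𝔫P.IsMaximal), PB ≤ 𝔫P → (PA ≤ 𝔫P ∨ PC ≤ 𝔫P) →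
      haveI : 𝔫P.IsPrime := h𝔫P.isPrime
      (∃ uF vF : F2, s36tr_Concl q ϖ2 𝔫P PA PB PC uF vF (ssl_locSub F2 𝔫P)) ∧
        PA ≤ 𝔫P ∧ PC ≤ 𝔫P)
    (side2 : ∀ (𝔫P : Ideal B2) (h𝔫P : 𝔫P.IsMaximal), PA ≤ 𝔫P → (PB ≤ 𝔫P ∨ PC ≤ 𝔫P) →
      haveI : 𝔫P.IsPrime := h𝔫P.isPrime
      (∃ uF vF : F2, s36tr_Concl q ϖ2' 𝔫P PB PA PC uF vF (ssl_locSub F2 𝔫P)) ∧
        PB ≤ 𝔫P ∧ PC ≤ 𝔫P)
    (𝔫P : Ideal B2) (h𝔫P : 𝔫P.IsMaximal)
    (htwo : (PA ≤ 𝔫P ∧ PB ≤ 𝔫P) ∨ (PA ≤ 𝔫P ∧ PC ≤ 𝔫P) ∨ (PB ≤ 𝔫P ∧ PC ≤ 𝔫P)) :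
    haveI : 𝔫P.IsPrime := h𝔫P.isPrime
    PA ≤ 𝔫P ∧ PB ≤ 𝔫P ∧ PC ≤ 𝔫P ∧ s36tr_Concl3 q ϖ2 𝔫P PA PB PC (ssl_locSub F2 𝔫P) := by
  haveI : 𝔫P.IsPrime := h𝔫P.isPrime
  have hAB : PA ≤ 𝔫P ∧ PB ≤ 𝔫P := by
    rcases htwo with h | h | h
    · exact h
    · exact ⟨h.1, (side2 𝔫P h𝔫P h.1 (Or.inr h.2)).2.1⟩
    · exact ⟨(side1 𝔫P h𝔫P h.1 (Or.inr h.2)).2.1, h.1⟩
  obtain ⟨⟨uF, vF, h1⟩, -, hC⟩ := side1 𝔫P h𝔫P hAB.2 (Or.inl hAB.1)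
  obtain ⟨⟨uF', vF', h2⟩, -, -⟩ := side2 𝔫P h𝔫P hAB.1 (Or.inl hAB.2)
  exact ⟨hAB.1, hAB.2, hC, s36tr_concl_both h1 h2⟩

end Both

end Fermat.Agent.S36
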