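/-
Project S36 (Carayol), cell [L3d]-Hes (helper22): THE TRIPLE POINTS OF THE HESSE MODEL OF LEVEL
`N' q q`.  Prefix `s36tnh_`.

Hesse instance of the tower-independent two-sided step `S36/Tri/TwoSided.lean` (`s36tnh_two_side`,
`s36tnh_two_both`): `E₁ = hs_E L h3 (N' q) ≤ E₂ = hs_E L h3 (N' q q)`, charts
`B₁ = fc_chart O {μ - 1} ⊆ E₁`, `B₂ = fc_chart O {μ - 1} ⊆ E₂`, `ι = s36tnh_hes_iota`,
`VF = ssm_fh_V1`, `VV = ssm_fh_V2 = s36ih_VV`, `VA = s36ih_VA`, `VB = s36ih_VB = W₂(VA)`,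
`W₂ = s36ih_W2`.
-/
import Mathlib
import Fermat.Agent.S36.Tri.TwoSided
import Fermat.Agent.S36.Tri.NodeInstHes
import Fermat.Agent.S36.Tri.MapInstHes
import Fermat.Agent.S36.Tri.MirrorTransport
import Fermat.Agent.S36.Ins1.MirrorHes
import Fermat.Agent.S36.Model.ThreeHes

set_option autoImplicit false
set_option linter.unusedSectionVars false
set_option linter.unusedVariables false
set_option linter.style.haveILetI false

noncomputable section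

namespace Fermat.Agent.S36

open Fermat.Agent.SS Fermat.Agent.JT3 Fermat.Agent.S35 IsLocalRing Polynomial ModularCurve
  IntermediateField

section Hes

variable {L : Type*} [Field L] [CharZero L] [Algebra L (AlgebraicClosure ℚ)] (h3 : (3 : L) ≠ 0)
  (O : ValuationSubring L) [IsDiscreteValuationRing O] (h3O : IsUnit (3 : O)) {π : O}
  (hπ : Irreducible π)
variable (N' q : ℕ) [NeZero N'] [NeZero q] [hq : Fact q.Prime] [CharP (ResidueField O) q]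
  (hq3 : ¬ 3 ∣ q) (hqN' : ¬ q ∣ N')

include hπ in
/-- the level-`N' q` chart `B₁` is a chart over `O[μ - 1]` in the sense of [TP]. -/
theorem s36tnh_hes_chart1 :
    ssm_tp_Chart (algebraMap ↥O
        (Algebra.adjoin ↥O ({hs_muE h3 (N' * q) - 1} : Set ↥(hs_E L h3 (N' * q)))) π)
      (fc_chart ↥O ({hs_muE h3 (N' * q) - 1} : Set ↥(hs_E L h3 (N' * q)))) := by
  haveI := ssm_go_isScalarTower O (hs_E L h3 (N' * q))
  exact ssm_tp_ff_chart (L := L) hπ (ssm_hl_transcendental L h3 (N' * q))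

include hπ in
/-- the level-`N' q q` chart `B₂` is a chart over `O[μ - 1]` in the sense of [TP]. -/
theorem s36tnh_hes_chart2 :
    ssm_tp_Chart (algebraMap ↥O
        (Algebra.adjoin ↥O ({hs_muE h3 (N' * q * q) - 1} : Set ↥(hs_E L h3 (N' * q * q)))) π)
      (fc_chart ↥O ({hs_muE h3 (N' * q * q) - 1} : Set ↥(hs_E L h3 (N' * q * q)))) := by
  haveI := ssm_go_isScalarTower O (hs_E L h3 (N' * q * q))
  exact ssm_tp_ff_chart (L := L) hπ (ssm_hl_transcendental L h3 (N' * q * q))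

include hq3 hqN' in
/-- `B₁ ⊆ VF`, `B₁ ⊆ VV`, `VF = (B₁)_{PF}` and `VV = (B₁)_{PV}` (element form). -/
theorem s36tnh_hes_level1
    (hprime : Prime (algebraMap ↥O
      (fc_chart ↥O ({hs_muE h3 N' - 1} : Set ↥(hs_E L h3 N'))) π)) :
    (∀ x ∈ fc_chart ↥O ({hs_muE h3 (N' * q) - 1} : Set ↥(hs_E L h3 (N' * q))),
      x ∈ ssm_fh_V1 h3 O h3O hπ N' q) ∧
    (∀ x ∈ fc_chart ↥O ({hs_muE h3 (N' * q) - 1} : Set ↥(hs_E L h3 (N' * q))),
      x ∈ ssm_fh_V2 h3 O h3O hπ N' q hq3 hqN') ∧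
    (∀ r ∈ ssm_fh_V1 h3 O h3O hπ N' q,
      ∃ t : fc_chart ↥O ({hs_muE h3 (N' * q) - 1} : Set ↥(hs_E L h3 (N' * q))),
        t ∉ ssm_tp_P (fc_chart ↥O ({hs_muE h3 (N' * q) - 1} : Set ↥(hs_E L h3 (N' * q))))
          (ssm_fh_V1 h3 O h3O hπ N' q) ∧
        (t : ↥(hs_E L h3 (N' * q))) * r ∈
          fc_chart ↥O ({hs_muE h3 (N' * q) - 1} : Set ↥(hs_E L h3 (N' * q)))) ∧
    (∀ r ∈ ssm_fh_V2 h3 O h3O hπ N' q hq3 hqN',
      ∃ t : fc_chart ↥O ({hs_muE h3 (N' * q) - 1} : Set ↥(hs_E L h3 (N' * q))),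
        t ∉ ssm_tp_P (fc_chart ↥O ({hs_muE h3 (N' * q) - 1} : Set ↥(hs_E L h3 (N' * q))))
          (ssm_fh_V2 h3 O h3O hπ N' q hq3 hqN') ∧
        (t : ↥(hs_E L h3 (N' * q))) * r ∈
          fc_chart ↥O ({hs_muE h3 (N' * q) - 1} : Set ↥(hs_E L h3 (N' * q)))) := by
  have H1 := ssm_fh_hyp h3 O h3O hπ N' q hq3 hqN' hprime
  have hC1 := s36tnh_hes_chart1 h3 O hπ N' q
  haveI := ssm_go_isScalarTower O (hs_E L h3 (N' * q))
  have hxA : Transcendental ↥O (hs_muE h3 (N' * q) - 1 : ↥(hs_E L h3 (N' * q))) :=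
    fc_ff_transcendental (L := L) (ssm_hl_transcendental L h3 (N' * q))
  haveI : IsIntegrallyClosed
      (Algebra.adjoin ↥O ({hs_muE h3 (N' * q) - 1} : Set ↥(hs_E L h3 (N' * q)))) :=
    fc_ff_isIntegrallyClosed hxA
  haveI : FaithfulSMul
      (Algebra.adjoin ↥O ({hs_muE h3 (N' * q) - 1} : Set ↥(hs_E L h3 (N' * q))))
      ↥(hs_E L h3 (N' * q)) :=
    (faithfulSMul_iff_algebraMap_injective _ _).2 Subtype.val_injective
  refine ⟨fun x hx => hC1.le H1.over1 hx, fun x hx => hC1.le H1.over2 hx, fun r hr => ?_,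
    fun r hr => ?_⟩
  · exact (H1.mem_V1_iff hC1).1 hr
  · exact (H1.mem_V2_iff hC1).1 hr

/-- `VA ∩ E₁ = VF` (element form, along the inclusion `E₁ ⊆ E₂`). -/
theorem s36tnh_hes_rA (y : ↥(hs_E L h3 (N' * q))) :
    IntermediateField.inclusion (s36w_h_E_le1 L h3 (ssm_fh_hF9 h3) N' q) y ∈
        s36ih_VA h3 O h3O hπ (N' * q) q ↔ y ∈ ssm_fh_V1 h3 O h3O hπ N' q := by
  letI := ssm_gi_algebra (ssm_alh_E_le L h3 (ssm_fh_hF9 h3) (N' * q) q)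
  letI := ssm_gi_algebraV (ssm_alh_E_le L h3 (ssm_fh_hF9 h3) (N' * q) q)
    (ssm_fh_V1 h3 O h3O hπ N' q)
  have h := s36ih_hes_overA h3 O h3O hπ N' q y
  rw [ssm_gi_mem_range] at h
  exact h

include hqN' in
/-- `VB ∩ E₁ = VV` (element form, along the inclusion `E₁ ⊆ E₂`). -/
theorem s36tnh_hes_rB (y : ↥(hs_E L h3 (N' * q))) :
    IntermediateField.inclusion (s36w_h_E_le1 L h3 (ssm_fh_hF9 h3) N' q) y ∈
        s36ih_VB h3 O h3O hπ N' q hq3 hqN' ↔ y ∈ ssm_fh_V2 h3 O h3O hπ N' q hq3 hqN' := by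
  letI := ssm_gi_algebra (ssm_alh_E_le L h3 (ssm_fh_hF9 h3) (N' * q) q)
  letI := ssm_gi_algebraV (ssm_alh_E_le L h3 (ssm_fh_hF9 h3) (N' * q) q)
    (s36ih_VV h3 O h3O hπ N' q hq3 hqN')
  have h := (s36ih_hes_dataB h3 O h3O hπ N' q hq3 hqN').overR y
  rw [ssm_gi_mem_range] at h
  exact h

include hqN' in
set_option synthInstance.maxHeartbeats 200000 in
/-- `κ(VB)^q ⊆ κ(VV)`: the input `hins` of the `α`-side. -/
theorem s36tnh_hes_hinsB (x : ↥(hs_E L h3 (N' * q * q)))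
    (hx : x ∈ s36ih_VB h3 O h3O hπ N' q hq3 hqN') :
    ∃ r ∈ ssm_fh_V2 h3 O h3O hπ N' q hq3 hqN',
      x ^ q - IntermediateField.inclusion (s36w_h_E_le1 L h3 (ssm_fh_hF9 h3) N' q) r ∈
        (s36ih_VB h3 O h3O hπ N' q hq3 hqN').nonunits := by
  letI := ssm_gi_algebra (ssm_alh_E_le L h3 (ssm_fh_hF9 h3) (N' * q) q)
  letI := ssm_gi_algebraV (ssm_alh_E_le L h3 (ssm_fh_hF9 h3) (N' * q) q)
    (s36ih_VV h3 O h3O hπ N' q hq3 hqN')
  haveI := ssm_gi_isScalarTower (ssm_alh_E_le L h3 (ssm_fh_hF9 h3) (N' * q) q)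
    (s36ih_VV h3 O h3O hπ N' q hq3 hqN')
  have DB := s36ih_hes_dataB h3 O h3O hπ N' q hq3 hqN'
  haveI : FiniteDimensional ↥(hs_E L h3 (N' * q)) ↥(hs_E L h3 (N' * q * q)) :=
    ssm_gi_finiteDimensional (n := q - 1) (by
      rw [DB.finrank_eq]
      have := hq.out.pos
      omega)
  haveI : Algebra.IsSeparable ↥(hs_E L h3 (N' * q)) ↥(hs_E L h3 (N' * q * q)) := ssm_gi_isSeparable
  obtain ⟨r, hr⟩ := s36i_pow DB x hx
  exact ⟨(r : ↥(hs_E L h3 (N' * q))), r.2, hr⟩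

variable {VC : ValuationSubring ↥(hs_E L h3 (N' * q * q))}

/-- `VC ∩ E₁ = VF` (element form, along the inclusion `E₁ ⊆ E₂`). -/
theorem s36tnh_hes_rC (T : s36t3h_Third h3 O h3O hπ N' q hq3 VC) (y : ↥(hs_E L h3 (N' * q))) :
    IntermediateField.inclusion (s36w_h_E_le1 L h3 (ssm_fh_hF9 h3) N' q) y ∈ VC ↔
      y ∈ ssm_fh_V1 h3 O h3O hπ N' q := by
  letI := ssm_gi_algebra (ssm_alh_E_le L h3 (ssm_fh_hF9 h3) (N' * q) q)
  letI := ssm_gi_algebraV (ssm_alh_E_le L h3 (ssm_fh_hF9 h3) (N' * q) q)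
    (ssm_fh_V1 h3 O h3O hπ N' q)
  have h := s36t3h_overC h3 O h3O hπ N' q hq3 T y
  rw [ssm_gi_mem_range] at h
  exact h

/-- the uniformiser `z = x₂ - x` of `VC` lies in the chart `B₂` as soon as `W₂` preserves `B₂`. -/
theorem s36tnh_hes_z_mem
    (hWB1 : ∀ b ∈ fc_chart ↥O ({hs_muE h3 (N' * q * q) - 1} : Set ↥(hs_E L h3 (N' * q * q))),
      s36ih_W2 h3 N' q hq3 hqN' b ∈
        fc_chart ↥O ({hs_muE h3 (N' * q * q) - 1} : Set ↥(hs_E L h3 (N' * q * q)))) :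
    s36t3h_z h3 N' q hq3 ∈
      fc_chart ↥O ({hs_muE h3 (N' * q * q) - 1} : Set ↥(hs_E L h3 (N' * q * q))) := by
  have hx : hs_muE h3 (N' * q * q) - 1 ∈
      fc_chart ↥O ({hs_muE h3 (N' * q * q) - 1} : Set ↥(hs_E L h3 (N' * q * q))) :=
    fc_x_mem_chart _
  have h2 := hWB1 _ hx
  rw [s36t3h_W2_x h3 N' q hq3 hqN'] at h2
  exact Subalgebra.sub_mem _ h2 hx

/-- `W₂ ∘ (E₁ ⊆ E₂) = (β E₁ ⊆ E₂) ∘ w'`, `w' = β ∘ W₁ : E₁ ≃ β E₁`. -/
theorem s36tnh_hes_w' (y : ↥(hs_E L h3 (N' * q))) :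
    letI := ssm_gi_algebra (ssm_alh_E_beta_le L h3 (ssm_fh_hF9 h3) (N' * q) q hq3)
    algebraMap ↥((hs_E L h3 (N' * q)).map (qExpandAlgHomC L q)) ↥(hs_E L h3 (N' * q * q))
        (s36i_gw0 q (hs_E L h3 (N' * q)) (ssm_fh_W h3 N' q hq3 hqN') y) =
      s36ih_W2 h3 N' q hq3 hqN'
        (IntermediateField.inclusion (s36w_h_E_le1 L h3 (ssm_fh_hF9 h3) N' q) y) :=
  (s36i_gw0_compat q (hs_E L h3 (N' * q)) (hs_E L h3 (N' * q * q))
    (ssm_alh_E_le L h3 (ssm_fh_hF9 h3) (N' * q) q)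
    (ssm_alh_E_beta_le L h3 (ssm_fh_hF9 h3) (N' * q) q hq3) (ssm_fh_W h3 N' q hq3 hqN')
    (s36ih_W2 h3 N' q hq3 hqN')
    (fun y => s36w_h_coe_WE_alpha L h3 (ssm_fh_hF9 h3) N' q hq.out hq3 hqN' y _) y).symm

end Hes

end Fermat.Agent.S36
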