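/-
Project S36 (Carayol), cell [L3d] (triple points), GENERIC ASSEMBLY (helper20; prefix `s36tpt_`):
from the two one-sided chart packages (helper22's `s36tnh_two_side`, roles `(0, 1, 2)` along
`(ι, j)` and roles `(1, 0, 2)` along the mirror `(ι', j')`) to helper3's triple-point clause
`s36g_PtTri` AT EVERY maximal ideal of the top chart containing TWO of the three vertical primes.
Tower independent (Legendre: `q - 1`; Hesse: `q = 2`).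

* `s36tpt_side`  : ONE SIDE at a point `𝔫P ⊇ P_b + (P_a or P_c)`: helper10's one-sided conclusion
  `s36tr_Concl`, all three vertical primes through the point, the norm `N` of the side maps
  `((B₂)_{𝔫P})ˣ` to itself, and every element of `(B₂)_{𝔫P}` is congruent to an element of the
  subfield `K ⊇ j(F₁)` modulo the branch `a` and modulo the branch `c`;
* `s36tpt_ptTri` : BOTH SIDES ⟹ `s36g_PtTri π (q - 1) N₁ N₂ K₁ K₂ B₂ P₀ P₁ P₂ 𝔫P`;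
* `s36tpt_ptTri_mirror` : the same when the second side is the mirror of the first one under an
  involution `W` of `F₂` (`ι' = W ∘ ι`, `j' = W ∘ j`, `V 1 = W⁻¹ (V 0)`, `W⁻¹ (V 2) = V 2`).
-/
import Mathlib
import Fermat.Agent.S36.Tri.TwoSided
import Fermat.Agent.S36.Glue.TriPt
import Fermat.Agent.S36.Tri.MapInst

set_option autoImplicit false
set_option linter.unusedSectionVars false
set_option linter.unusedVariables false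
set_option linter.style.haveILetI false

namespace Fermat.Agent.S36

open Ideal IsLocalRing Fermat.Agent.SS Fermat.Agent.JT3

section Gen

variable {A0 : Type*} [CommRing A0] {F1 F2 : Type*} [Field F1] [Field F2] [Algebra A0 F1]
  [Algebra A0 F2] {B1 : Subalgebra A0 F1} {B2 : Subalgebra A0 F2}
  [IsFractionRing B1 F1] [IsFractionRing B2 F2] [IsNoetherianRing B1] [IsNoetherianRing B2]
  [IsIntegrallyClosed B1] [IsIntegrallyClosed B2]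
  {R2 : Type*} [CommRing R2] [IsDomain R2] [IsIntegrallyClosed R2] [Algebra R2 F2]
  [FaithfulSMul R2 F2]
  {κ : Type*} [Fintype κ] {π2 : R2} {V : κ → ValuationSubring F2} {e : κ → ℕ}

/-- **ONE SIDE of the triple point with its side clauses.**  See the header. -/
theorem s36tpt_side (H : s36tp_Hyp π2 V e) (hC2 : ssm_tp_Chart π2 B2)
    (a b c : κ) (hall : ∀ i, i = a ∨ i = b ∨ i = c) (hac : a ≠ c) (hea : e a = 1) (heb : e b = 1)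
    {q : ℕ} (hq : 2 ≤ q)
    (ι : B1 →+* B2) (j : F1 →+* F2)
    (hcomm : ∀ x : B1, algebraMap B2 F2 (ι x) = j (algebraMap B1 F1 x)) (hint : ι.IsIntegral)
    (VF VV : ValuationSubring F1) (leF : ∀ x ∈ B1, x ∈ VF) (leV : ∀ x ∈ B1, x ∈ VV)
    (rA : ∀ y : F1, j y ∈ V a ↔ y ∈ VF) (rB : ∀ y : F1, j y ∈ V b ↔ y ∈ VV)
    (rC : ∀ y : F1, j y ∈ V c ↔ y ∈ VF)
    (ϖ : B1) (hϖ : j (ϖ : F1) = algebraMap R2 F2 π2)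
    (hnode : ∀ (𝔫 : Ideal B1) (h𝔫 : 𝔫.IsMaximal), ssm_tp_P B1 VF ≤ 𝔫 → ssm_tp_P B1 VV ≤ 𝔫 →
      haveI : 𝔫.IsPrime := h𝔫.isPrime
      ∃ u v : ssl_locSub F1 𝔫,
        𝔫.map (algebraMap B1 (ssl_locSub F1 𝔫)) = Ideal.span {u, v} ∧ Prime u ∧ Prime v ∧
        ¬ v ∣ u ∧ ¬ u ∣ v ∧
        (∃ ε : (ssl_locSub F1 𝔫)ˣ, u * v = algebraMap B1 (ssl_locSub F1 𝔫) ϖ * ε) ∧
        Ideal.span {u} = (ssm_tp_P B1 VF).map (algebraMap B1 (ssl_locSub F1 𝔫)) ∧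
        Ideal.span {v} = (ssm_tp_P B1 VV).map (algebraMap B1 (ssl_locSub F1 𝔫)))
    (locF : ∀ r ∈ VF, ∃ t : B1, t ∉ ssm_tp_P B1 VF ∧ (t : F1) * r ∈ B1)
    (locV : ∀ r ∈ VV, ∃ t : B1, t ∉ ssm_tp_P B1 VV ∧ (t : F1) * r ∈ B1)
    (z : B2) (hz : (z : F2) ∈ (V c).nonunits)
    (hzC : ∀ x ∈ (V c).nonunits, ∃ y ∈ V c, x = (z : F2) * y)
    (hram : ∃ w : F2, w ∈ V c ∧ w⁻¹ ∈ V c ∧ algebraMap R2 F2 π2 = w * (z : F2) ^ (q - 1))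
    (hins : ∀ x ∈ V b, ∃ r ∈ VV, x ^ q - j r ∈ (V b).nonunits)
    (hsm : ∀ 𝔫' : Ideal B2, 𝔫'.IsMaximal → ∃ t ∈ 𝔫', ∀ x ∈ 𝔫', ∃ s : B2, s ∉ 𝔫' ∧
      s * x ∈ ssm_tp_P B2 (V b) ⊔ Ideal.span {t})
    (K : Subfield F2) (hK : ∀ y : F1, j y ∈ K)
    (resA : ∀ x ∈ V a, ∃ y ∈ VF, x - j y ∈ (V a).nonunits)
    (resC : ∀ x ∈ V c, ∃ y ∈ VF, x - j y ∈ (V c).nonunits)
    {K' : Type*} [Field K'] [Algebra K' F2] (w : F1 ≃+* K')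
    (hw : ∀ y : F1, algebraMap K' F2 (w y) = j y)
    (N : F2 →* F2) (hN : ∀ x : F2, N x = algebraMap K' F2 (Algebra.norm K' x))
    (𝔫P : Ideal B2) (h𝔫P : 𝔫P.IsMaximal) (hB : ssm_tp_P B2 (V b) ≤ 𝔫P)
    (hAC : ssm_tp_P B2 (V a) ≤ 𝔫P ∨ ssm_tp_P B2 (V c) ≤ 𝔫P) :
    haveI : 𝔫P.IsPrime := h𝔫P.isPrime
    (∃ uF vF : F2, s36tr_Concl q (ι ϖ) 𝔫P (ssm_tp_P B2 (V a)) (ssm_tp_P B2 (V b))
      (ssm_tp_P B2 (V c)) uF vF (ssl_locSub F2 𝔫P)) ∧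
    ssm_tp_P B2 (V a) ≤ 𝔫P ∧ ssm_tp_P B2 (V c) ≤ 𝔫P ∧
    (∀ ω : (ssl_locSub F2 𝔫P)ˣ, ∃ υ : (ssl_locSub F2 𝔫P)ˣ,
      N ((ω : ssl_locSub F2 𝔫P) : F2) = ((υ : ssl_locSub F2 𝔫P) : F2)) ∧
    (∀ s : ssl_locSub F2 𝔫P, ∃ r : ssl_locSub F2 𝔫P, (r : F2) ∈ K ∧
      s - r ∈ (ssm_tp_P B2 (V a)).map (algebraMap B2 (ssl_locSub F2 𝔫P))) ∧
    (∀ s : ssl_locSub F2 𝔫P, ∃ r : ssl_locSub F2 𝔫P, (r : F2) ∈ K ∧
      s - r ∈ (ssm_tp_P B2 (V c)).map (algebraMap B2 (ssl_locSub F2 𝔫P))) := by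
  haveI h𝔫Pp : 𝔫P.IsPrime := h𝔫P.isPrime
  have h𝔫max : (𝔫P.comap ι).IsMaximal :=
    Ideal.isMaximal_comap_of_isIntegral_of_isMaximal' ι hint 𝔫P
  haveI h𝔫p : (𝔫P.comap ι).IsPrime := h𝔫max.isPrime
  obtain ⟨hconcl, hrepr, hA, hC⟩ := s36tnh_two_side H hC2 a b c hall hac hea heb hq ι j hcomm hint
    VF VV leF leV rA rB rC ϖ hϖ hnode locV z hz hzC hram hins hsm 𝔫P h𝔫P hB hAC
  have hcA := s36tnh_two_comap H hC2 ι j hcomm a VF leF rA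
  have hcB := s36tnh_two_comap H hC2 ι j hcomm b VV leV rB
  have hPF𝔫 : ssm_tp_P B1 VF ≤ 𝔫P.comap ι := by
    rw [← hcA]; exact Ideal.comap_mono hA
  have hPV𝔫 : ssm_tp_P B1 VV ≤ 𝔫P.comap ι := by
    rw [← hcB]; exact Ideal.comap_mono hB
  obtain ⟨u, v, hmax, hu, hv, -, -, -, hPF, -⟩ := hnode _ h𝔫max hPF𝔫 hPV𝔫
  haveI : (ssm_tp_P B1 VF).IsPrime := ssm_tp_P_isPrime leF
  have lF : s36g_Link (F := F1) u VF :=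
    s36g_link_of_map (𝔫P.comap ι) VF (ssm_tp_P B1 VF) hPF𝔫 (fun b => leF _ b.2)
      (fun b => ssm_tp_mem_P leF) locF u hu hPF
  refine ⟨hconcl, hA, hC, ?_, ?_, ?_⟩
  · exact s36g_normU_of_chart' ι j hcomm hint (𝔫P.comap ι) 𝔫P rfl hrepr w hw N hN
  · haveI := H.P_isPrime hC2 a
    exact s36g_side_of_chart ι j hcomm hint (𝔫P.comap ι) 𝔫P rfl hrepr hu hmax VF lF K hK
      (V a) (ssm_tp_P B2 (V a)) hA (fun b => H.chart_le hC2 a b.2) (fun b => H.mem_P hC2 a)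
      rA resA
  · haveI := H.P_isPrime hC2 c
    exact s36g_side_of_chart ι j hcomm hint (𝔫P.comap ι) 𝔫P rfl hrepr hu hmax VF lF K hK
      (V c) (ssm_tp_P B2 (V c)) hC (fun b => H.chart_le hC2 c b.2) (fun b => H.mem_P hC2 c)
      rC resC

end Gen

section Both

variable {A0 : Type*} [CommRing A0] {F1 F2 : Type*} [Field F1] [Field F2] [Algebra A0 F1]
  [Algebra A0 F2] {B1 : Subalgebra A0 F1} {B2 : Subalgebra A0 F2}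
  [IsFractionRing B1 F1] [IsFractionRing B2 F2] [IsNoetherianRing B1] [IsNoetherianRing B2]
  [IsIntegrallyClosed B1] [IsIntegrallyClosed B2]
  {R2 : Type*} [CommRing R2] [IsDomain R2] [IsIntegrallyClosed R2] [Algebra R2 F2]
  [FaithfulSMul R2 F2]
  {π2 : R2} {V : Fin 3 → ValuationSubring F2} {e : Fin 3 → ℕ}

/-- **THE TRIPLE-POINT CLAUSE AT EVERY POINT OF TWO COMPONENTS**, from the two sides.
Side 1: chart map `ι` over `j : F₁ →+* F₂`, `V 0 ∩ F₁ = VF = V 2 ∩ F₁`, `V 1 ∩ F₁ = VV`;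
side 2 (the mirror): chart map `ι'` over `j'`, `V 1 ∩' F₁ = VF = V 2 ∩' F₁`, `V 0 ∩' F₁ = VV`.
The lower chart `B₁`, its two vertical valuations `VF`, `VV`, the node clause `hnode` and the
uniformiser `z` of `V 2` are common to the two sides. -/
theorem s36tpt_ptTri (H : s36tp_Hyp π2 V e) (hC2 : ssm_tp_Chart π2 B2)
    (he0 : e 0 = 1) (he1 : e 1 = 1) {q : ℕ} (hq : 2 ≤ q) (π : A0)
    (VF VV : ValuationSubring F1) (leF : ∀ x ∈ B1, x ∈ VF) (leV : ∀ x ∈ B1, x ∈ VV)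
    (ϖ : B1)
    (hnode : ∀ (𝔫 : Ideal B1) (h𝔫 : 𝔫.IsMaximal), ssm_tp_P B1 VF ≤ 𝔫 → ssm_tp_P B1 VV ≤ 𝔫 →
      haveI : 𝔫.IsPrime := h𝔫.isPrime
      ∃ u v : ssl_locSub F1 𝔫,
        𝔫.map (algebraMap B1 (ssl_locSub F1 𝔫)) = Ideal.span {u, v} ∧ Prime u ∧ Prime v ∧
        ¬ v ∣ u ∧ ¬ u ∣ v ∧
        (∃ ε : (ssl_locSub F1 𝔫)ˣ, u * v = algebraMap B1 (ssl_locSub F1 𝔫) ϖ * ε) ∧
        Ideal.span {u} = (ssm_tp_P B1 VF).map (algebraMap B1 (ssl_locSub F1 𝔫)) ∧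
        Ideal.span {v} = (ssm_tp_P B1 VV).map (algebraMap B1 (ssl_locSub F1 𝔫)))
    (locF : ∀ r ∈ VF, ∃ t : B1, t ∉ ssm_tp_P B1 VF ∧ (t : F1) * r ∈ B1)
    (locV : ∀ r ∈ VV, ∃ t : B1, t ∉ ssm_tp_P B1 VV ∧ (t : F1) * r ∈ B1)
    (z : B2) (hz : (z : F2) ∈ (V 2).nonunits)
    (hzC : ∀ x ∈ (V 2).nonunits, ∃ y ∈ V 2, x = (z : F2) * y)
    (hram : ∃ w : F2, w ∈ V 2 ∧ w⁻¹ ∈ V 2 ∧ algebraMap R2 F2 π2 = w * (z : F2) ^ (q - 1))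
    -- side 1
    (ι : B1 →+* B2) (j : F1 →+* F2)
    (hcomm : ∀ x : B1, algebraMap B2 F2 (ι x) = j (algebraMap B1 F1 x)) (hint : ι.IsIntegral)
    (hιϖ : ι ϖ = algebraMap A0 B2 π) (hϖ : j (ϖ : F1) = algebraMap R2 F2 π2)
    (rA : ∀ y : F1, j y ∈ V 0 ↔ y ∈ VF) (rB : ∀ y : F1, j y ∈ V 1 ↔ y ∈ VV)
    (rC : ∀ y : F1, j y ∈ V 2 ↔ y ∈ VF)
    (hins : ∀ x ∈ V 1, ∃ r ∈ VV, x ^ q - j r ∈ (V 1).nonunits)
    (hsm : ∀ 𝔫' : Ideal B2, 𝔫'.IsMaximal → ∃ t ∈ 𝔫', ∀ x ∈ 𝔫', ∃ s : B2, s ∉ 𝔫' ∧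
      s * x ∈ ssm_tp_P B2 (V 1) ⊔ Ideal.span {t})
    (K1 : Subfield F2) (hK1 : ∀ y : F1, j y ∈ K1)
    (resA : ∀ x ∈ V 0, ∃ y ∈ VF, x - j y ∈ (V 0).nonunits)
    (resC : ∀ x ∈ V 2, ∃ y ∈ VF, x - j y ∈ (V 2).nonunits)
    {K1' : Type*} [Field K1'] [Algebra K1' F2] (w : F1 ≃+* K1')
    (hw : ∀ y : F1, algebraMap K1' F2 (w y) = j y)
    (N1 : F2 →* F2) (hN1 : ∀ x : F2, N1 x = algebraMap K1' F2 (Algebra.norm K1' x))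
    -- side 2 (the mirror)
    (ι' : B1 →+* B2) (j' : F1 →+* F2)
    (hcomm' : ∀ x : B1, algebraMap B2 F2 (ι' x) = j' (algebraMap B1 F1 x))
    (hint' : ι'.IsIntegral) (hϖ' : j' (ϖ : F1) = algebraMap R2 F2 π2)
    (rA' : ∀ y : F1, j' y ∈ V 1 ↔ y ∈ VF) (rB' : ∀ y : F1, j' y ∈ V 0 ↔ y ∈ VV)
    (rC' : ∀ y : F1, j' y ∈ V 2 ↔ y ∈ VF)
    (hins' : ∀ x ∈ V 0, ∃ r ∈ VV, x ^ q - j' r ∈ (V 0).nonunits)
    (hsm' : ∀ 𝔫' : Ideal B2, 𝔫'.IsMaximal → ∃ t ∈ 𝔫', ∀ x ∈ 𝔫', ∃ s : B2, s ∉ 𝔫' ∧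
      s * x ∈ ssm_tp_P B2 (V 0) ⊔ Ideal.span {t})
    (K2 : Subfield F2) (hK2 : ∀ y : F1, j' y ∈ K2)
    (resB' : ∀ x ∈ V 1, ∃ y ∈ VF, x - j' y ∈ (V 1).nonunits)
    (resC' : ∀ x ∈ V 2, ∃ y ∈ VF, x - j' y ∈ (V 2).nonunits)
    {K2' : Type*} [Field K2'] [Algebra K2' F2] (w' : F1 ≃+* K2')
    (hw' : ∀ y : F1, algebraMap K2' F2 (w' y) = j' y)
    (N2 : F2 →* F2) (hN2 : ∀ x : F2, N2 x = algebraMap K2' F2 (Algebra.norm K2' x))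
    (𝔫P : Ideal B2) (h𝔫P : 𝔫P.IsMaximal)
    (htwo : (ssm_tp_P B2 (V 0) ≤ 𝔫P ∧ ssm_tp_P B2 (V 1) ≤ 𝔫P) ∨
      (ssm_tp_P B2 (V 0) ≤ 𝔫P ∧ ssm_tp_P B2 (V 2) ≤ 𝔫P) ∨
      (ssm_tp_P B2 (V 1) ≤ 𝔫P ∧ ssm_tp_P B2 (V 2) ≤ 𝔫P)) :
    haveI : 𝔫P.IsPrime := h𝔫P.isPrime
    s36g_PtTri π (q - 1) N1 N2 K1 K2 B2 (ssm_tp_P B2 (V 0)) (ssm_tp_P B2 (V 1))
      (ssm_tp_P B2 (V 2)) 𝔫P := by
  haveI h𝔫Pp : 𝔫P.IsPrime := h𝔫P.isPrime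
  have hall1 : ∀ i : Fin 3, i = 0 ∨ i = 1 ∨ i = 2 := by decide
  have hall2 : ∀ i : Fin 3, i = 1 ∨ i = 0 ∨ i = 2 := by decide
  have h02 : (0 : Fin 3) ≠ 2 := by decide
  have h12 : (1 : Fin 3) ≠ 2 := by decide
  have S1 := fun (𝔫 : Ideal B2) (h𝔫 : 𝔫.IsMaximal) (hB : ssm_tp_P B2 (V 1) ≤ 𝔫)
      (hAC : ssm_tp_P B2 (V 0) ≤ 𝔫 ∨ ssm_tp_P B2 (V 2) ≤ 𝔫) =>
    s36tpt_side H hC2 0 1 2 hall1 h02 he0 he1 hq ι j hcomm hint VF VV leF leV rA rB rC ϖ hϖ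
      hnode locF locV z hz hzC hram hins hsm K1 hK1 resA resC w hw N1 hN1 𝔫 h𝔫 hB hAC
  have S2 := fun (𝔫 : Ideal B2) (h𝔫 : 𝔫.IsMaximal) (hA : ssm_tp_P B2 (V 0) ≤ 𝔫)
      (hBC : ssm_tp_P B2 (V 1) ≤ 𝔫 ∨ ssm_tp_P B2 (V 2) ≤ 𝔫) =>
    s36tpt_side H hC2 1 0 2 hall2 h12 he1 he0 hq ι' j' hcomm' hint' VF VV leF leV rA' rB' rC' ϖ
      hϖ' hnode locF locV z hz hzC hram hins' hsm' K2 hK2 resB' resC' w' hw' N2 hN2 𝔫 h𝔫 hA hBC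
  obtain ⟨hA, hB, hC, h3⟩ := s36tnh_two_both (F2 := F2) (q := q) (ϖ2 := ι ϖ) (ϖ2' := ι' ϖ)
    (PA := ssm_tp_P B2 (V 0)) (PB := ssm_tp_P B2 (V 1)) (PC := ssm_tp_P B2 (V 2))
    (fun 𝔫 h𝔫 hb hac => ⟨(S1 𝔫 h𝔫 hb hac).1, (S1 𝔫 h𝔫 hb hac).2.1, (S1 𝔫 h𝔫 hb hac).2.2.1⟩)
    (fun 𝔫 h𝔫 ha hbc => ⟨(S2 𝔫 h𝔫 ha hbc).1, (S2 𝔫 h𝔫 ha hbc).2.1, (S2 𝔫 h𝔫 ha hbc).2.2.1⟩)
    𝔫P h𝔫P htwo
  obtain ⟨-, -, -, hN1u, hsA1, hsC1⟩ := S1 𝔫P h𝔫P hB (Or.inl hA)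
  obtain ⟨-, -, -, hN2u, hsB2, hsC2⟩ := S2 𝔫P h𝔫P hA (Or.inl hB)
  have hq1 : q - 1 + 1 = q := by omega
  haveI := H.P_isPrime hC2 0
  haveI := H.P_isPrime hC2 1
  haveI := H.P_isPrime hC2 2
  refine s36g_ptTri_of_concl3 π hA hB hC ?_ hN1u hN2u hsA1 hsC1 hsB2 hsC2
  rw [hq1, ← hιϖ]
  exact h3

end Both

section Mirror

variable {A0 : Type*} [CommRing A0] {F1 F2 : Type*} [Field F1] [Field F2] [Algebra A0 F1]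
  [Algebra A0 F2] {B1 : Subalgebra A0 F1} {B2 : Subalgebra A0 F2}
  [IsFractionRing B1 F1] [IsFractionRing B2 F2] [IsNoetherianRing B1] [IsNoetherianRing B2]
  [IsIntegrallyClosed B1] [IsIntegrallyClosed B2]
  {R2 : Type*} [CommRing R2] [IsDomain R2] [IsIntegrallyClosed R2] [Algebra R2 F2]
  [FaithfulSMul R2 F2]
  {π2 : R2} {V : Fin 3 → ValuationSubring F2} {e : Fin 3 → ℕ}

/-- **THE TRIPLE-POINT CLAUSE, MIRROR FORM**: the second side is the mirror of the first one under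
an involution `W` of `F₂` preserving the top chart, fixing `π₂` and `V 2`, and exchanging `V 0` and
`V 1` (`V 1 = W⁻¹ (V 0)`): `ι' = W ∘ ι`, `j' = W ∘ j`.  Only the norm data of the second side
(`K₂ ⊇ W j F₁`, `N₂` the norm to `K₂' ≃ F₁`) and the smoothness of the component `0` are extra
inputs. -/
theorem s36tpt_ptTri_mirror (H : s36tp_Hyp π2 V e) (hC2 : ssm_tp_Chart π2 B2)
    (he0 : e 0 = 1) (he1 : e 1 = 1) {q : ℕ} (hq : 2 ≤ q) (π : A0)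
    (VF VV : ValuationSubring F1) (leF : ∀ x ∈ B1, x ∈ VF) (leV : ∀ x ∈ B1, x ∈ VV)
    (ϖ : B1)
    (hnode : ∀ (𝔫 : Ideal B1) (h𝔫 : 𝔫.IsMaximal), ssm_tp_P B1 VF ≤ 𝔫 → ssm_tp_P B1 VV ≤ 𝔫 →
      haveI : 𝔫.IsPrime := h𝔫.isPrime
      ∃ u v : ssl_locSub F1 𝔫,
        𝔫.map (algebraMap B1 (ssl_locSub F1 𝔫)) = Ideal.span {u, v} ∧ Prime u ∧ Prime v ∧
        ¬ v ∣ u ∧ ¬ u ∣ v ∧
        (∃ ε : (ssl_locSub F1 𝔫)ˣ, u * v = algebraMap B1 (ssl_locSub F1 𝔫) ϖ * ε) ∧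
        Ideal.span {u} = (ssm_tp_P B1 VF).map (algebraMap B1 (ssl_locSub F1 𝔫)) ∧
        Ideal.span {v} = (ssm_tp_P B1 VV).map (algebraMap B1 (ssl_locSub F1 𝔫)))
    (locF : ∀ r ∈ VF, ∃ t : B1, t ∉ ssm_tp_P B1 VF ∧ (t : F1) * r ∈ B1)
    (locV : ∀ r ∈ VV, ∃ t : B1, t ∉ ssm_tp_P B1 VV ∧ (t : F1) * r ∈ B1)
    (z : B2) (hz : (z : F2) ∈ (V 2).nonunits)
    (hzC : ∀ x ∈ (V 2).nonunits, ∃ y ∈ V 2, x = (z : F2) * y)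
    (hram : ∃ w : F2, w ∈ V 2 ∧ w⁻¹ ∈ V 2 ∧ algebraMap R2 F2 π2 = w * (z : F2) ^ (q - 1))
    -- side 1
    (ι : B1 →+* B2) (j : F1 →+* F2)
    (hcomm : ∀ x : B1, algebraMap B2 F2 (ι x) = j (algebraMap B1 F1 x)) (hint : ι.IsIntegral)
    (hιϖ : ι ϖ = algebraMap A0 B2 π) (hϖ : j (ϖ : F1) = algebraMap R2 F2 π2)
    (rA : ∀ y : F1, j y ∈ V 0 ↔ y ∈ VF) (rB : ∀ y : F1, j y ∈ V 1 ↔ y ∈ VV)
    (rC : ∀ y : F1, j y ∈ V 2 ↔ y ∈ VF)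
    (hins : ∀ x ∈ V 1, ∃ r ∈ VV, x ^ q - j r ∈ (V 1).nonunits)
    (hsmB : ∀ 𝔫' : Ideal B2, 𝔫'.IsMaximal → ∃ t ∈ 𝔫', ∀ x ∈ 𝔫', ∃ s : B2, s ∉ 𝔫' ∧
      s * x ∈ ssm_tp_P B2 (V 1) ⊔ Ideal.span {t})
    (hsmA : ∀ 𝔫' : Ideal B2, 𝔫'.IsMaximal → ∃ t ∈ 𝔫', ∀ x ∈ 𝔫', ∃ s : B2, s ∉ 𝔫' ∧
      s * x ∈ ssm_tp_P B2 (V 0) ⊔ Ideal.span {t})
    (K1 : Subfield F2) (hK1 : ∀ y : F1, j y ∈ K1)
    (resA : ∀ x ∈ V 0, ∃ y ∈ VF, x - j y ∈ (V 0).nonunits)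
    (resC : ∀ x ∈ V 2, ∃ y ∈ VF, x - j y ∈ (V 2).nonunits)
    {K1' : Type*} [Field K1'] [Algebra K1' F2] (w : F1 ≃+* K1')
    (hw : ∀ y : F1, algebraMap K1' F2 (w y) = j y)
    (N1 : F2 →* F2) (hN1 : ∀ x : F2, N1 x = algebraMap K1' F2 (Algebra.norm K1' x))
    -- the mirror
    (W : F2 ≃+* F2) (hWW : ∀ x, W (W x) = x) (hWB : ∀ x, W x ∈ B2 ↔ x ∈ B2)
    (hWπ : W (algebraMap R2 F2 π2) = algebraMap R2 F2 π2)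
    (hV1 : V 1 = (V 0).comap (W : F2 →+* F2)) (hV2 : (V 2).comap (W : F2 →+* F2) = V 2)
    (K2 : Subfield F2) (hK2 : ∀ y : F1, W (j y) ∈ K2)
    {K2' : Type*} [Field K2'] [Algebra K2' F2] (w' : F1 ≃+* K2')
    (hw' : ∀ y : F1, algebraMap K2' F2 (w' y) = W (j y))
    (N2 : F2 →* F2) (hN2 : ∀ x : F2, N2 x = algebraMap K2' F2 (Algebra.norm K2' x))
    (𝔫P : Ideal B2) (h𝔫P : 𝔫P.IsMaximal)
    (htwo : (ssm_tp_P B2 (V 0) ≤ 𝔫P ∧ ssm_tp_P B2 (V 1) ≤ 𝔫P) ∨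
      (ssm_tp_P B2 (V 0) ≤ 𝔫P ∧ ssm_tp_P B2 (V 2) ≤ 𝔫P) ∨
      (ssm_tp_P B2 (V 1) ≤ 𝔫P ∧ ssm_tp_P B2 (V 2) ≤ 𝔫P)) :
    haveI : 𝔫P.IsPrime := h𝔫P.isPrime
    s36g_PtTri π (q - 1) N1 N2 K1 K2 B2 (ssm_tp_P B2 (V 0)) (ssm_tp_P B2 (V 1))
      (ssm_tp_P B2 (V 2)) 𝔫P := by
  -- membership in `V 1`, `V 0`, `V 2` through `W`
  have m1 : ∀ x : F2, x ∈ V 1 ↔ W x ∈ V 0 := by
    intro x; rw [hV1, ValuationSubring.mem_comap]; rfl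
  have m0 : ∀ x : F2, x ∈ V 0 ↔ W x ∈ V 1 := by
    intro x; rw [m1, hWW]
  have m2 : ∀ x : F2, x ∈ V 2 ↔ W x ∈ V 2 := by
    intro x
    conv_lhs => rw [← hV2]
    rw [ValuationSubring.mem_comap]; rfl
  have n1 : ∀ x : F2, x ∈ (V 1).nonunits ↔ W x ∈ (V 0).nonunits := by
    intro x; rw [hV1]; exact s36tn_mem_comap_nonunits W (V 0) x
  have n0 : ∀ x : F2, x ∈ (V 0).nonunits ↔ W x ∈ (V 1).nonunits := by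
    intro x; rw [n1, hWW]
  have n2 : ∀ x : F2, x ∈ (V 2).nonunits ↔ W x ∈ (V 2).nonunits := by
    intro x
    conv_lhs => rw [← hV2]
    exact s36tn_mem_comap_nonunits W (V 2) x
  have hj' : ∀ y : F1, ((W : F2 →+* F2).comp j) y = W (j y) := fun y => rfl
  refine s36tpt_ptTri H hC2 he0 he1 hq π VF VV leF leV ϖ hnode locF locV z hz hzC hram
    ι j hcomm hint hιϖ hϖ rA rB rC hins hsmB K1 hK1 resA resC w hw N1 hN1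
    (s36tn_mirror W hWB ι) ((W : F2 →+* F2).comp j)
    (fun x => s36tn_mirror_comm W hWB ι j hcomm x)
    (s36tn_mirror_isIntegral W hWB ι hint) ?_ ?_ ?_ ?_ ?_ hsmA K2 (fun y => hK2 y) ?_ ?_
    w' (fun y => hw' y) N2 hN2 𝔫P h𝔫P htwo
  · rw [hj', hϖ, hWπ]
  · intro y; rw [hj', m1, hWW]; exact rA y
  · intro y; rw [hj', ← m1]; exact rB y
  · intro y; rw [hj', ← m2]; exact rC y
  · intro x hx
    obtain ⟨r, hr, hxr⟩ := hins (W x) ((m0 x).1 hx)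
    refine ⟨r, hr, ?_⟩
    rw [hj', n0, map_sub, map_pow, hWW]
    exact hxr
  · intro x hx
    obtain ⟨y, hy, hxy⟩ := resA (W x) ((m1 x).1 hx)
    refine ⟨y, hy, ?_⟩
    rw [hj', n1, map_sub, hWW]
    exact hxy
  · intro x hx
    obtain ⟨y, hy, hxy⟩ := resC (W x) ((m2 x).1 hx)
    refine ⟨y, hy, ?_⟩
    rw [hj', n2, map_sub, hWW]
    exact hxy

end Mirror

end Fermat.Agent.S36
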