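/-
Project S36 (Carayol), cell [L3d]-Hes (helper22; prefix `s36tph_`): THE TRIPLE-POINT CLAUSE
`s36g_PtTri` AT EVERY CLOSED POINT OF THE CHART `B_x` (`x = μ - 1`) OF THE HESSE MODEL OF LEVEL
`N' q q` LYING ON TWO OF THE THREE VERTICAL COMPONENTS `A`, `B`, `C`.

Hesse instance of helper20's tower-independent `s36tpt_ptTri` (`S36/Tri/PtTriGen.lean`), context
[NF2H-CTX] (number-field base, uniformiser `q`), `N₁ N₂ K₁ K₂ PA PB PC` spelled as in helper1's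
`s36asmh_Pts` (`S36/Model/AsmHesTowerGlue.lean`): this is the input `hT1` of the Hesse dispatch.

Inputs: helper8's third-valuation package `T : s36t3h_Third … VC` (`S36/Model/ThreeHes.lean`) and
the `W₂`-stability of the two charts (`hWB1`, `hWB2`).
-/
import Mathlib
import Fermat.Agent.S36.Tri.PtTriGen
import Fermat.Agent.S36.Tri.InstHes
import Fermat.Agent.S36.Model.PtsABHes
import Fermat.Agent.S36.ATower.Norms

set_option autoImplicit false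
set_option linter.unusedSectionVars false
set_option linter.unusedVariables false
set_option linter.style.haveILetI false

noncomputable section

namespace Fermat.Agent.S36

open Fermat.Agent.SS Fermat.Agent.JT3 Fermat.Agent.S35 IsLocalRing Polynomial ModularCurve
  IntermediateField

section NF

variable (L : Type) [Field L] [NumberField L] [Algebra L (AlgebraicClosure ℚ)]
  (h3 : (3 : L) ≠ 0) (O : ValuationSubring L) [IsDiscreteValuationRing O] (h3O : IsUnit (3 : O))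
variable (N' q : ℕ) [NeZero N'] [NeZero q] [hq : Fact q.Prime] [CharP (ResidueField O) q]
  (hq3 : ¬ 3 ∣ q) (hqN' : ¬ q ∣ N') (hπ : Irreducible ((q : ℕ) : ↥O))
  (ζ : L) (hζ : IsPrimitiveRoot ζ (3 * N'))

include hζ in
set_option synthInstance.maxHeartbeats 400000 in
set_option maxHeartbeats 3200000 in
/-- **[L3d]-Hes: the triple-point clause** at every closed point of `B_x` lying on two of the
three vertical components (then on all three), Hesse tower, [NF2H-CTX]. -/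
theorem s36tph_ptTri {VC : ValuationSubring ↥(hs_E L h3 (N' * q * q))}
    (T : s36t3h_Third h3 O h3O hπ N' q hq3 VC)
    (hWB1 : ∀ b ∈ fc_chart ↥O ({hs_muE h3 (N' * q * q) - 1} : Set ↥(hs_E L h3 (N' * q * q))),
      s36ih_W2 h3 N' q hq3 hqN' b ∈
        fc_chart ↥O ({hs_muE h3 (N' * q * q) - 1} : Set ↥(hs_E L h3 (N' * q * q))))
    (hWB2 : ∀ b ∈ fc_chart ↥O ({(hs_muE h3 (N' * q * q) - 1)⁻¹} : Set ↥(hs_E L h3 (N' * q * q))),
      s36ih_W2 h3 N' q hq3 hqN' b ∈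
        fc_chart ↥O ({(hs_muE h3 (N' * q * q) - 1)⁻¹} : Set ↥(hs_E L h3 (N' * q * q))))
    (𝔫 : Ideal (fc_chart ↥O ({hs_muE h3 (N' * q * q) - 1} : Set ↥(hs_E L h3 (N' * q * q)))))
    (h𝔫 : 𝔫.IsMaximal)
    (htwo :
      (ssm_tp_P (fc_chart ↥O ({hs_muE h3 (N' * q * q) - 1} : Set ↥(hs_E L h3 (N' * q * q))))
          (s36ih_VA h3 O h3O hπ (N' * q) q) ≤ 𝔫 ∧
        ssm_tp_P (fc_chart ↥O ({hs_muE h3 (N' * q * q) - 1} : Set ↥(hs_E L h3 (N' * q * q))))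
          (s36ih_VB h3 O h3O hπ N' q hq3 hqN') ≤ 𝔫) ∨
      (ssm_tp_P (fc_chart ↥O ({hs_muE h3 (N' * q * q) - 1} : Set ↥(hs_E L h3 (N' * q * q))))
          (s36ih_VA h3 O h3O hπ (N' * q) q) ≤ 𝔫 ∧
        ssm_tp_P (fc_chart ↥O ({hs_muE h3 (N' * q * q) - 1} : Set ↥(hs_E L h3 (N' * q * q))))
          VC ≤ 𝔫) ∨
      (ssm_tp_P (fc_chart ↥O ({hs_muE h3 (N' * q * q) - 1} : Set ↥(hs_E L h3 (N' * q * q))))
          (s36ih_VB h3 O h3O hπ N' q hq3 hqN') ≤ 𝔫 ∧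
        ssm_tp_P (fc_chart ↥O ({hs_muE h3 (N' * q * q) - 1} : Set ↥(hs_E L h3 (N' * q * q))))
          VC ≤ 𝔫)) :
    letI := ssm_gi_algebra (ssm_alh_E_le L h3 (ssm_fh_hF9 h3) (N' * q) q)
    letI := ssm_gi_algebra (ssm_alh_E_beta_le L h3 (ssm_fh_hF9 h3) (N' * q) q hq3)
    haveI := s36tnh_chart_isFractionRing h3 O (N' * q * q)
    haveI := h𝔫.isPrime
    s36g_PtTri ((q : ℕ) : ↥O) (q - 1) (s36at_N ↥(hs_E L h3 (N' * q)))
      (s36at_N ↥((hs_E L h3 (N' * q)).map (qExpandAlgHomC L q)))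
      (algebraMap ↥(hs_E L h3 (N' * q)) ↥(hs_E L h3 (N' * q * q))).fieldRange
      (algebraMap ↥((hs_E L h3 (N' * q)).map (qExpandAlgHomC L q))
        ↥(hs_E L h3 (N' * q * q))).fieldRange
      (fc_chart ↥O ({hs_muE h3 (N' * q * q) - 1} : Set ↥(hs_E L h3 (N' * q * q))))
      (ssm_tp_P (fc_chart ↥O ({hs_muE h3 (N' * q * q) - 1} : Set ↥(hs_E L h3 (N' * q * q))))
        (s36ih_VA h3 O h3O hπ (N' * q) q))
      (ssm_tp_P (fc_chart ↥O ({hs_muE h3 (N' * q * q) - 1} : Set ↥(hs_E L h3 (N' * q * q))))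
        (s36ih_VB h3 O h3O hπ N' q hq3 hqN'))
      (ssm_tp_P (fc_chart ↥O ({hs_muE h3 (N' * q * q) - 1} : Set ↥(hs_E L h3 (N' * q * q))))
        VC) 𝔫 := by
  letI a12 := ssm_gi_algebra (ssm_alh_E_le L h3 (ssm_fh_hF9 h3) (N' * q) q)
  letI ab12 := ssm_gi_algebra (ssm_alh_E_beta_le L h3 (ssm_fh_hF9 h3) (N' * q) q hq3)
  haveI := s36tnh_chart_isFractionRing h3 O (N' * q * q)
  haveI := s36tnh_chart_isFractionRing h3 O (N' * q)
  haveI := s36tnh_chart_isNoetherianRing h3 O (N' * q * q)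
  haveI := s36tnh_chart_isNoetherianRing h3 O (N' * q)
  haveI := s36tnh_chart_isIntegrallyClosed h3 O (N' * q * q)
  haveI := s36tnh_chart_isIntegrallyClosed h3 O (N' * q)
  haveI h𝔫p := h𝔫.isPrime
  haveI := ssm_go_isScalarTower O (hs_E L h3 (N' * q * q))
  haveI := ssm_go_isScalarTower O (hs_E L h3 (N' * q))
  -- the level-`N'` package
  obtain ⟨hprime1, -, -, -, -, -⟩ := s36cph_nf_pkg L h3 O N' q hq3 hqN' hπ ζ hζ
  obtain ⟨hsmA, hsmB, -, -⟩ := s36cph_nf_comp L h3 O h3O N' q hq3 hqN' hπ ζ hζ hWB1 hWB2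
  -- [TP3] and the chart
  have H := s36t3h_hyp h3 O h3O hπ N' q hq3 hqN' hprime1 T
  have hC2 := s36tnh_hes_chart2 h3 O hπ N' q
  have hxA : Transcendental ↥O (hs_muE h3 (N' * q * q) - 1 : ↥(hs_E L h3 (N' * q * q))) :=
    fc_ff_transcendental (L := L) (ssm_hl_transcendental L h3 (N' * q * q))
  haveI : IsIntegrallyClosed
      (Algebra.adjoin ↥O ({hs_muE h3 (N' * q * q) - 1} : Set ↥(hs_E L h3 (N' * q * q)))) :=
    fc_ff_isIntegrallyClosed hxA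
  haveI : FaithfulSMul
      (Algebra.adjoin ↥O ({hs_muE h3 (N' * q * q) - 1} : Set ↥(hs_E L h3 (N' * q * q))))
      ↥(hs_E L h3 (N' * q * q)) :=
    (faithfulSMul_iff_algebraMap_injective _ _).2 Subtype.val_injective
  -- level `N' q`
  obtain ⟨leF, leV, locF, locV⟩ := s36tnh_hes_level1 h3 O h3O hπ N' q hq3 hqN' hprime1
  -- the involution
  have hWW := s36w_h_WE_WE L h3 (ssm_fh_hF9 h3) N' q hq.out hq3 hqN'
  have hWBiff := s36tmt_chart_iff (s36ih_W2 h3 N' q hq3 hqN') hWW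
    (fc_chart ↥O ({hs_muE h3 (N' * q * q) - 1} : Set ↥(hs_E L h3 (N' * q * q)))) hWB1
  have hVC := s36t3h_comap_W2 h3 O h3O hπ N' q hq3 hqN' hprime1 T
  -- side-1 valuation facts
  have rA := s36tnh_hes_rA h3 O h3O hπ N' q
  have rB := s36tnh_hes_rB h3 O h3O hπ N' q hq3 hqN'
  have rC := s36tnh_hes_rC h3 O h3O hπ N' q hq3 T
  have hins := s36tnh_hes_hinsB h3 O h3O hπ N' q hq3 hqN'
  have resA : ∀ x ∈ s36ih_VA h3 O h3O hπ (N' * q) q, ∃ y ∈ ssm_fh_V1 h3 O h3O hπ N' q,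
      x - (IntermediateField.inclusion (s36w_h_E_le1 L h3 (ssm_fh_hF9 h3) N' q) :
        ↥(hs_E L h3 (N' * q)) →+* ↥(hs_E L h3 (N' * q * q))) y ∈
        (s36ih_VA h3 O h3O hπ (N' * q) q).nonunits := by
    intro x hx
    obtain ⟨y, hy⟩ := s36t3h_resA_mid h3 O h3O hπ N' q hq3 hqN' x hx
    exact ⟨y, y.2, hy⟩
  have resC : ∀ x ∈ VC, ∃ y ∈ ssm_fh_V1 h3 O h3O hπ N' q,
      x - (IntermediateField.inclusion (s36w_h_E_le1 L h3 (ssm_fh_hF9 h3) N' q) :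
        ↥(hs_E L h3 (N' * q)) →+* ↥(hs_E L h3 (N' * q * q))) y ∈ VC.nonunits := by
    intro x hx
    obtain ⟨y, hy⟩ := s36t3h_resC_mid h3 O h3O hπ N' q hq3 T x hx
    exact ⟨y, y.2, hy⟩
  -- the uniformiser of `VC`
  have hzB := s36tnh_hes_z_mem h3 O N' q hq3 hqN' hWB1
  have hram := s36t3h_ramC h3 O h3O hπ N' q hq3 T
  exact s36tpt_ptTri (B1 := fc_chart ↥O ({hs_muE h3 (N' * q) - 1} : Set ↥(hs_E L h3 (N' * q))))
    H hC2 rfl rfl hq.out.two_le ((q : ℕ) : ↥O)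
    (ssm_fh_V1 h3 O h3O hπ N' q) (ssm_fh_V2 h3 O h3O hπ N' q hq3 hqN') leF leV
    (algebraMap ↥O (fc_chart ↥O ({hs_muE h3 (N' * q) - 1} : Set ↥(hs_E L h3 (N' * q))))
      ((q : ℕ) : ↥O))
    (fun 𝔫1 h𝔫1 hP1 hP2 =>
      haveI := h𝔫1
      s36tnh_hes_node L h3 O h3O N' q hq3 hqN' hπ ζ hζ 𝔫1 hP1 hP2)
    locF locV
    ⟨s36t3h_z h3 N' q hq3, hzB⟩ (s36t3h_z_mem h3 O h3O hπ N' q hq3 T)
    (fun x hx => (s36t3h_unifC h3 O h3O hπ N' q hq3 T x).1 hx) hram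
    -- side 1
    (s36tnh_hes_iota h3 O N' q)
    (IntermediateField.inclusion (s36w_h_E_le1 L h3 (ssm_fh_hF9 h3) N' q) :
      ↥(hs_E L h3 (N' * q)) →+* ↥(hs_E L h3 (N' * q * q)))
    (fun b => s36tnh_hes_iota_coe h3 O N' q b) (s36tnh_hes_iota_isIntegral h3 O N' q)
    (s36tnh_hes_iota_algebraMap h3 O N' q _) rfl
    rA rB rC hins hsmB
    (algebraMap ↥(hs_E L h3 (N' * q)) ↥(hs_E L h3 (N' * q * q))).fieldRange
    (fun y => RingHom.mem_fieldRange.2 ⟨y, rfl⟩) resA resC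
    (RingEquiv.refl ↥(hs_E L h3 (N' * q))) (fun y => rfl)
    (s36at_N ↥(hs_E L h3 (N' * q))) (fun x => rfl)
    -- side 2
    (s36tn_mirror (s36ih_W2 h3 N' q hq3 hqN') hWBiff (s36tnh_hes_iota h3 O N' q))
    ((s36ih_W2 h3 N' q hq3 hqN' :
      ↥(hs_E L h3 (N' * q * q)) →+* ↥(hs_E L h3 (N' * q * q))).comp
      (IntermediateField.inclusion (s36w_h_E_le1 L h3 (ssm_fh_hF9 h3) N' q) :
        ↥(hs_E L h3 (N' * q)) →+* ↥(hs_E L h3 (N' * q * q))))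
    (fun b => s36tn_mirror_comm (s36ih_W2 h3 N' q hq3 hqN') hWBiff (s36tnh_hes_iota h3 O N' q) _
      (fun b => s36tnh_hes_iota_coe h3 O N' q b) b)
    (s36tn_mirror_isIntegral (s36ih_W2 h3 N' q hq3 hqN') hWBiff (s36tnh_hes_iota h3 O N' q)
      (s36tnh_hes_iota_isIntegral h3 O N' q))
    (s36cph_W2_algebraMap h3 O N' q hq3 hqN' _)
    (s36tmt_rA (s36ih_W2 h3 N' q hq3 hqN') hWW _ _ _ rA)
    (s36tmt_rB (s36ih_W2 h3 N' q hq3 hqN') _ _ _ rB)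
    (s36tmt_rC (s36ih_W2 h3 N' q hq3 hqN') _ VC hVC _ rC)
    (s36tmt_ins (s36ih_W2 h3 N' q hq3 hqN') hWW _ _ _ q hins) hsmA
    (algebraMap ↥((hs_E L h3 (N' * q)).map (qExpandAlgHomC L q))
      ↥(hs_E L h3 (N' * q * q))).fieldRange
    (fun y => RingHom.mem_fieldRange.2
      ⟨s36i_gw0 q (hs_E L h3 (N' * q)) (ssm_fh_W h3 N' q hq3 hqN') y,
        s36tnh_hes_w' h3 N' q hq3 hqN' y⟩)
    (s36tmt_resB (s36ih_W2 h3 N' q hq3 hqN') hWW _ _ _ resA)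
    (s36tmt_resC (s36ih_W2 h3 N' q hq3 hqN') hWW _ VC hVC _ resC)
    (s36i_gw0 q (hs_E L h3 (N' * q)) (ssm_fh_W h3 N' q hq3 hqN'))
    (fun y => s36tnh_hes_w' h3 N' q hq3 hqN' y)
    (s36at_N ↥((hs_E L h3 (N' * q)).map (qExpandAlgHomC L q))) (fun x => rfl)
    𝔫 h𝔫 htwo

end NF

end Fermat.Agent.S36
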