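/-
Project S36 (Carayol), cell [L3d] (triple points), LEGENDRE INSTANCE (helper20; prefix `s36tpl_`):
the two-component clause `hT1` of helper24's dispatch / helper1's `s36asm_PtsT` on the chart
`B_λ = fc_chart O {λ}` of `E₂ = lg_E L (N' q q)`:

  every maximal ideal of `B_λ` containing TWO of `P_A`, `P_B`, `P_C` is a triple point:
  `s36g_PtTri q (q - 1) N₁ N₂ K₁ K₂ B_λ P_A P_B P_C 𝔫`.

= ONE call of `s36tpt_ptTri_mirror` (S36/Tri/PtTriGen.lean) with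
* side 1 : `B₁ = fc_chart O {λ} ⊆ E₁ = lg_E L (N' q)`, `ι = s36tn_leg_iota`, `j = (E₁ ⊆ E₂)`,
  `VF = ssm_gl_V1`, `VV = ssm_gl_V2`, node clause `s36tn_leg_node`, S34's level-`N' q` package
  `ssm_gl_hyp`, helper26's (I-B) `s36i_leg_dataB` (`rB`, `hins`), helper29's third-valuation package
  (`s36asm_Third`: `rC`, `resA`, `resC`, the uniformiser `z = λ(X^{q q}) - λ` of `VC`),
  helper17's `s36cp_nf_comp` (the components `A`, `B` are smooth);
* the mirror : `W = W₂` (`s36i_W2`), `VB = W₂⁻¹ VA`, `W₂⁻¹ VC = VC` (helper26), `w' = s36i_w0`.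
Inputs left as hypotheses: `H` ([TP3], helper29's `s36t3_leg_hyp_of`), `T3` (`s36asm_Third`),
`hWB1`, `hWB2` (the `W₂`-stability of the two charts, [I2]).
-/
import Mathlib
import Fermat.Agent.S36.Model.AsmLegFinal
import Fermat.Agent.S36.Tri.NodeInst
import Fermat.Agent.S36.Tri.PtTriGen

set_option autoImplicit false
set_option linter.unusedSectionVars false
set_option linter.unusedVariables false
set_option linter.style.haveILetI false

noncomputable section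

open ModularCurve AlgebraicCurve IntermediateField IsLocalRing
open Fermat.Agent.JT3 Fermat.Agent.SS Fermat.Agent.S35

namespace Fermat.Agent.S36

section Leg

variable {L : Type*} [Field L] [CharZero L] [Algebra L (AlgebraicClosure ℚ)]
  (O : ValuationSubring L) [IsDiscreteValuationRing O] {π : O} (hπ : Irreducible π)
variable (N' q : ℕ) [NeZero N'] [NeZero q] [hq : Fact q.Prime] [CharP (ResidueField O) q]
  (hq2 : ¬ 2 ∣ q) (hqN' : ¬ q ∣ N')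

/-- `W₂` is an involution. -/
theorem s36tpl_W2_W2 (x : ↥(lg_E L (N' * q * q))) :
    s36i_W2 L N' q hq2 hqN' (s36i_W2 L N' q hq2 hqN' x) = x :=
  s36w_WE_WE L N' q hq.out hq2 hqN' x

/-- `W₂` preserves the chart `B_λ` of `E₂` in both directions. -/
theorem s36tpl_W2_mem_chart
    (hWB1 : ∀ b ∈ fc_chart ↥O ({lg_lamE (N' * q * q)} : Set ↥(lg_E L (N' * q * q))),
      s36i_W2 L N' q hq2 hqN' b ∈
        fc_chart ↥O ({lg_lamE (N' * q * q)} : Set ↥(lg_E L (N' * q * q))))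
    (x : ↥(lg_E L (N' * q * q))) :
    s36i_W2 L N' q hq2 hqN' x ∈
        fc_chart ↥O ({lg_lamE (N' * q * q)} : Set ↥(lg_E L (N' * q * q))) ↔
      x ∈ fc_chart ↥O ({lg_lamE (N' * q * q)} : Set ↥(lg_E L (N' * q * q))) := by
  constructor
  · intro h
    have := hWB1 _ h
    rwa [s36tpl_W2_W2] at this
  · exact hWB1 x

/-- `λ(X^{q q})` lies in the chart `B_λ` of `E₂` (from the `W₂`-stability of the chart). -/
theorem s36tpl_lam2_mem_chart
    (hWB1 : ∀ b ∈ fc_chart ↥O ({lg_lamE (N' * q * q)} : Set ↥(lg_E L (N' * q * q))),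
      s36i_W2 L N' q hq2 hqN' b ∈
        fc_chart ↥O ({lg_lamE (N' * q * q)} : Set ↥(lg_E L (N' * q * q)))) :
    s36i_lam2 L N' q hq2 ∈
      fc_chart ↥O ({lg_lamE (N' * q * q)} : Set ↥(lg_E L (N' * q * q))) := by
  rw [← s36tpl_W2_mem_chart O N' q hq2 hqN' hWB1, s36i_W2_lam2]
  exact fc_x_mem_chart _


/-- `VA ∩ E₁ = VF`. -/
theorem s36tpl_rA (y : ↥(lg_E L (N' * q))) :
    letI := ssm_gi_algebra (ssm_al_E_le L (N' * q) q)
    algebraMap ↥(lg_E L (N' * q)) ↥(lg_E L (N' * q * q)) y ∈ s36i_VA O hπ (N' * q) q ↔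
      y ∈ ssm_gl_V1 O hπ N' q := by
  letI := ssm_gi_algebra (ssm_al_E_le L (N' * q) q)
  letI := ssm_gi_algebraV (ssm_al_E_le L (N' * q) q) (ssm_gl_V1 O hπ N' q)
  exact ((s36i_leg_overA O hπ N' q) y).trans (ssm_gi_mem_range _ y)

/-- `VB ∩ E₁ = VV`. -/
theorem s36tpl_rB (y : ↥(lg_E L (N' * q))) :
    letI := ssm_gi_algebra (ssm_al_E_le L (N' * q) q)
    algebraMap ↥(lg_E L (N' * q)) ↥(lg_E L (N' * q * q)) y ∈ s36i_VB O hπ N' q hq2 hqN' ↔
      y ∈ s36i_VV O hπ N' q hq2 hqN' := by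
  letI := ssm_gi_algebra (ssm_al_E_le L (N' * q) q)
  letI := ssm_gi_algebraV (ssm_al_E_le L (N' * q) q) (s36i_VV O hπ N' q hq2 hqN')
  exact ((s36i_leg_dataB O hπ N' q hq2 hqN').overR y).trans (ssm_gi_mem_range _ y)

/-- `κ(VB) ^ q ⊆ κ(VV)`. -/
theorem s36tpl_hins (x : ↥(lg_E L (N' * q * q))) (hx : x ∈ s36i_VB O hπ N' q hq2 hqN') :
    letI := ssm_gi_algebra (ssm_al_E_le L (N' * q) q)
    ∃ r ∈ s36i_VV O hπ N' q hq2 hqN',
      x ^ q - algebraMap ↥(lg_E L (N' * q)) ↥(lg_E L (N' * q * q)) r ∈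
        (s36i_VB O hπ N' q hq2 hqN').nonunits := by
  letI := ssm_gi_algebra (ssm_al_E_le L (N' * q) q)
  letI := ssm_gi_algebraV (ssm_al_E_le L (N' * q) q) (s36i_VV O hπ N' q hq2 hqN')
  haveI := ssm_gi_isScalarTower (ssm_al_E_le L (N' * q) q) (s36i_VV O hπ N' q hq2 hqN')
  have DB := s36i_leg_dataB O hπ N' q hq2 hqN'
  have hq1 : q - 1 + 1 = q := Nat.sub_add_cancel hq.out.one_le
  haveI : FiniteDimensional ↥(lg_E L (N' * q)) ↥(lg_E L (N' * q * q)) :=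
    ssm_gi_finiteDimensional (n := q - 1) (by rw [hq1]; exact DB.finrank_eq)
  haveI : Algebra.IsSeparable ↥(lg_E L (N' * q)) ↥(lg_E L (N' * q * q)) := ssm_gi_isSeparable
  obtain ⟨r, hr⟩ := s36i_pow DB x hx
  exact ⟨(r : ↥(lg_E L (N' * q))), r.2, hr⟩


set_option maxHeartbeats 800000 in
/-- the facts on the third valuation used at the triple points, from helper29's package
(`s36asm_Third`, helper1's spelling). -/
theorem s36tpl_third_facts {VC : ValuationSubring ↥(lg_E L (N' * q * q))}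
    (T3 : s36asm_Third O hπ N' q hq2 hqN' VC) :
    letI := ssm_gi_algebra (ssm_al_E_le L (N' * q) q)
    (∀ y : ↥(lg_E L (N' * q)),
      algebraMap ↥(lg_E L (N' * q)) ↥(lg_E L (N' * q * q)) y ∈ VC ↔ y ∈ ssm_gl_V1 O hπ N' q) ∧
    (∀ x ∈ s36i_VA O hπ (N' * q) q, ∃ y ∈ ssm_gl_V1 O hπ N' q,
      x - algebraMap ↥(lg_E L (N' * q)) ↥(lg_E L (N' * q * q)) y ∈
        (s36i_VA O hπ (N' * q) q).nonunits) ∧
    (∀ x ∈ VC, ∃ y ∈ ssm_gl_V1 O hπ N' q,
      x - algebraMap ↥(lg_E L (N' * q)) ↥(lg_E L (N' * q * q)) y ∈ VC.nonunits) ∧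
    (s36i_lam2 L N' q hq2 - lg_lamE (N' * q * q) ∈ VC.nonunits) ∧
    (∀ x ∈ VC.nonunits, ∃ y ∈ VC, x = (s36i_lam2 L N' q hq2 - lg_lamE (N' * q * q)) * y) ∧
    (∃ w : ↥(lg_E L (N' * q * q)), w ∈ VC ∧ w⁻¹ ∈ VC ∧
      algebraMap ↥O ↥(lg_E L (N' * q * q)) π =
        w * (s36i_lam2 L N' q hq2 - lg_lamE (N' * q * q)) ^ (q - 1)) ∧
    VC.comap (s36i_W2 L N' q hq2 hqN' :
      ↥(lg_E L (N' * q * q)) →+* ↥(lg_E L (N' * q * q))) = VC := by
  letI := ssm_gi_algebra (ssm_al_E_le L (N' * q) q)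
  letI := ssm_gi_algebraV (ssm_al_E_le L (N' * q) q) (ssm_gl_V1 O hπ N' q)
  haveI := ssm_gi_isScalarTower (ssm_al_E_le L (N' * q) q) (ssm_gl_V1 O hπ N' q)
  have T : s36t3_Third ↥(lg_E L (N' * q)) ↥(ssm_gl_V1 O hπ N' q) q
      (gq_unif π hπ.ne_zero hπ.maximalIdeal_eq (lg_E L (N' * q))
        (ssm_ga_E_le_quotField O (N' * q)))
      (s36i_lam2 L N' q hq2 - lg_lamE (N' * q * q))
      (s36i_VA O hπ (N' * q) q) VC := T3
  haveI := ssm_go_isScalarTower O (lg_E L (N' * q * q))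
  have hq1 : q - 1 + 1 = q := Nat.sub_add_cancel hq.out.one_le
  haveI : FiniteDimensional ↥(lg_E L (N' * q)) ↥(lg_E L (N' * q * q)) := by
    letI := ssm_gi_algebraV (ssm_al_E_le L (N' * q) q) (s36i_VV O hπ N' q hq2 hqN')
    exact ssm_gi_finiteDimensional (n := q - 1)
      (by rw [hq1]; exact (s36i_leg_dataB O hπ N' q hq2 hqN').finrank_eq)
  haveI : Algebra.IsSeparable ↥(lg_E L (N' * q)) ↥(lg_E L (N' * q * q)) := ssm_gi_isSeparable
  refine ⟨fun y => (T.overC y).trans (ssm_gi_mem_range _ y), ?_, ?_, T.z_mem, ?_, ?_, ?_⟩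
  · intro x hx
    obtain ⟨r, hr⟩ := T.resA x hx
    exact ⟨(r : ↥(lg_E L (N' * q))), r.2, hr⟩
  · intro x hx
    obtain ⟨r, hr⟩ := T.resC x hx
    exact ⟨(r : ↥(lg_E L (N' * q))), r.2, hr⟩
  · intro x hx
    exact (T.unifC x).1 hx
  · obtain ⟨u, hu, hu', hπu⟩ := T.ramC
    refine ⟨u, hu, hu', ?_⟩
    rw [← hπu, IsScalarTower.algebraMap_apply ↥O L ↥(lg_E L (N' * q * q))]
    exact (s36vh_gauss_pi O hπ (lg_E L (N' * q)) (lg_E L (N' * q * q))
      (ssm_al_E_le L (N' * q) q) (ssm_ga_E_le_quotField O (N' * q * q))).symm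
  · exact s36i_leg_W2_VC O hπ N' q hq2 hqN' VC T.overC T.ne T.only


/-- `W₂` restricted to `E₁` is `w0 : E₁ ≃ β E₁`. -/
theorem s36tpl_w0 (y : ↥(lg_E L (N' * q))) :
    letI := ssm_gi_algebra (ssm_al_E_le L (N' * q) q)
    letI := ssm_gi_algebra (ssm_al_E_beta_le L (N' * q) q hq2)
    algebraMap ↥((lg_E L (N' * q)).map (qExpandAlgHomC L q)) ↥(lg_E L (N' * q * q))
        (s36i_w0 L N' q hq2 hqN' y) =
      s36i_W2 L N' q hq2 hqN' (algebraMap ↥(lg_E L (N' * q)) ↥(lg_E L (N' * q * q)) y) := by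
  letI := ssm_gi_algebra (ssm_al_E_le L (N' * q) q)
  letI := ssm_gi_algebra (ssm_al_E_beta_le L (N' * q) q hq2)
  apply Subtype.ext
  rw [ssm_gi_coe_algebraMap, s36i_coe_w0]
  exact (s36w_coe_WE_alpha L N' q hq.out hq2 hqN' y _).symm


end Leg

section NF

variable (L : Type) [Field L] [NumberField L] [Algebra L (AlgebraicClosure ℚ)]
  (O : ValuationSubring L) [IsDiscreteValuationRing O]
variable (N' q : ℕ) [NeZero N'] [NeZero q] [hq : Fact q.Prime] [CharP (ResidueField O) q]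
  (hq2 : ¬ 2 ∣ q) (hqN' : ¬ q ∣ N') (hπ : Irreducible ((q : ℕ) : ↥O))
  (ζ : L) (hζ : IsPrimitiveRoot ζ N')

include hζ in
set_option synthInstance.maxHeartbeats 400000 in
set_option maxHeartbeats 3200000 in
/-- **[L3d]-Leg, `hT1`**: every maximal ideal of the chart `B_λ` of `E₂` containing two of the three
vertical primes is a triple point. -/
theorem s36tpl_hT1 {VC : ValuationSubring ↥(lg_E L (N' * q * q))}
    (T3 : s36asm_Third O hπ N' q hq2 hqN' VC)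
    (H : s36tp_Hyp (algebraMap ↥O (Algebra.adjoin ↥O
        ({lg_lamE (N' * q * q)} : Set ↥(lg_E L (N' * q * q)))) ((q : ℕ) : ↥O))
      ![s36i_VA O hπ (N' * q) q, s36i_VB O hπ N' q hq2 hqN', VC] ![1, 1, q - 1])
    (hWB1 : ∀ b ∈ fc_chart ↥O ({lg_lamE (N' * q * q)} : Set ↥(lg_E L (N' * q * q))),
      s36i_W2 L N' q hq2 hqN' b ∈
        fc_chart ↥O ({lg_lamE (N' * q * q)} : Set ↥(lg_E L (N' * q * q))))
    (hWB2 : ∀ b ∈ fc_chart ↥O ({(lg_lamE (N' * q * q))⁻¹} : Set ↥(lg_E L (N' * q * q))),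
      s36i_W2 L N' q hq2 hqN' b ∈
        fc_chart ↥O ({(lg_lamE (N' * q * q))⁻¹} : Set ↥(lg_E L (N' * q * q))))
    (𝔫 : Ideal (fc_chart ↥O ({lg_lamE (N' * q * q)} : Set ↥(lg_E L (N' * q * q)))))
    (h𝔫 : 𝔫.IsMaximal)
    (htwo : (ssm_tp_P (fc_chart ↥O ({lg_lamE (N' * q * q)} : Set ↥(lg_E L (N' * q * q))))
          (s36i_VA O hπ (N' * q) q) ≤ 𝔫 ∧
        ssm_tp_P (fc_chart ↥O ({lg_lamE (N' * q * q)} : Set ↥(lg_E L (N' * q * q))))
          (s36i_VB O hπ N' q hq2 hqN') ≤ 𝔫) ∨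
      (ssm_tp_P (fc_chart ↥O ({lg_lamE (N' * q * q)} : Set ↥(lg_E L (N' * q * q))))
          (s36i_VA O hπ (N' * q) q) ≤ 𝔫 ∧
        ssm_tp_P (fc_chart ↥O ({lg_lamE (N' * q * q)} : Set ↥(lg_E L (N' * q * q)))) VC ≤ 𝔫) ∨
      (ssm_tp_P (fc_chart ↥O ({lg_lamE (N' * q * q)} : Set ↥(lg_E L (N' * q * q))))
          (s36i_VB O hπ N' q hq2 hqN') ≤ 𝔫 ∧
        ssm_tp_P (fc_chart ↥O ({lg_lamE (N' * q * q)} : Set ↥(lg_E L (N' * q * q)))) VC ≤ 𝔫)) :
    letI := ssm_gi_algebra (ssm_al_E_le L (N' * q) q)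
    letI := ssm_gi_algebra (ssm_al_E_beta_le L (N' * q) q hq2)
    haveI := s36cp_chart_isFractionRing O (N' * q * q)
    haveI := h𝔫.isPrime
    s36g_PtTri ((q : ℕ) : ↥O) (q - 1) (s36at_N ↥(lg_E L (N' * q)))
      (s36at_N ↥((lg_E L (N' * q)).map (qExpandAlgHomC L q)))
      (algebraMap ↥(lg_E L (N' * q)) ↥(lg_E L (N' * q * q))).fieldRange
      (algebraMap ↥((lg_E L (N' * q)).map (qExpandAlgHomC L q))
        ↥(lg_E L (N' * q * q))).fieldRange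
      (fc_chart ↥O ({lg_lamE (N' * q * q)} : Set ↥(lg_E L (N' * q * q))))
      (ssm_tp_P (fc_chart ↥O ({lg_lamE (N' * q * q)} : Set ↥(lg_E L (N' * q * q))))
        (s36i_VA O hπ (N' * q) q))
      (ssm_tp_P (fc_chart ↥O ({lg_lamE (N' * q * q)} : Set ↥(lg_E L (N' * q * q))))
        (s36i_VB O hπ N' q hq2 hqN'))
      (ssm_tp_P (fc_chart ↥O ({lg_lamE (N' * q * q)} : Set ↥(lg_E L (N' * q * q)))) VC) 𝔫 := by
  letI := ssm_gi_algebra (ssm_al_E_le L (N' * q) q)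
  letI := ssm_gi_algebra (ssm_al_E_beta_le L (N' * q) q hq2)
  haveI := ssm_go_isScalarTower O (lg_E L (N' * q))
  haveI := ssm_go_isScalarTower O (lg_E L (N' * q * q))
  haveI := lgf_finite L (N' * q)
  haveI := lgf_finite L (N' * q * q)
  have hx1 : Transcendental L (lg_lamE (L := L) (N' * q)) :=
    lgf_lam_transcendental L (N' * q) two_ne_zero
  have hx2 : Transcendental L (lg_lamE (L := L) (N' * q * q)) :=
    lgf_lam_transcendental L (N' * q * q) two_ne_zero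
  haveI : IsNoetherianRing ↥(fc_chart ↥O ({lg_lamE (N' * q)} : Set ↥(lg_E L (N' * q)))) :=
    ssm_ths_chart_isNoetherianRing (A0 := ↥O) (L := L) hx1
  haveI : IsIntegrallyClosed ↥(fc_chart ↥O ({lg_lamE (N' * q)} : Set ↥(lg_E L (N' * q)))) :=
    ssm_ths_chart_isIntegrallyClosed (A0 := ↥O) (L := L) _
  haveI := s36tn_chart_isFractionRing O (N' * q)
  haveI : IsNoetherianRing
      ↥(fc_chart ↥O ({lg_lamE (N' * q * q)} : Set ↥(lg_E L (N' * q * q)))) :=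
    ssm_ths_chart_isNoetherianRing (A0 := ↥O) (L := L) hx2
  haveI : IsIntegrallyClosed
      ↥(fc_chart ↥O ({lg_lamE (N' * q * q)} : Set ↥(lg_E L (N' * q * q)))) :=
    ssm_ths_chart_isIntegrallyClosed (A0 := ↥O) (L := L) _
  haveI := s36cp_chart_isFractionRing O (N' * q * q)
  have hxA : Transcendental ↥O (lg_lamE (L := L) (N' * q * q)) :=
    fc_ff_transcendental (L := L) hx2
  haveI : IsIntegrallyClosed (Algebra.adjoin ↥O
      ({lg_lamE (N' * q * q)} : Set ↥(lg_E L (N' * q * q)))) := fc_ff_isIntegrallyClosed hxA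
  haveI : FaithfulSMul (Algebra.adjoin ↥O
      ({lg_lamE (N' * q * q)} : Set ↥(lg_E L (N' * q * q)))) ↥(lg_E L (N' * q * q)) :=
    (faithfulSMul_iff_algebraMap_injective _ _).2 Subtype.val_injective
  have hxA1 : Transcendental ↥O (lg_lamE (L := L) (N' * q)) :=
    fc_ff_transcendental (L := L) hx1
  haveI : IsIntegrallyClosed (Algebra.adjoin ↥O
      ({lg_lamE (N' * q)} : Set ↥(lg_E L (N' * q)))) := fc_ff_isIntegrallyClosed hxA1
  haveI : FaithfulSMul (Algebra.adjoin ↥O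
      ({lg_lamE (N' * q)} : Set ↥(lg_E L (N' * q)))) ↥(lg_E L (N' * q)) :=
    (faithfulSMul_iff_algebraMap_injective _ _).2 Subtype.val_injective
  -- the level `N' q` package
  have hqO : ((q : ℕ) : O) ∈ maximalIdeal O := ssm_fln_q_mem L O q
  have hq2' : q ≠ 2 := ssm_fl_ne_two q hq2
  have hp := ssm_ll_prime L N' hπ q hqO hq2' hqN' ζ hζ
  have H1 := ssm_gl_hyp O hπ N' q hq2 hqN' hp.1
  have hC1 := ssm_tp_ff_chart (A0 := ↥O) (L := L) hπ hx1
  have hC2 := ssm_tp_ff_chart (A0 := ↥O) (L := L) hπ hx2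
  -- the third valuation
  obtain ⟨rC, resA, resC, hz, hzC, hram, hV2⟩ := s36tpl_third_facts O hπ N' q hq2 hqN' T3
  -- the components `A`, `B` are smooth
  obtain ⟨hsmA, hsmB, -, -⟩ := s36cp_nf_comp L O hπ N' q hq2 hqN' ζ hζ hWB1 hWB2
  exact s36tpt_ptTri_mirror H hC2 rfl rfl hq.out.two_le ((q : ℕ) : ↥O)
    (ssm_gl_V1 O hπ N' q) (ssm_gl_V2 O hπ N' q hq2 hqN')
    (fun x hx => hC1.le H1.over1 hx) (fun x hx => hC1.le H1.over2 hx)
    (algebraMap ↥O (fc_chart ↥O ({lg_lamE (N' * q)} : Set ↥(lg_E L (N' * q)))) ((q : ℕ) : ↥O))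
    (fun 𝔫1 h𝔫1 h1 h2 => @s36tn_leg_node L _ _ _ O _ N' q _ _ hq _ hq2 hqN' hπ ζ hζ 𝔫1 h𝔫1 h1 h2)
    (fun r hr => (H1.mem_V1_iff hC1).1 hr) (fun r hr => (H1.mem_V2_iff hC1).1 hr)
    ⟨s36i_lam2 L N' q hq2 - lg_lamE (N' * q * q),
      Subalgebra.sub_mem _ (s36tpl_lam2_mem_chart O N' q hq2 hqN' hWB1) (fc_x_mem_chart _)⟩
    hz hzC hram
    (s36tn_leg_iota O N' q)
    (algebraMap ↥(lg_E L (N' * q)) ↥(lg_E L (N' * q * q)))
    (fun x => rfl) (s36tn_leg_iota_isIntegral O N' q) (s36tn_leg_iota_algebraMap O N' q _) rfl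
    (s36tpl_rA O hπ N' q) (s36tpl_rB O hπ N' q hq2 hqN') rC
    (s36tpl_hins O hπ N' q hq2 hqN') hsmB hsmA
    (algebraMap ↥(lg_E L (N' * q)) ↥(lg_E L (N' * q * q))).fieldRange (fun y => ⟨y, rfl⟩)
    resA resC (RingEquiv.refl _) (fun y => rfl)
    (s36at_N ↥(lg_E L (N' * q))) (fun x => rfl)
    (s36i_W2 L N' q hq2 hqN') (s36tpl_W2_W2 N' q hq2 hqN')
    (s36tpl_W2_mem_chart O N' q hq2 hqN' hWB1)
    (s36cp_W2_algebraMap O N' q hq2 hqN' _) rfl hV2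
    (algebraMap ↥((lg_E L (N' * q)).map (qExpandAlgHomC L q))
      ↥(lg_E L (N' * q * q))).fieldRange
    (fun y => ⟨s36i_w0 L N' q hq2 hqN' y, s36tpl_w0 N' q hq2 hqN' y⟩)
    (s36i_w0 L N' q hq2 hqN') (s36tpl_w0 N' q hq2 hqN')
    (s36at_N ↥((lg_E L (N' * q)).map (qExpandAlgHomC L q))) (fun x => rfl)
    𝔫 h𝔫 htwo

end NF

end Fermat.Agent.S36
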