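/-
Project S36 (Carayol), cell [L3d]/[L3b] plumbing (helper11; prefix `s36tl11_`): THE CLOSED
`s36tri_LegData` (helper10's input structure of [TRI-INST]-Leg, `S36/Tri/InstLeg.lean`) FROM THE
THIRD-VALUATION PACKAGE `T3 : s36asm_Third O hπ N' q hq2 hqN' VC` (helper1's spelling), with the
uniformiser `z := s36asm_z = λ(X^{q q}) - λ ∈ B₂`.

* `s36tl11_z_eq`, `s36tl11_z_mem` : `s36asm_z = s36i_lam2 - λ`, and `z ∈ B₂ = fc_chart O {λ}` as soon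
  as `W₂ B₂ ⊆ B₂`;
* `s36tl11_legData_of` ([LEG-CTX], general `π`; `hprime`, `hsmA`, `hsmB` as hypotheses);
* `s36tl11_legData` ([NF2-CTX], closed);
* the consumers' one-liners in [NF2-CTX]: `s36tl11_unique` (= `huniq` of helper2's [L3b] wrapper /
  helper17's `s36cp_all_of_two_max`), `s36tl11_unique_W`, `s36tl11_comap`, `s36tl11_triple`.
-/
import Mathlib
import Fermat.Agent.S36.Tri.InstLeg
import Fermat.Agent.S36.Model.AsmLegLast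
import Fermat.Agent.S36.Model.PtsAB
import Fermat.Agent.S36.Ins1.FactsCusp
import Fermat.Agent.S36.Model.BelowInst

set_option autoImplicit false
set_option linter.unusedSectionVars false
set_option linter.unusedVariables false
set_option linter.style.haveILetI false
set_option maxHeartbeats 1000000

noncomputable section

open ModularCurve AlgebraicCurve IntermediateField IsLocalRing Polynomial
open Fermat.Agent.JT3 Fermat.Agent.SS Fermat.Agent.S35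

namespace Fermat.Agent.S36

section Leg

variable {L : Type*} [Field L] [CharZero L] [Algebra L (AlgebraicClosure ℚ)]
  (O : ValuationSubring L) [IsDiscreteValuationRing O] {π : O} (hπ : Irreducible π)
variable (N' q : ℕ) [NeZero N'] [NeZero q] [hq : Fact q.Prime] [CharP (ResidueField O) q]
  (hq2 : ¬ 2 ∣ q) (hqN' : ¬ q ∣ N')

/-- the uniformiser of helper1's package is `λ(X^{q q}) - λ`. -/
theorem s36tl11_z_eq :
    s36asm_z (L := L) N' q hq2 hqN' = s36i_lam2 L N' q hq2 - lg_lamE (N' * q * q) := rfl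

/-- `z ∈ B₂` as soon as `W₂` preserves the chart `B₂`. -/
theorem s36tl11_z_mem
    (hWB1 : ∀ b ∈ fc_chart ↥O ({lg_lamE (N' * q * q)} : Set ↥(lg_E L (N' * q * q))),
      s36i_W2 L N' q hq2 hqN' b ∈
        fc_chart ↥O ({lg_lamE (N' * q * q)} : Set ↥(lg_E L (N' * q * q)))) :
    s36asm_z (L := L) N' q hq2 hqN' ∈
      fc_chart ↥O ({lg_lamE (N' * q * q)} : Set ↥(lg_E L (N' * q * q))) := by
  rw [s36tl11_z_eq, ← s36t3_W2_lam N' q hq2 hqN']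
  exact Subalgebra.sub_mem _ (hWB1 _ (fc_x_mem_chart _)) (fc_x_mem_chart _)

include hqN' in
set_option synthInstance.maxHeartbeats 200000 in
/-- **`s36tri_LegData` from the third-valuation package**, [LEG-CTX], general uniformiser `π`; the
level-`N'` prime hypothesis and the smoothness of the components `A`, `B` as hypotheses. -/
theorem s36tl11_legData_of
    (hprime : Prime (algebraMap ↥O (fc_chart ↥O ({lg_lamE N'} : Set ↥(lg_E L N'))) π))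
    {VC : ValuationSubring ↥(lg_E L (N' * q * q))} (T3 : s36asm_Third O hπ N' q hq2 hqN' VC)
    (hsmA : ∀ 𝔫' : Ideal (fc_chart ↥O ({lg_lamE (N' * q * q)} : Set ↥(lg_E L (N' * q * q)))),
      𝔫'.IsMaximal → ∃ t ∈ 𝔫', ∀ x ∈ 𝔫',
        ∃ s : fc_chart ↥O ({lg_lamE (N' * q * q)} : Set ↥(lg_E L (N' * q * q))), s ∉ 𝔫' ∧
        s * x ∈ ssm_tp_P (fc_chart ↥O ({lg_lamE (N' * q * q)} : Set ↥(lg_E L (N' * q * q))))
          (s36i_VA O hπ (N' * q) q) ⊔ Ideal.span {t})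
    (hsmB : ∀ 𝔫' : Ideal (fc_chart ↥O ({lg_lamE (N' * q * q)} : Set ↥(lg_E L (N' * q * q)))),
      𝔫'.IsMaximal → ∃ t ∈ 𝔫', ∀ x ∈ 𝔫',
        ∃ s : fc_chart ↥O ({lg_lamE (N' * q * q)} : Set ↥(lg_E L (N' * q * q))), s ∉ 𝔫' ∧
        s * x ∈ ssm_tp_P (fc_chart ↥O ({lg_lamE (N' * q * q)} : Set ↥(lg_E L (N' * q * q))))
          (s36cp_VB O hπ N' q hq2 hqN') ⊔ Ideal.span {t}) :
    s36tri_LegData O hπ N' q hq2 hqN' VC
      ⟨s36asm_z (L := L) N' q hq2 hqN',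
        s36tl11_z_mem O N' q hq2 hqN'
          (s36asm_all_of_third O hπ N' q hq2 hqN' hprime T3).1.1⟩ := by
  obtain ⟨⟨hWB1, hWB2⟩, H, -⟩ := s36asm_all_of_third O hπ N' q hq2 hqN' hprime T3
  have T := T3
  unfold s36asm_Third at T
  letI := ssm_gi_algebra (ssm_al_E_le L (N' * q) q)
  letI := ssm_gi_algebraV (ssm_al_E_le L (N' * q) q) (ssm_gl_V1 O hπ N' q)
  haveI := ssm_gi_isScalarTower (ssm_al_E_le L (N' * q) q) (ssm_gl_V1 O hπ N' q)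
  haveI := ssm_go_isScalarTower O (lg_E L (N' * q * q))
  haveI := s36at_leg_fin1 (L := L) N' q hq2
  haveI : Algebra.IsSeparable ↥(lg_E L (N' * q)) ↥(lg_E L (N' * q * q)) := ssm_gi_isSeparable
  have hVC := s36i_leg_hVC_of_third O hπ N' q hq2 hqN' T
  refine
    { H := H
      rC := ?_
      hWC := ?_
      hz := T.z_mem
      hzC := fun x hx => (T.unifC x).1 hx
      hram := ?_
      hsmA := hsmA
      hsmB := hsmB
      hWB := hWB1 }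
  · intro y
    have h := T.overC y
    rw [ssm_gi_mem_range] at h
    exact h
  · intro x
    exact (s36i_leg_mem_VC_iff N' q hq2 hqN' VC hVC x).symm
  · obtain ⟨w, hw, hw', hπw⟩ := T.ramC
    refine ⟨w, hw, hw', ?_⟩
    rw [← hπw]
    rfl

end Leg

section NF

variable (L : Type) [Field L] [NumberField L] [Algebra L (AlgebraicClosure ℚ)]
  (O : ValuationSubring L) [IsDiscreteValuationRing O]
variable (N' q : ℕ) [NeZero N'] [NeZero q] [hq : Fact q.Prime] [CharP (ResidueField O) q]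
  (hq2 : ¬ 2 ∣ q) (hqN' : ¬ q ∣ N') (hπ : Irreducible ((q : ℕ) : ↥O))
  (ζ : L) (hζ : IsPrimitiveRoot ζ N')

include hζ hπ hq2 hqN' in
/-- the level-`N'` prime hypothesis in [NF2-CTX]. -/
theorem s36tl11_hprime :
    Prime (algebraMap ↥O (fc_chart ↥O ({lg_lamE N'} : Set ↥(lg_E L N'))) ((q : ℕ) : ↥O)) :=
  (ssm_ll_prime L N' hπ q (ssm_fln_q_mem L O q) (ssm_fl_ne_two q hq2) hqN' ζ hζ).1

variable {VC : ValuationSubring ↥(lg_E L (N' * q * q))}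

include hζ in
/-- `W₂` preserves the chart `B₂ = fc_chart O {λ}` ([NF2-CTX], from `T3`). -/
theorem s36tl11_hWB1 (T3 : s36asm_Third O hπ N' q hq2 hqN' VC) :
    ∀ b ∈ fc_chart ↥O ({lg_lamE (N' * q * q)} : Set ↥(lg_E L (N' * q * q))),
      s36i_W2 L N' q hq2 hqN' b ∈
        fc_chart ↥O ({lg_lamE (N' * q * q)} : Set ↥(lg_E L (N' * q * q))) :=
  (s36asm_all_of_third O hπ N' q hq2 hqN'
    (s36tl11_hprime L O N' q hq2 hqN' hπ ζ hζ) T3).1.1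

include hζ in
/-- the uniformiser `z = λ(X^{q q}) - λ` of `VC` as an element of the chart `B₂`. -/
def s36tl11_z (T3 : s36asm_Third O hπ N' q hq2 hqN' VC) :
    fc_chart ↥O ({lg_lamE (N' * q * q)} : Set ↥(lg_E L (N' * q * q))) :=
  ⟨s36asm_z (L := L) N' q hq2 hqN',
    s36tl11_z_mem O N' q hq2 hqN' (s36tl11_hWB1 L O N' q hq2 hqN' hπ ζ hζ T3)⟩

include hζ in
set_option synthInstance.maxHeartbeats 200000 in
/-- **`s36tri_LegData` from the third-valuation package**, [NF2-CTX], CLOSED. -/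
theorem s36tl11_legData (T3 : s36asm_Third O hπ N' q hq2 hqN' VC) :
    s36tri_LegData O hπ N' q hq2 hqN' VC (s36tl11_z L O N' q hq2 hqN' hπ ζ hζ T3) := by
  have hp := s36tl11_hprime L O N' q hq2 hqN' hπ ζ hζ
  obtain ⟨⟨hWB1, hWB2⟩, -, -⟩ := s36asm_all_of_third O hπ N' q hq2 hqN' hp T3
  obtain ⟨hsmA, hsmB, -, -⟩ := s36cp_nf_comp L O hπ N' q hq2 hqN' ζ hζ hWB1 hWB2
  exact s36tl11_legData_of O hπ N' q hq2 hqN' hp T3 hsmA hsmB

include hζ in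
/-- **`huniq`**: the point of `B₂` over a crossing point of `B₁` is unique (the shape of helper17's
`s36cp_bl_leg_below / _hall / _cases` and of helper2's [L3b] wrapper). -/
theorem s36tl11_huniq (T3 : s36asm_Third O hπ N' q hq2 hqN' VC) :
    ∀ 𝔫 𝔫' : Ideal (fc_chart ↥O ({lg_lamE (N' * q * q)} : Set ↥(lg_E L (N' * q * q)))),
      𝔫.IsMaximal → 𝔫'.IsMaximal →
      ssm_tp_P (fc_chart ↥O ({lg_lamE (N' * q)} : Set ↥(lg_E L (N' * q))))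
        (ssm_gl_V1 O hπ N' q) ≤ 𝔫.comap (s36tn_leg_iota O N' q) →
      ssm_tp_P (fc_chart ↥O ({lg_lamE (N' * q)} : Set ↥(lg_E L (N' * q))))
        (ssm_gl_V2 O hπ N' q hq2 hqN') ≤ 𝔫.comap (s36tn_leg_iota O N' q) →
      𝔫'.comap (s36tn_leg_iota O N' q) = 𝔫.comap (s36tn_leg_iota O N' q) → 𝔫' = 𝔫 :=
  fun 𝔫 𝔫' h𝔫 h𝔫' hP1 hP2 hc =>
    s36tri_leg_unique L O N' q hq2 hqN' hπ ζ hζ
      (s36tl11_legData L O N' q hq2 hqN' hπ ζ hζ T3) 𝔫 𝔫' h𝔫 h𝔫' hP1 hP2 hc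

include hζ in
/-- the [TP3] package from `T3` ([NF2-CTX]; `VB` in helper17's spelling). -/
theorem s36tl11_hyp (T3 : s36asm_Third O hπ N' q hq2 hqN' VC) :
    s36tp_Hyp (algebraMap ↥O (Algebra.adjoin ↥O
        ({lg_lamE (N' * q * q)} : Set ↥(lg_E L (N' * q * q)))) ((q : ℕ) : ↥O))
      ![s36i_VA O hπ (N' * q) q, s36cp_VB O hπ N' q hq2 hqN', VC] ![1, 1, q - 1] :=
  (s36tl11_legData L O N' q hq2 hqN' hπ ζ hζ T3).H

/-- `VC` lies over `VF` (the `hVC` of helper17's `BelowInst.lean`). -/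
theorem s36tl11_overC (T3 : s36asm_Third O hπ N' q hq2 hqN' VC) :
    letI := ssm_gi_algebra (ssm_al_E_le L (N' * q) q)
    letI := ssm_gi_algebraV (ssm_al_E_le L (N' * q) q) (ssm_gl_V1 O hπ N' q)
    ssm_tw_Over ↥(lg_E L (N' * q)) ↥(ssm_gl_V1 O hπ N' q) VC := by
  unfold s36asm_Third at T3
  letI := ssm_gi_algebra (ssm_al_E_le L (N' * q) q)
  letI := ssm_gi_algebraV (ssm_al_E_le L (N' * q) q) (ssm_gl_V1 O hπ N' q)
  haveI := ssm_gi_isScalarTower (ssm_al_E_le L (N' * q) q) (ssm_gl_V1 O hπ N' q)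
  exact T3.overC

include hζ in
set_option synthInstance.maxHeartbeats 200000 in
/-- **THE POINT BELOW**, closed in [NF2-CTX] from `T3` (helper17's `s36cp_bl_leg_below` with `H`,
`hVC`, `huniq` plugged). -/
theorem s36tl11_below (T3 : s36asm_Third O hπ N' q hq2 hqN' VC)
    (𝔫 : Ideal (fc_chart ↥O ({lg_lamE (N' * q * q)} : Set ↥(lg_E L (N' * q * q)))))
    (h𝔫 : 𝔫.IsMaximal) :
    (ssm_tp_P (fc_chart ↥O ({lg_lamE (N' * q * q)} : Set ↥(lg_E L (N' * q * q))))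
        (s36i_VA O hπ (N' * q) q) ≤ 𝔫 →
      ¬ ssm_tp_P (fc_chart ↥O ({lg_lamE (N' * q * q)} : Set ↥(lg_E L (N' * q * q))))
        (s36cp_VB O hπ N' q hq2 hqN') ≤ 𝔫 →
      (𝔫.comap (s36tn_leg_iota O N' q)).IsMaximal ∧
      ssm_tp_P (fc_chart ↥O ({lg_lamE (N' * q)} : Set ↥(lg_E L (N' * q))))
        (ssm_gl_V1 O hπ N' q) ≤ 𝔫.comap (s36tn_leg_iota O N' q) ∧
      ¬ ssm_tp_P (fc_chart ↥O ({lg_lamE (N' * q)} : Set ↥(lg_E L (N' * q))))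
        (ssm_gl_V2 O hπ N' q hq2 hqN') ≤ 𝔫.comap (s36tn_leg_iota O N' q)) ∧
    (ssm_tp_P (fc_chart ↥O ({lg_lamE (N' * q * q)} : Set ↥(lg_E L (N' * q * q)))) VC ≤ 𝔫 →
      ¬ ssm_tp_P (fc_chart ↥O ({lg_lamE (N' * q * q)} : Set ↥(lg_E L (N' * q * q))))
        (s36cp_VB O hπ N' q hq2 hqN') ≤ 𝔫 →
      (𝔫.comap (s36tn_leg_iota O N' q)).IsMaximal ∧
      ssm_tp_P (fc_chart ↥O ({lg_lamE (N' * q)} : Set ↥(lg_E L (N' * q))))
        (ssm_gl_V1 O hπ N' q) ≤ 𝔫.comap (s36tn_leg_iota O N' q) ∧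
      ¬ ssm_tp_P (fc_chart ↥O ({lg_lamE (N' * q)} : Set ↥(lg_E L (N' * q))))
        (ssm_gl_V2 O hπ N' q hq2 hqN') ≤ 𝔫.comap (s36tn_leg_iota O N' q)) ∧
    (ssm_tp_P (fc_chart ↥O ({lg_lamE (N' * q * q)} : Set ↥(lg_E L (N' * q * q))))
        (s36cp_VB O hπ N' q hq2 hqN') ≤ 𝔫 →
      ¬ ssm_tp_P (fc_chart ↥O ({lg_lamE (N' * q * q)} : Set ↥(lg_E L (N' * q * q))))
        (s36i_VA O hπ (N' * q) q) ≤ 𝔫 →
      (𝔫.comap (s36tn_leg_iota O N' q)).IsMaximal ∧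
      ssm_tp_P (fc_chart ↥O ({lg_lamE (N' * q)} : Set ↥(lg_E L (N' * q))))
        (ssm_gl_V2 O hπ N' q hq2 hqN') ≤ 𝔫.comap (s36tn_leg_iota O N' q) ∧
      ¬ ssm_tp_P (fc_chart ↥O ({lg_lamE (N' * q)} : Set ↥(lg_E L (N' * q))))
        (ssm_gl_V1 O hπ N' q) ≤ 𝔫.comap (s36tn_leg_iota O N' q)) :=
  s36cp_bl_leg_below L O hπ N' q hq2 hqN' ζ hζ (s36tl11_hyp L O N' q hq2 hqN' hπ ζ hζ T3)
    (s36tl11_overC L O N' q hq2 hqN' hπ T3) (s36tl11_huniq L O N' q hq2 hqN' hπ ζ hζ T3) 𝔫 h𝔫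

include hζ in
set_option synthInstance.maxHeartbeats 200000 in
/-- **TWO COMPONENTS THROUGH A CLOSED POINT ⟹ ALL THREE**, closed in [NF2-CTX] from `T3`. -/
theorem s36tl11_hall (T3 : s36asm_Third O hπ N' q hq2 hqN' VC)
    (𝔫 : Ideal (fc_chart ↥O ({lg_lamE (N' * q * q)} : Set ↥(lg_E L (N' * q * q)))))
    (h𝔫 : 𝔫.IsMaximal)
    (h2 : (ssm_tp_P (fc_chart ↥O ({lg_lamE (N' * q * q)} : Set ↥(lg_E L (N' * q * q))))
          (s36i_VA O hπ (N' * q) q) ≤ 𝔫 ∧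
        ssm_tp_P (fc_chart ↥O ({lg_lamE (N' * q * q)} : Set ↥(lg_E L (N' * q * q))))
          (s36cp_VB O hπ N' q hq2 hqN') ≤ 𝔫) ∨
      (ssm_tp_P (fc_chart ↥O ({lg_lamE (N' * q * q)} : Set ↥(lg_E L (N' * q * q))))
          (s36i_VA O hπ (N' * q) q) ≤ 𝔫 ∧
        ssm_tp_P (fc_chart ↥O ({lg_lamE (N' * q * q)} : Set ↥(lg_E L (N' * q * q)))) VC ≤ 𝔫) ∨
      (ssm_tp_P (fc_chart ↥O ({lg_lamE (N' * q * q)} : Set ↥(lg_E L (N' * q * q))))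
          (s36cp_VB O hπ N' q hq2 hqN') ≤ 𝔫 ∧
        ssm_tp_P (fc_chart ↥O ({lg_lamE (N' * q * q)} : Set ↥(lg_E L (N' * q * q)))) VC ≤ 𝔫)) :
    ssm_tp_P (fc_chart ↥O ({lg_lamE (N' * q * q)} : Set ↥(lg_E L (N' * q * q))))
        (s36i_VA O hπ (N' * q) q) ≤ 𝔫 ∧
      ssm_tp_P (fc_chart ↥O ({lg_lamE (N' * q * q)} : Set ↥(lg_E L (N' * q * q))))
        (s36cp_VB O hπ N' q hq2 hqN') ≤ 𝔫 ∧
      ssm_tp_P (fc_chart ↥O ({lg_lamE (N' * q * q)} : Set ↥(lg_E L (N' * q * q)))) VC ≤ 𝔫 := by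
  have T := T3
  unfold s36asm_Third at T
  exact s36cp_bl_leg_hall L O hπ N' q hq2 hqN' ζ hζ (s36tl11_hyp L O N' q hq2 hqN' hπ ζ hζ T3)
    (s36tl11_overC L O N' q hq2 hqN' hπ T3) (s36i_leg_hVC_of_third O hπ N' q hq2 hqN' T)
    (s36tl11_hWB1 L O N' q hq2 hqN' hπ ζ hζ T3) (s36tl11_huniq L O N' q hq2 hqN' hπ ζ hζ T3)
    𝔫 h𝔫 h2

include hζ in
set_option synthInstance.maxHeartbeats 200000 in
/-- **THE CLASSIFICATION OF THE CLOSED POINTS OF THE SPECIAL FIBRE** of the chart `B_x`, closed in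
[NF2-CTX] from `T3`: `A` only, `B` only, `C` only, or all three. -/
theorem s36tl11_cases (T3 : s36asm_Third O hπ N' q hq2 hqN' VC)
    (𝔫 : Ideal (fc_chart ↥O ({lg_lamE (N' * q * q)} : Set ↥(lg_E L (N' * q * q)))))
    (h𝔫 : 𝔫.IsMaximal)
    (hπ𝔫 : algebraMap ↥O (fc_chart ↥O ({lg_lamE (N' * q * q)} : Set ↥(lg_E L (N' * q * q)))) ((q : ℕ) : ↥O)
      ∈ 𝔫) :
    (ssm_tp_P (fc_chart ↥O ({lg_lamE (N' * q * q)} : Set ↥(lg_E L (N' * q * q))))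
        (s36i_VA O hπ (N' * q) q) ≤ 𝔫 ∧
      ¬ ssm_tp_P (fc_chart ↥O ({lg_lamE (N' * q * q)} : Set ↥(lg_E L (N' * q * q))))
        (s36cp_VB O hπ N' q hq2 hqN') ≤ 𝔫 ∧
      ¬ ssm_tp_P (fc_chart ↥O ({lg_lamE (N' * q * q)} : Set ↥(lg_E L (N' * q * q)))) VC ≤ 𝔫) ∨
    (¬ ssm_tp_P (fc_chart ↥O ({lg_lamE (N' * q * q)} : Set ↥(lg_E L (N' * q * q))))
        (s36i_VA O hπ (N' * q) q) ≤ 𝔫 ∧
      ssm_tp_P (fc_chart ↥O ({lg_lamE (N' * q * q)} : Set ↥(lg_E L (N' * q * q))))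
        (s36cp_VB O hπ N' q hq2 hqN') ≤ 𝔫 ∧
      ¬ ssm_tp_P (fc_chart ↥O ({lg_lamE (N' * q * q)} : Set ↥(lg_E L (N' * q * q)))) VC ≤ 𝔫) ∨
    (¬ ssm_tp_P (fc_chart ↥O ({lg_lamE (N' * q * q)} : Set ↥(lg_E L (N' * q * q))))
        (s36i_VA O hπ (N' * q) q) ≤ 𝔫 ∧
      ¬ ssm_tp_P (fc_chart ↥O ({lg_lamE (N' * q * q)} : Set ↥(lg_E L (N' * q * q))))
        (s36cp_VB O hπ N' q hq2 hqN') ≤ 𝔫 ∧
      ssm_tp_P (fc_chart ↥O ({lg_lamE (N' * q * q)} : Set ↥(lg_E L (N' * q * q)))) VC ≤ 𝔫) ∨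
    (ssm_tp_P (fc_chart ↥O ({lg_lamE (N' * q * q)} : Set ↥(lg_E L (N' * q * q))))
        (s36i_VA O hπ (N' * q) q) ≤ 𝔫 ∧
      ssm_tp_P (fc_chart ↥O ({lg_lamE (N' * q * q)} : Set ↥(lg_E L (N' * q * q))))
        (s36cp_VB O hπ N' q hq2 hqN') ≤ 𝔫 ∧
      ssm_tp_P (fc_chart ↥O ({lg_lamE (N' * q * q)} : Set ↥(lg_E L (N' * q * q)))) VC ≤ 𝔫) := by
  have T := T3
  unfold s36asm_Third at T
  exact s36cp_bl_leg_cases L O hπ N' q hq2 hqN' ζ hζ (s36tl11_hyp L O N' q hq2 hqN' hπ ζ hζ T3)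
    (s36tl11_overC L O N' q hq2 hqN' hπ T3) (s36i_leg_hVC_of_third O hπ N' q hq2 hqN' T)
    (s36tl11_hWB1 L O N' q hq2 hqN' hπ ζ hζ T3) (s36tl11_huniq L O N' q hq2 hqN' hπ ζ hζ T3)
    𝔫 h𝔫 hπ𝔫

end NF

end Fermat.Agent.S36
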