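/-
Project S36 (Carayol), cell [M2], leaf [L3d] = [TRI-INST], LEGENDRE (helper10; prefix `s36tri_`):
EVERYTHING OF `Tri/InstLeg.lean` AND OF helper17's `Model/BelowInst.lean` AS A FUNCTION OF THE
THIRD-VALUATION PACKAGE `T3 : s36asm_Third O hπ N' q hq2 hqN' VC` ALONE, [NF2-CTX] at `π := (q : O)`
(the binders of helper1's `s36asm_Leaves4`).

* `s36tri_W_of_third`      : (W) `W₂ B_x ⊆ B_x`, `W₂ B_{x⁻¹} ⊆ B_{x⁻¹}` (helper1/helper29's
  `s36asm_all_of_third`, `hprime` from `ssm_ll_prime`);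
* `s36tri_legData_closed`  : `s36tri_LegData O hπ N' q hq2 hqN' VC (s36tri_z …)`;
* `s36tri_huniq_of_third`  : the closed point of `B₂` over a crossing point of `B₁` is unique
  (helper17's / helper2's `huniq` VERBATIM);
* `s36tri_below_of_third`  : helper17's THE POINT BELOW, closed;
* `s36tri_cases_of_third`  : helper17's classification of the closed points of the special fibre
  (`A` only, `B` only, `C` only, all three), closed;
* `s36tri_triple_of_third` : the triple clause at every closed point containing `PA`, `PB`.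
-/
import Mathlib
import Fermat.Agent.S36.Tri.LegDataOf
import Fermat.Agent.S36.Model.AsmLegLast

set_option autoImplicit false
set_option linter.unusedSectionVars false
set_option linter.unusedVariables false
set_option linter.style.haveILetI false

noncomputable section

open ModularCurve AlgebraicCurve IntermediateField IsLocalRing
open Fermat.Agent.JT3 Fermat.Agent.SS Fermat.Agent.S35

namespace Fermat.Agent.S36

section NF

variable (L : Type) [Field L] [NumberField L] [Algebra L (AlgebraicClosure ℚ)]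
  (O : ValuationSubring L) [IsDiscreteValuationRing O]
variable (N' q : ℕ) [NeZero N'] [NeZero q] [hq : Fact q.Prime] [CharP (ResidueField O) q]
  (hq2 : ¬ 2 ∣ q) (hqN' : ¬ q ∣ N') (hπ : Irreducible ((q : ℕ) : ↥O))
  (ζ : L) (hζ : IsPrimitiveRoot ζ N')

set_option quotPrecheck false

local notation "E1" => ↥(lg_E L (N' * q))
local notation "E2" => ↥(lg_E L (N' * q * q))
local notation "B1" => fc_chart ↥O ({lg_lamE (N' * q)} : Set ↥(lg_E L (N' * q)))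
local notation "B2" => fc_chart ↥O ({lg_lamE (N' * q * q)} : Set ↥(lg_E L (N' * q * q)))
local notation "B2i" => fc_chart ↥O ({(lg_lamE (N' * q * q))⁻¹} : Set ↥(lg_E L (N' * q * q)))
local notation "VA" => s36i_VA O hπ (N' * q) q
local notation "VB" => s36cp_VB O hπ N' q hq2 hqN'
local notation "VF" => ssm_gl_V1 O hπ N' q
local notation "VV" => ssm_gl_V2 O hπ N' q hq2 hqN'
local notation "W2" => s36cp_W2 L N' q hq2 hqN'
local notation "ιι" => s36tn_leg_iota O N' q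

variable {VC : ValuationSubring ↥(lg_E L (N' * q * q))}

include hζ in
set_option synthInstance.maxHeartbeats 400000 in
/-- (W): the `W₂`-stability of the two charts from the third-valuation package. -/
theorem s36tri_W_of_third (T3 : s36asm_Third O hπ N' q hq2 hqN' VC) :
    (∀ b ∈ B2, W2 b ∈ B2) ∧ (∀ b ∈ B2i, W2 b ∈ B2i) := by
  have hqO : ((q : ℕ) : O) ∈ maximalIdeal O := ssm_fln_q_mem L O q
  have hq2' : q ≠ 2 := ssm_fl_ne_two q hq2
  have hp := ssm_ll_prime L N' hπ q hqO hq2' hqN' ζ hζ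
  exact (s36asm_all_of_third O hπ N' q hq2 hqN' hp.1 T3).1

include hζ in
set_option synthInstance.maxHeartbeats 400000 in
/-- **the input structure of [TRI-INST]-Leg as a function of `T3` alone.** -/
theorem s36tri_legData_closed (T3 : s36asm_Third O hπ N' q hq2 hqN' VC) :
    s36tri_LegData O hπ N' q hq2 hqN' VC
      (s36tri_z O N' q hq2 hqN' (s36tri_W_of_third L O N' q hq2 hqN' hπ ζ hζ T3).1) :=
  s36tri_legData_of_third' L O hπ N' q hq2 hqN' ζ hζ T3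
    (s36tri_W_of_third L O N' q hq2 hqN' hπ ζ hζ T3).1
    (s36tri_W_of_third L O N' q hq2 hqN' hπ ζ hζ T3).2

include hζ in
set_option synthInstance.maxHeartbeats 400000 in
/-- **`huniq`**: the closed point of `B₂` over a crossing point of `B₁` is unique. -/
theorem s36tri_huniq_of_third (T3 : s36asm_Third O hπ N' q hq2 hqN' VC) :
    ∀ 𝔫 𝔫' : Ideal B2, 𝔫.IsMaximal → 𝔫'.IsMaximal →
      ssm_tp_P B1 VF ≤ 𝔫.comap ιι → ssm_tp_P B1 VV ≤ 𝔫.comap ιι →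
      𝔫'.comap ιι = 𝔫.comap ιι → 𝔫' = 𝔫 :=
  fun 𝔫 𝔫' h h' h1 h2 hc =>
    s36tri_leg_unique L O N' q hq2 hqN' hπ ζ hζ
      (s36tri_legData_closed L O N' q hq2 hqN' hπ ζ hζ T3) 𝔫 𝔫' h h' h1 h2 hc

/-- `T3.overC` in helper17's spelling. -/
theorem s36tri_overC_of_third (T3 : s36asm_Third O hπ N' q hq2 hqN' VC) :
    letI := ssm_gi_algebra (ssm_al_E_le L (N' * q) q)
    letI := ssm_gi_algebraV (ssm_al_E_le L (N' * q) q) (ssm_gl_V1 O hπ N' q)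
    ssm_tw_Over ↥(lg_E L (N' * q)) ↥(ssm_gl_V1 O hπ N' q) VC := by
  letI := ssm_gi_algebra (ssm_al_E_le L (N' * q) q)
  letI := ssm_gi_algebraV (ssm_al_E_le L (N' * q) q) (ssm_gl_V1 O hπ N' q)
  haveI := ssm_gi_isScalarTower (ssm_al_E_le L (N' * q) q) (ssm_gl_V1 O hπ N' q)
  have T : s36t3_Third ↥(lg_E L (N' * q)) ↥(ssm_gl_V1 O hπ N' q) q (s36at_leg_piF O hπ N' q)
      (s36i_lam2 L N' q hq2 - lg_lamE (N' * q * q)) (s36i_VA O hπ (N' * q) q) VC := T3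
  exact T.overC

include hζ in
set_option synthInstance.maxHeartbeats 400000 in
set_option maxHeartbeats 1600000 in
/-- **THE POINT BELOW**, closed (helper17's `s36cp_bl_leg_below`). -/
theorem s36tri_below_of_third (T3 : s36asm_Third O hπ N' q hq2 hqN' VC)
    (𝔫 : Ideal B2) (h𝔫 : 𝔫.IsMaximal) :
    (ssm_tp_P B2 VA ≤ 𝔫 → ¬ ssm_tp_P B2 VB ≤ 𝔫 →
      (𝔫.comap ιι).IsMaximal ∧ ssm_tp_P B1 VF ≤ 𝔫.comap ιι ∧ ¬ ssm_tp_P B1 VV ≤ 𝔫.comap ιι) ∧
    (ssm_tp_P B2 VC ≤ 𝔫 → ¬ ssm_tp_P B2 VB ≤ 𝔫 →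
      (𝔫.comap ιι).IsMaximal ∧ ssm_tp_P B1 VF ≤ 𝔫.comap ιι ∧ ¬ ssm_tp_P B1 VV ≤ 𝔫.comap ιι) ∧
    (ssm_tp_P B2 VB ≤ 𝔫 → ¬ ssm_tp_P B2 VA ≤ 𝔫 →
      (𝔫.comap ιι).IsMaximal ∧ ssm_tp_P B1 VV ≤ 𝔫.comap ιι ∧ ¬ ssm_tp_P B1 VF ≤ 𝔫.comap ιι) :=
  s36cp_bl_leg_below L O hπ N' q hq2 hqN' ζ hζ
    (s36tri_legData_closed L O N' q hq2 hqN' hπ ζ hζ T3).H
    (s36tri_overC_of_third L O N' q hq2 hqN' hπ T3)
    (s36tri_huniq_of_third L O N' q hq2 hqN' hπ ζ hζ T3) 𝔫 h𝔫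

include hζ in
set_option synthInstance.maxHeartbeats 400000 in
set_option maxHeartbeats 1600000 in
/-- **THE CLASSIFICATION OF THE CLOSED POINTS OF THE SPECIAL FIBRE**, closed (helper17's
`s36cp_bl_leg_cases`): `A` only, `B` only, `C` only, or all three. -/
theorem s36tri_cases_of_third (T3 : s36asm_Third O hπ N' q hq2 hqN' VC)
    (𝔫 : Ideal B2) (h𝔫 : 𝔫.IsMaximal) (hπ𝔫 : algebraMap ↥O B2 ((q : ℕ) : ↥O) ∈ 𝔫) :
    (ssm_tp_P B2 VA ≤ 𝔫 ∧ ¬ ssm_tp_P B2 VB ≤ 𝔫 ∧ ¬ ssm_tp_P B2 VC ≤ 𝔫) ∨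
    (¬ ssm_tp_P B2 VA ≤ 𝔫 ∧ ssm_tp_P B2 VB ≤ 𝔫 ∧ ¬ ssm_tp_P B2 VC ≤ 𝔫) ∨
    (¬ ssm_tp_P B2 VA ≤ 𝔫 ∧ ¬ ssm_tp_P B2 VB ≤ 𝔫 ∧ ssm_tp_P B2 VC ≤ 𝔫) ∨
    (ssm_tp_P B2 VA ≤ 𝔫 ∧ ssm_tp_P B2 VB ≤ 𝔫 ∧ ssm_tp_P B2 VC ≤ 𝔫) := by
  have D := s36tri_legData_closed L O N' q hq2 hqN' hπ ζ hζ T3
  refine s36cp_bl_leg_cases L O hπ N' q hq2 hqN' ζ hζ D.H
    (s36tri_overC_of_third L O N' q hq2 hqN' hπ T3) ?_ D.hWB
    (s36tri_huniq_of_third L O N' q hq2 hqN' hπ ζ hζ T3) 𝔫 h𝔫 hπ𝔫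
  ext x
  rw [ValuationSubring.mem_comap]
  exact D.hWC x

include hζ in
set_option synthInstance.maxHeartbeats 400000 in
set_option maxHeartbeats 1600000 in
/-- **THE TRIPLE CLAUSE**, closed: at every closed point of `B₂` containing `PA` and `PB`. -/
theorem s36tri_triple_of_third (T3 : s36asm_Third O hπ N' q hq2 hqN' VC)
    (𝔪 : Ideal B2) [h𝔪 : 𝔪.IsMaximal] (hA : ssm_tp_P B2 VA ≤ 𝔪) (hB : ssm_tp_P B2 VB ≤ 𝔪) :
    haveI := s36tn_chart_isFractionRing O (N' * q * q)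
    haveI := s36tri_chart_isNoetherianRing O (N' * q * q)
    haveI : 𝔪.IsPrime := h𝔪.isPrime
    ssm_tp_P B2 VC ≤ 𝔪 ∧
    s36tr_TripleAt E2 q (algebraMap ↥O B2 ((q : ℕ) : ↥O)) 𝔪
      (ssm_tp_P B2 VA) (ssm_tp_P B2 VB) (ssm_tp_P B2 VC) :=
  s36tri_leg_triple L O N' q hq2 hqN' hπ ζ hζ
    (s36tri_legData_closed L O N' q hq2 hqN' hπ ζ hζ T3) 𝔪 hA hB

end NF

end Fermat.Agent.S36
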