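/-
Project S36 (Carayol), cell [L3d]-Hes (helper22; prefix `s36tph_`): the closed term (TRI-H) of
helper12's Hesse burn-down, in HIS spelling: `s36mhf_PtsT h3 O h3O hπ N' q hq3 hqN' VC`
(`S36/Model/AsmHesPts.lean`) from helper8's package `T : s36t3h_Third … VC` and the
`W₂`-stability of the two charts.  One call of `s36tph_ptTri` (`S36/Tri/PtTriHes.lean`).
-/
import Mathlib
import Fermat.Agent.S36.Tri.PtTriHes
import Fermat.Agent.S36.Model.AsmHesPts

set_option autoImplicit false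
set_option linter.unusedSectionVars false
set_option linter.unusedVariables false
set_option linter.style.haveILetI false

noncomputable section

namespace Fermat.Agent.S36

open Fermat.Agent.SS Fermat.Agent.JT3 Fermat.Agent.S35 IsLocalRing Polynomial ModularCurve
  IntermediateField

section NF

variable (L : Type) [Field L] [NumberField L] [Algebra L (AlgebraicClosure ℚ)]
  (h3 : (3 : L) ≠ 0) (O : ValuationSubring L) [IsDiscreteValuationRing O] (h3O : IsUnit (3 : O))
variable (N' q : ℕ) [NeZero N'] [NeZero q] [hq : Fact q.Prime] [CharP (ResidueField O) q]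
  (hq3 : ¬ 3 ∣ q) (hqN' : ¬ q ∣ N') (hπ : Irreducible ((q : ℕ) : ↥O))
  (ζ : L) (hζ : IsPrimitiveRoot ζ (3 * N'))

include hζ in
/-- **(TRI-H)**: the two-component clause on the chart `B_x` of the Hesse model of level
`N' q q`, [NF2H-CTX], `q` generic. -/
theorem s36tph_ptsT {VC : ValuationSubring ↥(hs_E L h3 (N' * q * q))}
    (T : s36t3h_Third h3 O h3O hπ N' q hq3 VC)
    (hWB1 : ∀ b ∈ fc_chart ↥O ({hs_muE h3 (N' * q * q) - 1} : Set ↥(hs_E L h3 (N' * q * q))),
      s36ih_W2 h3 N' q hq3 hqN' b ∈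
        fc_chart ↥O ({hs_muE h3 (N' * q * q) - 1} : Set ↥(hs_E L h3 (N' * q * q))))
    (hWB2 : ∀ b ∈ fc_chart ↥O ({(hs_muE h3 (N' * q * q) - 1)⁻¹} : Set ↥(hs_E L h3 (N' * q * q))),
      s36ih_W2 h3 N' q hq3 hqN' b ∈
        fc_chart ↥O ({(hs_muE h3 (N' * q * q) - 1)⁻¹} : Set ↥(hs_E L h3 (N' * q * q)))) :
    s36mhf_PtsT h3 O h3O hπ N' q hq3 hqN' VC := by
  intro 𝔫 h𝔫 _ htwo
  exact s36tph_ptTri L h3 O h3O N' q hq3 hqN' hπ ζ hζ T hWB1 hWB2 𝔫 h𝔫 htwo

end NF

end Fermat.Agent.S36
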