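/-
Project S36 (Carayol), cell [L3d]-Hes → (C-H) (helper22; prefix `s36tph_`): THE CLOSED TERMS
`s36tph_leaves4 : s36mhf_Leaves4 N' q hq3 hqN'` (helper12's last missing hypothesis, `q` generic)
and `s36tph_coreNF_two : s36h_CoreNF N' 2 s36_not_three_dvd_two` (= (C-H) of `S36/FinalTwo.lean`).
-/
import Mathlib
import Fermat.Agent.S36.Tri.PtTriHesPts
import Fermat.Agent.S36.Model.AsmHesFinalT
import Fermat.Agent.S36.Model.ThreeHesC

set_option autoImplicit false
set_option linter.unusedSectionVars false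
set_option linter.unusedVariables false
set_option linter.style.haveILetI false

noncomputable section

namespace Fermat.Agent.S36

open Fermat.Agent.SS Fermat.Agent.JT3 Fermat.Agent.S35 IsLocalRing Polynomial ModularCurve
  IntermediateField

section NF

variable (N' q : ℕ) [NeZero N'] [NeZero q] [hq : Fact q.Prime] (hq3 : ¬ 3 ∣ q) (hqN' : ¬ q ∣ N')

/-- **(TRI-H) for every base**: helper12's `s36mhf_Leaves4` is a closed term (`q` generic). -/
theorem s36tph_leaves4 : s36mhf_Leaves4 N' q hq3 hqN' := by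
  intro L _ _ _ h3 O _ h3O _ hπ ζ hζ VC T
  have hprime := (s36cph_nf_pkg L h3 O N' q hq3 hqN' hπ ζ hζ).1
  obtain ⟨hWB1, hWB2, -⟩ := s36t3h_W_charts h3 O h3O hπ N' q hq3 hqN' hprime T
  exact s36tph_ptsT L h3 O h3O N' q hq3 hqN' hπ ζ hζ T hWB1 hWB2

end NF

section Two

/-- **(C-H)**: the Hesse core at `q = 2`, closed. -/
theorem s36tph_coreNF_two (N' : ℕ) [NeZero N'] (h2N' : ¬ 2 ∣ N') :
    s36h_CoreNF N' 2 s36_not_three_dvd_two :=
  haveI : Fact (Nat.Prime 2) := ⟨Nat.prime_two⟩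
  s36mhf_coreNF_two_of4 N' h2N' (s36tph_leaves4 N' 2 s36_not_three_dvd_two h2N')

end Two

end Fermat.Agent.S36
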