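/-
Project S36 (Carayol), cell [L3d]-Leg (helper22; prefix `s36tpl2_`; Legendre twin of
`S36/Tri/PtTriHes.lean`): THE TRIPLE-POINT CLAUSE `s36g_PtTri` AT EVERY CLOSED POINT OF THE CHART
`B_λ` OF THE LEGENDRE MODEL OF LEVEL `N' q q` LYING ON TWO OF THE THREE VERTICAL COMPONENTS.

One call of helper20's tower-independent `s36tpt_ptTri` (`S36/Tri/PtTriGen.lean`), context
[NF2-CTX] (number-field base, uniformiser `q`); output = helper1's `s36asm_PtsT1`
(`S36/Model/AsmLegLast.lean`) from the third-valuation package `T3 : s36asm_Third … VC`.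
-/
import Mathlib
import Fermat.Agent.S36.Tri.PtTriGen
import Fermat.Agent.S36.Tri.MirrorTransport
import Fermat.Agent.S36.Tri.InstLeg
import Fermat.Agent.S36.Model.AsmLegLast
import Fermat.Agent.S36.Model.PtsAB
import Fermat.Agent.S36.Ins1.FactsCusp
import Fermat.Agent.S36.ATower.Norms
import Fermat.Agent.S36.ATower.Leg

set_option autoImplicit false
set_option linter.unusedSectionVars false
set_option linter.unusedVariables false
set_option linter.style.haveILetI false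

noncomputable section

namespace Fermat.Agent.S36

open Fermat.Agent.SS Fermat.Agent.JT3 Fermat.Agent.S35 IsLocalRing Polynomial ModularCurve
  IntermediateField

section NF

variable (L : Type) [Field L] [NumberField L] [Algebra L (AlgebraicClosure ℚ)]
  (O : ValuationSubring L) [IsDiscreteValuationRing O]
variable (N' q : ℕ) [NeZero N'] [NeZero q] [hq : Fact q.Prime] [CharP (ResidueField O) q]
  (hq2 : ¬ 2 ∣ q) (hqN' : ¬ q ∣ N') (hπ : Irreducible ((q : ℕ) : ↥O))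
  (ζ : L) (hζ : IsPrimitiveRoot ζ N')

include hζ in
set_option synthInstance.maxHeartbeats 400000 in
set_option maxHeartbeats 3200000 in
/-- **[L3d]-Leg: the triple-point clause** at every closed point of `B_λ` lying on two of the
three vertical components (then on all three), Legendre tower, [NF2-CTX]. -/
theorem s36tpl2_ptTri {VC : ValuationSubring ↥(lg_E L (N' * q * q))}
    (T3 : s36asm_Third O hπ N' q hq2 hqN' VC)
    (𝔫 : Ideal (fc_chart ↥O ({lg_lamE (N' * q * q)} : Set ↥(lg_E L (N' * q * q)))))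
    (h𝔫 : 𝔫.IsMaximal)
    (htwo :
      (ssm_tp_P (fc_chart ↥O ({lg_lamE (N' * q * q)} : Set ↥(lg_E L (N' * q * q))))
          (s36i_VA O hπ (N' * q) q) ≤ 𝔫 ∧
        ssm_tp_P (fc_chart ↥O ({lg_lamE (N' * q * q)} : Set ↥(lg_E L (N' * q * q))))
          (s36i_VB O hπ N' q hq2 hqN') ≤ 𝔫) ∨
      (ssm_tp_P (fc_chart ↥O ({lg_lamE (N' * q * q)} : Set ↥(lg_E L (N' * q * q))))
          (s36i_VA O hπ (N' * q) q) ≤ 𝔫 ∧
        ssm_tp_P (fc_chart ↥O ({lg_lamE (N' * q * q)} : Set ↥(lg_E L (N' * q * q))))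
          VC ≤ 𝔫) ∨
      (ssm_tp_P (fc_chart ↥O ({lg_lamE (N' * q * q)} : Set ↥(lg_E L (N' * q * q))))
          (s36i_VB O hπ N' q hq2 hqN') ≤ 𝔫 ∧
        ssm_tp_P (fc_chart ↥O ({lg_lamE (N' * q * q)} : Set ↥(lg_E L (N' * q * q))))
          VC ≤ 𝔫)) :
    letI := ssm_gi_algebra (ssm_al_E_le L (N' * q) q)
    letI := ssm_gi_algebra (ssm_al_E_beta_le L (N' * q) q hq2)
    haveI := s36cp_chart_isFractionRing O (N' * q * q)
    haveI := h𝔫.isPrime
    s36g_PtTri ((q : ℕ) : ↥O) (q - 1) (s36at_N ↥(lg_E L (N' * q)))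
      (s36at_N ↥((lg_E L (N' * q)).map (qExpandAlgHomC L q)))
      (algebraMap ↥(lg_E L (N' * q)) ↥(lg_E L (N' * q * q))).fieldRange
      (algebraMap ↥((lg_E L (N' * q)).map (qExpandAlgHomC L q))
        ↥(lg_E L (N' * q * q))).fieldRange
      (fc_chart ↥O ({lg_lamE (N' * q * q)} : Set ↥(lg_E L (N' * q * q))))
      (ssm_tp_P (fc_chart ↥O ({lg_lamE (N' * q * q)} : Set ↥(lg_E L (N' * q * q))))
        (s36i_VA O hπ (N' * q) q))
      (ssm_tp_P (fc_chart ↥O ({lg_lamE (N' * q * q)} : Set ↥(lg_E L (N' * q * q))))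
        (s36i_VB O hπ N' q hq2 hqN'))
      (ssm_tp_P (fc_chart ↥O ({lg_lamE (N' * q * q)} : Set ↥(lg_E L (N' * q * q))))
        VC) 𝔫 := by
  letI a12 := ssm_gi_algebra (ssm_al_E_le L (N' * q) q)
  letI ab12 := ssm_gi_algebra (ssm_al_E_beta_le L (N' * q) q hq2)
  letI aV12 := ssm_gi_algebraV (ssm_al_E_le L (N' * q) q) (ssm_gl_V1 O hπ N' q)
  haveI tV12 := ssm_gi_isScalarTower (ssm_al_E_le L (N' * q) q) (ssm_gl_V1 O hπ N' q)
  haveI := s36cp_chart_isFractionRing O (N' * q * q)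
  haveI := s36cp_chart_isFractionRing O (N' * q)
  haveI := s36tri_chart_isNoetherianRing O (N' * q * q)
  haveI := s36tri_chart_isNoetherianRing O (N' * q)
  haveI := s36tri_chart_isIntegrallyClosed O (N' * q * q)
  haveI := s36tri_chart_isIntegrallyClosed O (N' * q)
  haveI h𝔫p := h𝔫.isPrime
  haveI := ssm_go_isScalarTower O (lg_E L (N' * q * q))
  haveI := ssm_go_isScalarTower O (lg_E L (N' * q))
  haveI := lgf_finite L (N' * q)
  haveI := lgf_finite L (N' * q * q)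
  haveI : FiniteDimensional ↥(lg_E L (N' * q)) ↥(lg_E L (N' * q * q)) :=
    s36at_leg_fin1 N' q hq2
  haveI : Algebra.IsSeparable ↥(lg_E L (N' * q)) ↥(lg_E L (N' * q * q)) := ssm_gi_isSeparable
  -- the level-`N'` package
  have hqO : ((q : ℕ) : O) ∈ maximalIdeal O := ssm_fln_q_mem L O q
  have hq2' : q ≠ 2 := ssm_fl_ne_two q hq2
  have hp := ssm_ll_prime L N' hπ q hqO hq2' hqN' ζ hζ
  have hprime1 := hp.1
  -- (W), [TP3] from the package
  obtain ⟨⟨hWB1, hWB2⟩, H, -⟩ := s36asm_all_of_third O hπ N' q hq2 hqN' hprime1 T3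
  obtain ⟨hsmA, hsmB, -, -⟩ := s36cp_nf_comp L O hπ N' q hq2 hqN' ζ hζ hWB1 hWB2
  have T := s36t3_leg_third_conv O hπ N' q hq2 hqN' T3
  -- the charts
  have hx1 : Transcendental L (lg_lamE (L := L) (N' * q)) :=
    lgf_lam_transcendental L (N' * q) two_ne_zero
  have hx2 : Transcendental L (lg_lamE (L := L) (N' * q * q)) :=
    lgf_lam_transcendental L (N' * q * q) two_ne_zero
  have hxA1 : Transcendental ↥O (lg_lamE (L := L) (N' * q)) :=
    fc_ff_transcendental (L := L) hx1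
  haveI : IsIntegrallyClosed
      (Algebra.adjoin ↥O ({lg_lamE (N' * q)} : Set ↥(lg_E L (N' * q)))) :=
    fc_ff_isIntegrallyClosed hxA1
  haveI : FaithfulSMul
      (Algebra.adjoin ↥O ({lg_lamE (N' * q)} : Set ↥(lg_E L (N' * q)))) ↥(lg_E L (N' * q)) :=
    (faithfulSMul_iff_algebraMap_injective _ _).2 Subtype.val_injective
  have hxA2 : Transcendental ↥O (lg_lamE (L := L) (N' * q * q)) :=
    fc_ff_transcendental (L := L) hx2
  haveI : IsIntegrallyClosed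
      (Algebra.adjoin ↥O ({lg_lamE (N' * q * q)} : Set ↥(lg_E L (N' * q * q)))) :=
    fc_ff_isIntegrallyClosed hxA2
  haveI : FaithfulSMul
      (Algebra.adjoin ↥O ({lg_lamE (N' * q * q)} : Set ↥(lg_E L (N' * q * q))))
      ↥(lg_E L (N' * q * q)) :=
    (faithfulSMul_iff_algebraMap_injective _ _).2 Subtype.val_injective
  have hC1 := ssm_tp_ff_chart (L := L) hπ hx1
  have hC2 := ssm_tp_ff_chart (L := L) hπ hx2
  -- level `N' q`
  have H1 := ssm_gl_hyp O hπ N' q hq2 hqN' hprime1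
  have leF : ∀ x ∈ fc_chart ↥O ({lg_lamE (N' * q)} : Set ↥(lg_E L (N' * q))),
      x ∈ ssm_gl_V1 O hπ N' q := fun x hx => hC1.le H1.over1 hx
  have leV : ∀ x ∈ fc_chart ↥O ({lg_lamE (N' * q)} : Set ↥(lg_E L (N' * q))),
      x ∈ ssm_gl_V2 O hπ N' q hq2 hqN' := fun x hx => hC1.le H1.over2 hx
  have locF : ∀ r ∈ ssm_gl_V1 O hπ N' q,
      ∃ t : fc_chart ↥O ({lg_lamE (N' * q)} : Set ↥(lg_E L (N' * q))),
        t ∉ ssm_tp_P (fc_chart ↥O ({lg_lamE (N' * q)} : Set ↥(lg_E L (N' * q))))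
          (ssm_gl_V1 O hπ N' q) ∧
        (t : ↥(lg_E L (N' * q))) * r ∈
          fc_chart ↥O ({lg_lamE (N' * q)} : Set ↥(lg_E L (N' * q))) :=
    fun r hr => (H1.mem_V1_iff hC1).1 hr
  have locV : ∀ r ∈ ssm_gl_V2 O hπ N' q hq2 hqN',
      ∃ t : fc_chart ↥O ({lg_lamE (N' * q)} : Set ↥(lg_E L (N' * q))),
        t ∉ ssm_tp_P (fc_chart ↥O ({lg_lamE (N' * q)} : Set ↥(lg_E L (N' * q))))
          (ssm_gl_V2 O hπ N' q hq2 hqN') ∧
        (t : ↥(lg_E L (N' * q))) * r ∈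
          fc_chart ↥O ({lg_lamE (N' * q)} : Set ↥(lg_E L (N' * q))) :=
    fun r hr => (H1.mem_V2_iff hC1).1 hr
  -- the involution
  have hWW := s36w_WE_WE L N' q hq.out hq2 hqN'
  have hWBiff := s36tmt_chart_iff (s36i_W2 L N' q hq2 hqN') hWW
    (fc_chart ↥O ({lg_lamE (N' * q * q)} : Set ↥(lg_E L (N' * q * q)))) hWB1
  have hVC := s36i_leg_hVC_of_third O hπ N' q hq2 hqN' T
  -- side-1 valuation facts
  have rA := s36tri_leg_rA O hπ N' q
  have rB := s36tri_leg_rB O hπ N' q hq2 hqN'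
  have rC : ∀ y : ↥(lg_E L (N' * q)),
      (IntermediateField.inclusion (s36w_E_le1 L N' q)).toRingHom y ∈ VC ↔
        y ∈ ssm_gl_V1 O hπ N' q := by
    intro y
    have h := T.overC y
    rw [ssm_gi_mem_range] at h
    exact h
  have hins := s36tri_leg_ins O hπ N' q hq2 hqN'
  have resA : ∀ x ∈ s36i_VA O hπ (N' * q) q, ∃ y ∈ ssm_gl_V1 O hπ N' q,
      x - (IntermediateField.inclusion (s36w_E_le1 L N' q)).toRingHom y ∈
        (s36i_VA O hπ (N' * q) q).nonunits := by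
    intro x hx
    obtain ⟨y, hy⟩ := T.resA x hx
    exact ⟨y, y.2, hy⟩
  have resC : ∀ x ∈ VC, ∃ y ∈ ssm_gl_V1 O hπ N' q,
      x - (IntermediateField.inclusion (s36w_E_le1 L N' q)).toRingHom y ∈ VC.nonunits := by
    intro x hx
    obtain ⟨y, hy⟩ := T.resC x hx
    exact ⟨y, y.2, hy⟩
  -- the uniformiser of `VC`
  have hzB : s36i_lam2 L N' q hq2 - lg_lamE (N' * q * q) ∈
      fc_chart ↥O ({lg_lamE (N' * q * q)} : Set ↥(lg_E L (N' * q * q))) := by
    have hx : lg_lamE (N' * q * q) ∈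
        fc_chart ↥O ({lg_lamE (N' * q * q)} : Set ↥(lg_E L (N' * q * q))) := fc_x_mem_chart _
    have h2 := hWB1 _ hx
    rw [s36t3_W2_lam N' q hq2 hqN'] at h2
    exact Subalgebra.sub_mem _ h2 hx
  have hram : ∃ w : ↥(lg_E L (N' * q * q)), w ∈ VC ∧ w⁻¹ ∈ VC ∧
      algebraMap ↥O ↥(lg_E L (N' * q * q)) ((q : ℕ) : ↥O) =
        w * (s36i_lam2 L N' q hq2 - lg_lamE (N' * q * q)) ^ (q - 1) := by
    obtain ⟨u, hu, hu', h⟩ := T.ramC
    exact ⟨u, hu, hu', h⟩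
  have hw' : ∀ y : ↥(lg_E L (N' * q)),
      algebraMap ↥((lg_E L (N' * q)).map (qExpandAlgHomC L q)) ↥(lg_E L (N' * q * q))
          (s36i_gw0 q (lg_E L (N' * q)) (ssm_gl_W L N' q hq2 hqN') y) =
        s36i_W2 L N' q hq2 hqN'
          ((IntermediateField.inclusion (s36w_E_le1 L N' q)).toRingHom y) := fun y =>
    (s36i_gw0_compat q (lg_E L (N' * q)) (lg_E L (N' * q * q))
      (ssm_al_E_le L (N' * q) q) (ssm_al_E_beta_le L (N' * q) q hq2)
      (ssm_gl_W L N' q hq2 hqN') (s36i_W2 L N' q hq2 hqN')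
      (fun y => s36w_coe_WE_alpha L N' q hq.out hq2 hqN' y _) y).symm
  exact s36tpt_ptTri (B1 := fc_chart ↥O ({lg_lamE (N' * q)} : Set ↥(lg_E L (N' * q))))
    H hC2 rfl rfl hq.out.two_le ((q : ℕ) : ↥O)
    (ssm_gl_V1 O hπ N' q) (ssm_gl_V2 O hπ N' q hq2 hqN') leF leV
    (algebraMap ↥O (fc_chart ↥O ({lg_lamE (N' * q)} : Set ↥(lg_E L (N' * q))))
      ((q : ℕ) : ↥O))
    (fun 𝔫1 h𝔫1 hP1 hP2 =>
      haveI := h𝔫1
      s36tn_leg_node L O N' q hq2 hqN' hπ ζ hζ 𝔫1 hP1 hP2)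
    locF locV
    ⟨s36i_lam2 L N' q hq2 - lg_lamE (N' * q * q), hzB⟩ T.z_mem
    (fun x hx => (T.unifC x).1 hx) hram
    -- side 1
    (s36tn_leg_iota O N' q)
    (IntermediateField.inclusion (s36w_E_le1 L N' q)).toRingHom
    (fun b => s36tn_leg_iota_coe O N' q b) (s36tn_leg_iota_isIntegral O N' q)
    (s36tn_leg_iota_algebraMap O N' q _) rfl
    rA rB rC hins hsmB
    (algebraMap ↥(lg_E L (N' * q)) ↥(lg_E L (N' * q * q))).fieldRange
    (fun y => RingHom.mem_fieldRange.2 ⟨y, rfl⟩) resA resC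
    (RingEquiv.refl ↥(lg_E L (N' * q))) (fun y => rfl)
    (s36at_N ↥(lg_E L (N' * q))) (fun x => rfl)
    -- side 2
    (s36tn_mirror (s36i_W2 L N' q hq2 hqN') hWBiff (s36tn_leg_iota O N' q))
    ((s36i_W2 L N' q hq2 hqN' :
      ↥(lg_E L (N' * q * q)) →+* ↥(lg_E L (N' * q * q))).comp
      (IntermediateField.inclusion (s36w_E_le1 L N' q)).toRingHom)
    (fun b => s36tn_mirror_comm (s36i_W2 L N' q hq2 hqN') hWBiff (s36tn_leg_iota O N' q) _
      (fun b => s36tn_leg_iota_coe O N' q b) b)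
    (s36tn_mirror_isIntegral (s36i_W2 L N' q hq2 hqN') hWBiff (s36tn_leg_iota O N' q)
      (s36tn_leg_iota_isIntegral O N' q))
    (s36cp_W2_algebraMap O N' q hq2 hqN' _)
    (s36tmt_rA (s36i_W2 L N' q hq2 hqN') hWW _ _ _ rA)
    (s36tmt_rB (s36i_W2 L N' q hq2 hqN') _ _ _ rB)
    (s36tmt_rC (s36i_W2 L N' q hq2 hqN') _ VC hVC _ rC)
    (s36tmt_ins (s36i_W2 L N' q hq2 hqN') hWW _ _ _ q hins) hsmA
    (algebraMap ↥((lg_E L (N' * q)).map (qExpandAlgHomC L q))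
      ↥(lg_E L (N' * q * q))).fieldRange
    (fun y => RingHom.mem_fieldRange.2
      ⟨s36i_gw0 q (lg_E L (N' * q)) (ssm_gl_W L N' q hq2 hqN') y, hw' y⟩)
    (s36tmt_resB (s36i_W2 L N' q hq2 hqN') hWW _ _ _ resA)
    (s36tmt_resC (s36i_W2 L N' q hq2 hqN') hWW _ VC hVC _ resC)
    (s36i_gw0 q (lg_E L (N' * q)) (ssm_gl_W L N' q hq2 hqN'))
    hw'
    (s36at_N ↥((lg_E L (N' * q)).map (qExpandAlgHomC L q))) (fun x => rfl)
    𝔫 h𝔫 htwo

include hζ in
/-- **(T1)**: helper1's `s36asm_PtsT1` from the third-valuation package, [NF2-CTX]. -/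
theorem s36tpl2_ptsT1 {VC : ValuationSubring ↥(lg_E L (N' * q * q))}
    (T3 : s36asm_Third O hπ N' q hq2 hqN' VC) :
    s36asm_PtsT1 O hπ N' q hq2 hqN' VC := by
  intro 𝔫 h𝔫 _ htwo
  exact s36tpl2_ptTri L O N' q hq2 hqN' hπ ζ hζ T3 𝔫 h𝔫 htwo

end NF

end Fermat.Agent.S36
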