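/-
Project S36 (Carayol), cell [L3d] (triple points), LEGENDRE, THE CLOSED TERM (T1) (helper20; prefix
`s36tpl_`): helper1's `s36asm_PtsT1 O hπ N' q hq2 hqN' VC` (S36/Model/AsmLegLast.lean: the
two-component clause on the chart `{λ}` of `E₂`) as a function of the third-valuation package
`T3 : s36asm_Third O hπ N' q hq2 hqN' VC` ALONE, in [NF2-CTX] with `π = q`:

  `s36tpl_ptsT1 L O N' q hq2 hqN' hπ ζ hζ T3 : s36asm_PtsT1 O hπ N' q hq2 hqN' VC`.

= `s36tpl_hT1` (S36/Tri/PtTriLeg.lean) with (W) and (H) discharged by helper1's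
`s36asm_all_of_third` (helper29's `s36t3_leg_all_of`), `hprime := ssm_ll_prime`.
-/
import Mathlib
import Fermat.Agent.S36.Model.AsmLegLast
import Fermat.Agent.S36.Tri.PtTriLeg

set_option autoImplicit false
set_option linter.unusedSectionVars false
set_option linter.unusedVariables false
set_option linter.style.haveILetI false

noncomputable section

open ModularCurve AlgebraicCurve IntermediateField IsLocalRing
open Fermat.Agent.JT3 Fermat.Agent.SS Fermat.Agent.S35

namespace Fermat.Agent.S36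

section NF

variable (L : Type) [Field L] [NumberField L] [Algebra L (AlgebraicClosure ℚ)]
  (O : ValuationSubring L) [IsDiscreteValuationRing O]
variable (N' q : ℕ) [NeZero N'] [NeZero q] [hq : Fact q.Prime] [CharP (ResidueField O) q]
  (hq2 : ¬ 2 ∣ q) (hqN' : ¬ q ∣ N') (hπ : Irreducible ((q : ℕ) : ↥O))
  (ζ : L) (hζ : IsPrimitiveRoot ζ N')

include hζ in
set_option maxHeartbeats 1600000 in
/-- **(T1), Legendre: the two-component clause on the chart `{λ}` from the third-valuation package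
alone.** -/
theorem s36tpl_ptsT1 {VC : ValuationSubring ↥(lg_E L (N' * q * q))}
    (T3 : s36asm_Third O hπ N' q hq2 hqN' VC) : s36asm_PtsT1 O hπ N' q hq2 hqN' VC := by
  have hqO : ((q : ℕ) : O) ∈ maximalIdeal O := ssm_fln_q_mem L O q
  have hq2' : q ≠ 2 := ssm_fl_ne_two q hq2
  have hp := ssm_ll_prime L N' hπ q hqO hq2' hqN' ζ hζ
  obtain ⟨⟨hWB1, hWB2⟩, H, -⟩ := s36asm_all_of_third O hπ N' q hq2 hqN' hp.1 T3
  intro 𝔫 h𝔫 _ htwo
  exact s36tpl_hT1 L O N' q hq2 hqN' hπ ζ hζ T3 H hWB1 hWB2 𝔫 h𝔫 htwo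

end NF

end Fermat.Agent.S36
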